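import Fermat.Agent.Lib.RR.Main

/-!
# GAL-RED (interface I3): abstract Deuring reduction of function fields.  Definitions.

`K` a field with a valuation subring `A`, residue field `k`; `F / K` and `Fb / k` function fields
(`Fermat.Agent.Lib.RR.IsFF`); `O` a valuation subring of `F` lying over `A`, with residue field `Fb`.

* `RedData K F k Fb` : the data `(A, O, resA : A → k, res : O → Fb)`.
* `R.red : F → Fb` : the reduction map, extended by `0` outside `O`.  So
  `R.red f ≠ 0` means exactly: `f` is a unit of `O` ("`v(f) = 0`").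
* `R.redSub L` : the reduction of a `K`-subspace `L` of `F` (a `k`-subspace of `Fb`).
* `R.IsCartesian` : `dim_k (red L) = dim_K L` for all finite dimensional `L`.
* `IsRedMap R r` : `r : Place K F → Place k Fb` is "the" reduction map on points.
-/

set_option autoImplicit false

namespace Fermat.Agent.GAL.RED

open AlgebraicCurve Fermat.Agent.Lib.RR

/-- Reduction data. -/
structure RedData (K F k Fb : Type*) [Field K] [Field F] [Algebra K F]
    [Field k] [Field Fb] [Algebra k Fb] where
  /-- valuation ring of the constant field -/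
  A : ValuationSubring K
  /-- valuation ring of the function field ("Gauss valuation") -/
  O : ValuationSubring F
  /-- residue map of `A` -/
  resA : A →+* k
  /-- residue map of `O` -/
  res : O →+* Fb
  resA_surjective : Function.Surjective resA
  res_surjective : Function.Surjective res
  algebraMap_mem : ∀ a : K, a ∈ A → algebraMap K F a ∈ O
  res_algebraMap : ∀ (a : K) (ha : a ∈ A),
    res ⟨algebraMap K F a, algebraMap_mem a ha⟩ = algebraMap k Fb (resA ⟨a, ha⟩)

variable {K F k Fb : Type*} [Field K] [Field F] [Algebra K F] [Field k] [Field Fb] [Algebra k Fb]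

namespace RedData

variable (R : RedData K F k Fb)

open Classical in
/-- The reduction map `F → Fb`, `0` outside `O`. -/
noncomputable def red (f : F) : Fb := if h : f ∈ R.O then R.res ⟨f, h⟩ else 0

open Classical in
/-- The reduction map `K → k`, `0` outside `A`. -/
noncomputable def redA (a : K) : k := if h : a ∈ R.A then R.resA ⟨a, h⟩ else 0

theorem red_of_mem {f : F} (h : f ∈ R.O) : R.red f = R.res ⟨f, h⟩ := by simp [red, h]

theorem red_of_not_mem {f : F} (h : f ∉ R.O) : R.red f = 0 := by simp [red, h]

theorem redA_of_mem {a : K} (h : a ∈ R.A) : R.redA a = R.resA ⟨a, h⟩ := by simp [redA, h]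

theorem redA_of_not_mem {a : K} (h : a ∉ R.A) : R.redA a = 0 := by simp [redA, h]

theorem mem_of_red_ne_zero {f : F} (h : R.red f ≠ 0) : f ∈ R.O := by
  by_contra h'
  exact h (R.red_of_not_mem h')

theorem red_add {f g : F} (hf : f ∈ R.O) (hg : g ∈ R.O) : R.red (f + g) = R.red f + R.red g := by
  rw [R.red_of_mem hf, R.red_of_mem hg, R.red_of_mem (R.O.add_mem _ _ hf hg), ← map_add]
  rfl

theorem red_mul {f g : F} (hf : f ∈ R.O) (hg : g ∈ R.O) : R.red (f * g) = R.red f * R.red g := by
  rw [R.red_of_mem hf, R.red_of_mem hg, R.red_of_mem (R.O.mul_mem _ _ hf hg), ← map_mul]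
  rfl

theorem red_algebraMap {a : K} (ha : a ∈ R.A) :
    R.red (algebraMap K F a) = algebraMap k Fb (R.redA a) := by
  rw [R.red_of_mem (R.algebraMap_mem a ha), R.redA_of_mem ha, R.res_algebraMap a ha]

/-- The reduction of a `K`-subspace of `F`. -/
def redSub (L : Submodule K F) : Submodule k Fb where
  carrier := {h | ∃ f ∈ L, f ∈ R.O ∧ R.red f = h}
  zero_mem' := ⟨0, L.zero_mem, R.O.zero_mem, by rw [R.red_of_mem R.O.zero_mem]; exact map_zero _⟩
  add_mem' := by
    rintro _ _ ⟨f, hfL, hfO, rfl⟩ ⟨g, hgL, hgO, rfl⟩
    exact ⟨f + g, L.add_mem hfL hgL, R.O.add_mem _ _ hfO hgO, R.red_add hfO hgO⟩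
  smul_mem' := by
    rintro c _ ⟨f, hfL, hfO, rfl⟩
    obtain ⟨⟨a, ha⟩, rfl⟩ := R.resA_surjective c
    refine ⟨a • f, L.smul_mem a hfL, ?_, ?_⟩
    · rw [Algebra.smul_def]; exact R.O.mul_mem _ _ (R.algebraMap_mem a ha) hfO
    · rw [Algebra.smul_def, R.red_mul (R.algebraMap_mem a ha) hfO, R.red_algebraMap ha,
        R.redA_of_mem ha, Algebra.smul_def]

theorem mem_redSub {L : Submodule K F} {h : Fb} :
    h ∈ R.redSub L ↔ ∃ f ∈ L, f ∈ R.O ∧ R.red f = h := Iff.rfl

/-- "(a)": reduction preserves the dimension of finite dimensional subspaces. -/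
def IsCartesian : Prop :=
  ∀ L : Submodule K F, Module.Finite K L →
    Module.finrank k (R.redSub L) = Module.finrank K L

end RedData

/-- `r` is the reduction map on points: it is onto, compatible with principal divisors of units of
`O`, and the reduction of `L(D)` is `L(r_* D)` for `deg D` large. -/
structure IsRedMap [HasPrincipalDivisors K F] [HasPrincipalDivisors k Fb]
    (R : RedData K F k Fb) (r : Place K F → Place k Fb) : Prop where
  surjective : Function.Surjective r
  map_divOf : ∀ y : F, R.red y ≠ 0 →
    Finsupp.mapDomain r (divOf (K := K) y) = divOf (K := k) (R.red y)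
  redSub_L : ∀ D : Divisor K F, 3 * (genusFF K F : ℤ) ≤ Divisor.degree D →
    R.redSub (riemannRochSpace D) = riemannRochSpace (Finsupp.mapDomain r D)

/-- The polar divisor `(y)_∞`. -/
noncomputable def poleDiv [HasPrincipalDivisors K F] (y : F) : Divisor K F :=
  (divOf (K := K) y).mapRange (fun n : ℤ => max (-n) 0) (by simp)

@[simp] theorem poleDiv_apply [HasPrincipalDivisors K F] (y : F) (P : Place K F) :
    poleDiv (K := K) y P = max (-(P.ord y)) 0 := by
  simp [poleDiv]

/-- `z` is linearly independent over `K[y]` (equivalently over `K(y)`), in elementary form. -/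
def PolyIndep (K : Type*) {F : Type*} [Field K] [Field F] [Algebra K F] (y : F) {n : ℕ}
    (z : Fin n → F) : Prop :=
  ∀ p : Fin n → Polynomial K, ∑ i, Polynomial.aeval y (p i) * z i = 0 → p = 0

end Fermat.Agent.GAL.RED
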