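import Fermat.Agent.GAL.RED.Const

/-!
# GAL-RED leaf D4: injectivity of the reduction on prime-to-`char k` torsion (Kummer form).
-/

set_option autoImplicit false

namespace Fermat.Agent.GAL.RED

open AlgebraicCurve Fermat.Agent.Lib.RR

variable {K F k Fb : Type*} [Field K] [Field F] [Algebra K F] [Field k] [Field Fb] [Algebra k Fb]

theorem Inj_divOf_one {K F : Type*} [Field K] [Field F] [Algebra K F] [HasPrincipalDivisors K F] :
    divOf (K := K) (1 : F) = 0 := by
  rw [← map_one (algebraMap K F), divOf_algebraMap]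

variable [IsFF K F] [IsAlgClosed K] [IsFF k Fb] [IsAlgClosed k]

/-- (D4) INJ, given the reduction map. -/
theorem inj_of_isRedMap {R : RedData K F k Fb} {r : Place K F → Place k Fb}
    (hC : R.IsCartesian) (hg : genusFF K F = genusFF k Fb) (hr : IsRedMap R r)
    (m : ℕ) (hm : (m : k) ≠ 0) (f : F) (hdiv : ∀ P : Place K F, (m : ℤ) ∣ P.ord f)
    (h : Fb) (hh : h ≠ 0) (hres : R.red f = h ^ m) : ∃ w : F, f = w ^ m := by
  classical
  have hm0 : m ≠ 0 := by
    rintro rfl
    simp at hm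
  have hmZ : (m : ℤ) ≠ 0 := by exact_mod_cast hm0
  -- lift `h`
  obtain ⟨h0, hh0O, hh0⟩ := R.exists_lift h
  have hh0ne : R.red h0 ≠ 0 := by rw [hh0]; exact hh
  have hfne : R.red f ≠ 0 := by rw [hres]; exact pow_ne_zero _ hh
  have hf0 : f ≠ 0 := R.ne_zero_of_red_ne_zero hfne
  have hh00 : h0 ≠ 0 := R.ne_zero_of_red_ne_zero hh0ne
  set f2 : F := f / h0 ^ m with hf2
  have hf2red : R.red f2 = 1 := by
    rw [hf2, R.red_div (R.mem_of_red_ne_zero hfne) (by rw [R.red_pow]; exact pow_ne_zero _ hh0ne),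
      R.red_pow, hres, hh0, div_self (pow_ne_zero _ hh)]
  have hf2ne : R.red f2 ≠ 0 := by rw [hf2red]; exact one_ne_zero
  have hf20 : f2 ≠ 0 := div_ne_zero hf0 (pow_ne_zero _ hh00)
  have hdiv2 : ∀ P : Place K F, (m : ℤ) ∣ P.ord f2 := by
    intro P
    rw [hf2, ord_div P hf0 (pow_ne_zero _ hh00), ord_pow]
    exact dvd_sub (hdiv P) (dvd_mul_right _ _)
  -- the divisor `D`
  set D : Divisor K F := (divOf (K := K) f2).mapRange (fun n => n / (m : ℤ)) (by simp) with hD
  have hmD : (m : ℤ) • D = divOf (K := K) f2 := by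
    ext P
    rw [Finsupp.smul_apply, hD, Finsupp.mapRange_apply, divOf_apply, smul_eq_mul,
      Int.mul_ediv_cancel' (hdiv2 P)]
  have hrD : Finsupp.mapDomain r D = 0 := by
    have h1 : (m : ℤ) • Finsupp.mapDomain r D = 0 := by
      rw [← mapDomain_zsmul', hmD, hr.map_divOf f2 hf2ne, hf2red, Inj_divOf_one]
    ext Q
    have h2 := DFunLike.congr_fun h1 Q
    rw [Finsupp.smul_apply, smul_eq_mul, Finsupp.zero_apply] at h2
    rw [Finsupp.zero_apply]
    exact (mul_eq_zero.mp h2).resolve_left hmZ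
  have hdegD : Divisor.degree D = 0 := by
    have h1 : (m : ℤ) * Divisor.degree D = 0 := by
      rw [← smul_eq_mul, ← map_zsmul, hmD, degree_divOf]
    exact (mul_eq_zero.mp h1).resolve_left hmZ
  -- the non special divisor
  obtain ⟨s, hscard, hsell⟩ := exists_nonspecial (K := k) (F := Fb)
  set P0 : Place k Fb → Place K F := Function.surjInv hr.surjective with hP0def
  have hP0 : ∀ Q, r (P0 Q) = Q := Function.surjInv_eq hr.surjective
  set E0 : Divisor K F := ∑ Q ∈ s, pt (P0 Q) with hE0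
  have hdegE0 : Divisor.degree E0 = genusFF K F := by
    rw [hE0, map_sum]
    simp only [degree_pt, deg_eq_one, Nat.cast_one, Finset.sum_const, hscard, hg, nsmul_eq_mul,
      mul_one]
  have hrE0 : Finsupp.mapDomain r E0 = ∑ Q ∈ s, pt Q := by
    rw [hE0, Finsupp.mapDomain_finsetSum]
    refine Finset.sum_congr rfl fun Q _ => ?_
    rw [pt, Finsupp.mapDomain_single, hP0, pt]
  obtain ⟨u, hu0, huE⟩ := exists_effective (D := D + E0)
    (by rw [map_add, hdegD, hdegE0, zero_add])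
  obtain ⟨c, hc0, hcu⟩ := hC.exists_scale hu0
  have hcF0 : algebraMap K F c ≠ 0 := by simpa using hc0
  set u1 : F := algebraMap K F c * u with hu1
  have hdivu1 : divOf (K := K) u1 = divOf (K := K) u := by
    rw [hu1, divOf_mul hcF0 hu0, divOf_algebraMap, zero_add]
  have hmem : R.red u1 ∈ riemannRochSpace (∑ Q ∈ s, pt Q) := by
    rw [mem_L_iff]
    right
    have h1 := mapDomain_nonneg r huE
    rw [Finsupp.mapDomain_add, Finsupp.mapDomain_add, hrD, zero_add, hrE0, ← hdivu1,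
      hr.map_divOf u1 hcu] at h1
    exact h1
  obtain ⟨cb, hcb⟩ := mem_range_of_ell_eq_one (Const_sum_pt_nonneg s) hsell hmem
  have hcb0 : cb ≠ 0 := by
    rintro rfl
    rw [map_zero] at hcb
    exact hcu hcb.symm
  obtain ⟨c', hc'A, hc'⟩ := R.exists_liftA cb
  have hc'ne : R.redA c' ≠ 0 := by rw [hc']; exact hcb0
  have hc'0 : c' ≠ 0 := (R.redA_ne_zero_iff.mp hc'ne).1
  have hc'F0 : algebraMap K F c' ≠ 0 := by simpa using hc'0
  have hcbF0 : algebraMap k Fb cb ≠ 0 := by simpa using hcb0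
  set u2 : F := u1 / algebraMap K F c' with hu2
  have hu10 : u1 ≠ 0 := mul_ne_zero hcF0 hu0
  have hu20 : u2 ≠ 0 := div_ne_zero hu10 hc'F0
  have hu2red : R.red u2 = 1 := by
    rw [hu2, R.red_div (R.mem_of_red_ne_zero hcu) (by rw [R.red_algebraMap', hc']; exact hcbF0),
      R.red_algebraMap', hc', ← hcb, div_self hcbF0]
  have hu2ne : R.red u2 ≠ 0 := by rw [hu2red]; exact one_ne_zero
  have hdivu2 : divOf (K := K) u2 = divOf (K := K) u := by
    rw [hu2, div_eq_mul_inv, divOf_mul hu10 (inv_ne_zero hc'F0), divOf_inv, divOf_algebraMap,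
      neg_zero, add_zero, hdivu1]
  set E : Divisor K F := divOf (K := K) u2 + (D + E0) with hEdef
  have hE : 0 ≤ E := by rw [hEdef, hdivu2]; exact huE
  have hrE : Finsupp.mapDomain r E = ∑ Q ∈ s, pt Q := by
    rw [hEdef, Finsupp.mapDomain_add, Finsupp.mapDomain_add, hrD, zero_add, hrE0,
      hr.map_divOf u2 hu2ne, hu2red, Inj_divOf_one, zero_add]
  set f' : F := f2 * u2 ^ m with hf'
  have hf'red : R.red f' = 1 := by
    rw [hf', R.red_mul (R.mem_of_red_ne_zero hf2ne) (pow_mem (R.mem_of_red_ne_zero hu2ne) m),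
      R.red_pow, hf2red, hu2red, one_pow, one_mul]
  have hdivf' : divOf (K := K) f' = (m : ℤ) • (E - ∑ Q ∈ s, pt (P0 Q)) := by
    rw [hf', divOf_mul hf20 (pow_ne_zero _ hu20), divOf_pow, ← hmD, ← hE0, hEdef,
      ← natCast_zsmul, ← smul_add]
    congr 1
    abel
  obtain ⟨e, he⟩ := const_of_nonspecial hC hg hr m hm s hsell P0 hP0 E hE hrE f' hf'red hdivf'
  obtain ⟨e1, he1⟩ := IsAlgClosed.exists_pow_nat_eq e (Nat.pos_of_ne_zero hm0)
  refine ⟨algebraMap K F e1 * h0 / u2, ?_⟩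
  rw [div_pow, mul_pow, ← map_pow, he1, he, hf', hf2]
  field_simp

end Fermat.Agent.GAL.RED
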