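import Fermat.Agent.GAL.RED.BAdd

/-!
# GAL-RED leaf C3: the reduction map on points.
-/

set_option autoImplicit false
set_option linter.unusedSectionVars false

namespace Fermat.Agent.GAL.RED

open AlgebraicCurve Fermat.Agent.Lib.RR

variable {K F k Fb : Type*} [Field K] [Field F] [Algebra K F] [Field k] [Field Fb] [Algebra k Fb]
variable [IsFF K F] [IsAlgClosed K] [IsFF k Fb] [IsAlgClosed k]

/-! ### leaf C3 -/

theorem RMap_degree_pt (P : Place K F) : Divisor.degree (pt P) = 1 := by
  rw [degree_pt, deg_eq_one]; rfl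

/-- Step 1: a map `r` with `B(D + P) = B(D) + r P` for `deg D ≥ 3g`. -/
theorem RMap_exists_r (R : RedData K F k Fb) (hC : R.IsCartesian)
    (hg : genusFF K F = genusFF k Fb) :
    ∃ r : Place K F → Place k Fb, ∀ (D : Divisor K F) (P : Place K F),
      3 * (genusFF K F : ℤ) ≤ Divisor.degree D → R.B (D + pt P) = R.B D + pt (r P) := by
  have hg0 : (0 : ℤ) ≤ genusFF K F := by positivity
  obtain ⟨Ps⟩ := IsPreFF.nonempty (K := K) (F := F)
  set E0 : Divisor K F := (3 * genusFF K F) • pt Ps with hE0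
  have hdE0 : Divisor.degree E0 = 3 * (genusFF K F : ℤ) := by
    rw [hE0, map_nsmul, RMap_degree_pt]; simp
  have hVE0 : R.V E0 ≠ ⊥ := RedData.V_ne_bot hC (by omega)
  have hex : ∀ P : Place K F, ∃ Q : Place k Fb, R.B (E0 + pt P) - R.B E0 = pt Q := by
    intro P
    apply exists_eq_pt
    · exact sub_nonneg.2 (RedData.B_mono hVE0 (le_add_pt E0 P))
    · rw [map_sub, RedData.degree_B hC hg (D := E0 + pt P) (by rw [map_add, RMap_degree_pt]; omega),
        RedData.degree_B hC hg (D := E0) (by omega), map_add, RMap_degree_pt]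
      ring
  choose r hr using hex
  refine ⟨r, fun D P hD => ?_⟩
  have h1 : R.B (D + pt P + E0) = R.B (D + pt P) + R.B E0 :=
    RedData.B_add hC hg (by rw [map_add, RMap_degree_pt]; omega) (by omega)
  have h2 : R.B (D + (E0 + pt P)) = R.B D + R.B (E0 + pt P) :=
    RedData.B_add hC hg hD (by rw [map_add, RMap_degree_pt]; omega)
  have h3 : D + pt P + E0 = D + (E0 + pt P) := by abel
  rw [h3, h2] at h1
  have h4 := hr P
  have h5 : R.B (E0 + pt P) = R.B E0 + pt (r P) := by rw [← h4]; abel
  rw [h5] at h1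
  have : R.B (D + pt P) = R.B D + (R.B E0 + pt (r P)) - R.B E0 := by rw [h1]; abel
  rw [this]; abel

/-- Step 2: `B(D) = r_* D` for `deg D ≥ 3g`. -/
theorem RMap_B_eq (R : RedData K F k Fb) (hC : R.IsCartesian)
    (hg : genusFF K F = genusFF k Fb) (r : Place K F → Place k Fb)
    (hr : ∀ (D : Divisor K F) (P : Place K F),
      3 * (genusFF K F : ℤ) ≤ Divisor.degree D → R.B (D + pt P) = R.B D + pt (r P))
    (D : Divisor K F) (hD : 3 * (genusFF K F : ℤ) ≤ Divisor.degree D) :
    R.B D = Finsupp.mapDomain r D := by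
  classical
  have hg0 : (0 : ℤ) ≤ genusFF K F := by positivity
  let C : Divisor K F → Divisor k Fb := fun E => R.B E - Finsupp.mapDomain r E
  have key : ∀ {A B : Divisor K F}, 3 * (genusFF K F : ℤ) ≤ Divisor.degree A → A ≤ B →
      C B = C A := by
    intro A B hA hAB
    refine induction_le (P := fun E => C E = C A) hAB rfl (fun E v hAE hE => ?_)
    have hdE : 3 * (genusFF K F : ℤ) ≤ Divisor.degree E := hA.trans (degree_mono hAE)
    show R.B (E + pt v) - Finsupp.mapDomain r (E + pt v) = C A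
    rw [hr E v hdE, Finsupp.mapDomain_add, Finsupp.mapDomain_single, ← hE]
    show R.B E + pt (r v) - (Finsupp.mapDomain r E + pt (r v)) = R.B E - Finsupp.mapDomain r E
    abel
  have hconst : ∀ A B : Divisor K F, 3 * (genusFF K F : ℤ) ≤ Divisor.degree A →
      3 * (genusFF K F : ℤ) ≤ Divisor.degree B → C A = C B := by
    intro A B hA hB
    exact (key hA (le_sup_left : A ≤ A ⊔ B)).symm.trans (key hB (le_sup_right : B ≤ A ⊔ B))
  have hDD : 3 * (genusFF K F : ℤ) ≤ Divisor.degree (D + D) := by rw [map_add]; omega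
  have h1 : C (D + D) = C D + C D := by
    show R.B (D + D) - Finsupp.mapDomain r (D + D) =
      (R.B D - Finsupp.mapDomain r D) + (R.B D - Finsupp.mapDomain r D)
    rw [RedData.B_add hC hg hD hD, Finsupp.mapDomain_add]
    abel
  rw [hconst (D + D) D hDD hD] at h1
  have h2 : C D = 0 := by
    have := h1
    exact left_eq_add.1 this
  exact sub_eq_zero.1 h2

/-- (c) existence of the reduction map on points. -/
theorem exists_isRedMap (R : RedData K F k Fb) (hC : R.IsCartesian)
    (hg : genusFF K F = genusFF k Fb) : ∃ r : Place K F → Place k Fb, IsRedMap R r := by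
  classical
  have hg0 : (0 : ℤ) ≤ genusFF K F := by positivity
  obtain ⟨r, hr⟩ := RMap_exists_r R hC hg
  have hB := RMap_B_eq R hC hg r hr
  have hdiv : ∀ y : F, R.red y ≠ 0 →
      Finsupp.mapDomain r (divOf (K := K) y) = divOf (K := k) (R.red y) := by
    intro y hy
    obtain ⟨Ps⟩ := IsPreFF.nonempty (K := K) (F := F)
    set E0 : Divisor K F := (3 * genusFF K F) • pt Ps with hE0
    have hdE0 : Divisor.degree E0 = 3 * (genusFF K F : ℤ) := by
      rw [hE0, map_nsmul, RMap_degree_pt]; simp
    have hVE0 : R.V E0 ≠ ⊥ := RedData.V_ne_bot hC (by omega)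
    have h1 := RedData.B_sub_divOf hVE0 hy
    rw [hB E0 (by omega), hB (E0 - divOf y) (by rw [map_sub, degree_divOf]; omega)] at h1
    have h2 : Finsupp.mapDomain r (E0 - divOf y) =
        Finsupp.mapDomain r E0 - Finsupp.mapDomain r (divOf y) :=
      map_sub (Finsupp.mapDomain.addMonoidHom r) E0 (divOf y)
    rw [h2] at h1
    exact sub_right_injective h1
  refine ⟨r, ⟨?_, hdiv, fun D hD => ?_⟩⟩
  · intro Q
    have : Infinite (Place k Fb) := infinite_place
    obtain ⟨Q', hQ'⟩ := exists_ne Q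
    obtain ⟨t, -, ht⟩ := exists_param (K := k) (F := Fb) hQ'.symm (2 * genusFF k Fb + 1) le_rfl
    obtain ⟨h, hO, hred⟩ := R.exists_lift t
    have ht0 : t ≠ 0 := by
      rintro rfl
      rw [Place.ord_zero] at ht
      omega
    have h1 := hdiv h (by rw [hred]; exact ht0)
    by_contra hcon
    have h2 : Finsupp.mapDomain r (divOf (K := K) h) Q = 0 :=
      Finsupp.mapDomain_of_notMem_range _ _ hcon
    rw [h1, divOf_apply, hred, ht] at h2
    omega
  · rw [← hB D hD]
    exact RedData.V_eq_L_B hC hg hD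

end Fermat.Agent.GAL.RED
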