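import Fermat.Agent.GAL.RED.CartesianDeg
import Fermat.Agent.GAL.RED.RMap
import Fermat.Agent.GAL.RED.Inj

/-!
# GAL-RED: the interface theorems (I3).

INPUT (from GAL-IGUSA / GAL-FF): `[IsFF K F] [IsAlgClosed K] [IsFF k Fb] [IsAlgClosed k]`,
`R : RedData K F k Fb`, `R.IsCartesian` (criteria: `isCartesian_of_basis`,
`isCartesian_of_finrank_le`), `genusFF K F = genusFF k Fb`.

OUTPUT: `exists_isRedMap` (reduction map on points / divisors) and `inj`.
-/

set_option autoImplicit false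

namespace Fermat.Agent.GAL.RED

open AlgebraicCurve Fermat.Agent.Lib.RR

variable {K F k Fb : Type*} [Field K] [Field F] [Algebra K F] [Field k] [Field Fb] [Algebra k Fb]
variable [IsFF K F] [IsAlgClosed K] [IsFF k Fb] [IsAlgClosed k]

/-- **INJ** (I3)(d).  `m` invertible in `k`, `m ∣ div f`, `v(f) = 0` and `f̄` an `m`-th power
⟹ `f` is an `m`-th power. -/
theorem inj (R : RedData K F k Fb) (hC : R.IsCartesian) (hg : genusFF K F = genusFF k Fb)
    (m : ℕ) (hm : (m : k) ≠ 0) (f : F) (hdiv : ∀ P : Place K F, (m : ℤ) ∣ P.ord f)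
    (h : Fb) (hh : h ≠ 0) (hres : R.red f = h ^ m) : ∃ w : F, f = w ^ m := by
  obtain ⟨r, hr⟩ := exists_isRedMap R hC hg
  exact inj_of_isRedMap hC hg hr m hm f hdiv h hh hres

/-- INJ in quotient form: `f = P / Q` with `P, Q` integral, `Q̄ ≠ 0`, `P̄ = Q̄`. -/
theorem inj_div (R : RedData K F k Fb) (hC : R.IsCartesian) (hg : genusFF K F = genusFF k Fb)
    (m : ℕ) (hm : (m : k) ≠ 0) (P Q : F) (hQ : R.red Q ≠ 0) (hPQ : R.red P = R.red Q)
    (hdiv : ∀ v : Place K F, (m : ℤ) ∣ v.ord (P / Q)) : ∃ w : F, P / Q = w ^ m := by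
  refine inj R hC hg m hm (P / Q) hdiv 1 one_ne_zero ?_
  rw [R.red_div (R.mem_of_red_ne_zero (hPQ ▸ hQ)) hQ, hPQ, div_self hQ, one_pow]

end Fermat.Agent.GAL.RED
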