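import Fermat.Agent.GAL.RED.Cartesian
import Fermat.Agent.GAL.Gauss.Main

/-!
# GAL-RED leaf E1: the concrete reduction datum of the modular function fields
`F_K(M) = K(j(q^d) : d ∣ M) ⊂ K((q))`, from `GAL/Gauss` (helper85).
-/

set_option autoImplicit false

namespace Fermat.Agent.GAL.RED

open AlgebraicCurve ModularCurve Fermat.Agent.Lib.RR Fermat.Agent.GAL.Gauss

variable {K : Type} [Field K] (A : ValuationSubring K) (M : ℕ) [NeZero M]

set_option synthInstance.maxHeartbeats 400000 in
/-- shortcut instance (the search is slow for `k = IsLocalRing.ResidueField A`). -/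
noncomputable instance instAlgebraResidueFullC :
    Algebra (IsLocalRing.ResidueField ↥A)
      ↥(modularFunctionFieldFullC (IsLocalRing.ResidueField ↥A) M) := inferInstance

theorem coe_algebraMap_fullC {K₀ : Type} [Field K₀] (M₀ : ℕ) (a : K₀) :
    ((algebraMap K₀ ↥(modularFunctionFieldFullC K₀ M₀) a : ↥(modularFunctionFieldFullC K₀ M₀)) :
      LaurentSeries K₀) = HahnSeries.C a := by
  rw [IntermediateField.coe_algebraMap_apply, algebraMap_eq_C]

theorem algebraMap_mem_OFK (hM : ((M : ℕ) : IsLocalRing.ResidueField ↥A) ≠ 0) (a : K)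
    (ha : a ∈ A) : algebraMap K ↥(modularFunctionFieldFullC K M) a ∈ OFK A M hM := by
  rw [mem_OFK_iff, coe_algebraMap_fullC]
  exact (C_mem_gRing_iff A a).mpr ha

theorem resOFK_algebraMap (hM : ((M : ℕ) : IsLocalRing.ResidueField ↥A) ≠ 0) (a : K)
    (ha : a ∈ A) :
    resOFK A M hM ⟨algebraMap K ↥(modularFunctionFieldFullC K M) a, algebraMap_mem_OFK A M hM a ha⟩
      = algebraMap (IsLocalRing.ResidueField ↥A)
          ↥(modularFunctionFieldFullC (IsLocalRing.ResidueField ↥A) M)
          (IsLocalRing.residue ↥A ⟨a, ha⟩) := by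
  apply Subtype.ext
  rw [coe_resOFK]
  refine Eq.trans ?_ (coe_algebraMap_fullC M _).symm
  rw [← gRes_C A ⟨a, ha⟩ ((C_mem_gRing_iff A a).mpr ha)]
  congr 1
  apply Subtype.ext
  exact coe_algebraMap_fullC M a

/-- The Gauss reduction datum of level `M`. -/
noncomputable def gaussRedData (hM : ((M : ℕ) : IsLocalRing.ResidueField ↥A) ≠ 0) :
    RedData K ↥(modularFunctionFieldFullC K M) (IsLocalRing.ResidueField ↥A)
      ↥(modularFunctionFieldFullC (IsLocalRing.ResidueField ↥A) M) where
  A := A
  O := OFK A M hM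
  resA := IsLocalRing.residue ↥A
  res := resOFK A M hM
  resA_surjective := IsLocalRing.residue_surjective
  res_surjective := resOFK_surjective A M hM
  algebraMap_mem := algebraMap_mem_OFK A M hM
  res_algebraMap := resOFK_algebraMap A M hM

variable {A M}

/-- An element of the field whose `q`-expansion has coefficients in `A` is integral, and its
reduction is the coefficientwise reduction. -/
theorem mem_gaussRedData_O (hM : ((M : ℕ) : IsLocalRing.ResidueField ↥A) ≠ 0)
    (x : ↥(modularFunctionFieldFullC K M)) (z : LaurentSeries ↥A)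
    (hz : (x : LaurentSeries K) = iA A z) : x ∈ (gaussRedData A M hM).O := by
  show (x : LaurentSeries K) ∈ gRing A
  rw [hz]; exact iA_mem_gRing A z

theorem coe_gaussRedData_red (hM : ((M : ℕ) : IsLocalRing.ResidueField ↥A) ≠ 0)
    (x : ↥(modularFunctionFieldFullC K M)) (z : LaurentSeries ↥A)
    (hz : (x : LaurentSeries K) = iA A z) :
    (((gaussRedData A M hM).red x : ↥(modularFunctionFieldFullC (IsLocalRing.ResidueField ↥A) M)) :
      LaurentSeries (IsLocalRing.ResidueField ↥A)) = pA A z := by
  rw [(gaussRedData A M hM).red_of_mem (mem_gaussRedData_O hM x z hz)]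
  have hx : x ∈ OFK A M hM := mem_gaussRedData_O hM x z hz
  show ((resOFK A M hM ⟨x, hx⟩ : ↥(modularFunctionFieldFullC (IsLocalRing.ResidueField ↥A) M)) :
      LaurentSeries (IsLocalRing.ResidueField ↥A)) = _
  rw [coe_resOFK]
  exact gRes_of_eq_iA A _ z hz

theorem jqModC_mem_fullC (K₀ : Type) [Field K₀] (M₀ : ℕ) :
    jqModC K₀ ∈ modularFunctionFieldFullC K₀ M₀ :=
  adjoin_j_le K₀ M₀ (IntermediateField.mem_adjoin_simple_self K₀ _)

theorem coe_aeval_fullC {K₀ : Type} [Field K₀] (M₀ : ℕ) (x : ↥(modularFunctionFieldFullC K₀ M₀))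
    (p : Polynomial K₀) :
    ((Polynomial.aeval x p : ↥(modularFunctionFieldFullC K₀ M₀)) : LaurentSeries K₀) =
      Polynomial.aeval (x : LaurentSeries K₀) p :=
  (Polynomial.aeval_algHom_apply (modularFunctionFieldFullC K₀ M₀).val x p).symm

/-- (I3)(a) for the modular function fields.  Apply `isCartesian_of_basis` with `x = j` and
`b i = iA (z i)` for a `GaussBasis` (`exists_gaussBasis`): `hspan` from `GaussBasis.span` (elements
of `K(j)` are quotients of polynomials in `j`: `IntermediateField.mem_adjoin_simple_iff`, clear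
denominators), `hind` from `GaussBasis.indep_res`. -/
theorem gaussRedData_isCartesian (hM : ((M : ℕ) : IsLocalRing.ResidueField ↥A) ≠ 0) :
    (gaussRedData A M hM).IsCartesian := by
  classical
  obtain ⟨n, z, hn0, hz, -, -⟩ := exists_gaussBasis A M hM
  set R := gaussRedData A M hM with hR
  let x : ↥(modularFunctionFieldFullC K M) := ⟨jqModC K, jqModC_mem_fullC K M⟩
  let b : Fin n → ↥(modularFunctionFieldFullC K M) := fun i => ⟨iA A (z i), hz.mem i⟩
  have hxz : (x : LaurentSeries K) = iA A (jqModC ↥A) := (iA_jqModC A).symm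
  have hx : x ∈ R.O := mem_gaussRedData_O hM x _ hxz
  have hb : ∀ i, b i ∈ R.O := fun i => mem_gaussRedData_O hM (b i) (z i) rfl
  have hredx : ((R.red x : ↥(modularFunctionFieldFullC (IsLocalRing.ResidueField ↥A) M)) :
      LaurentSeries (IsLocalRing.ResidueField ↥A)) = jqModC (IsLocalRing.ResidueField ↥A) := by
    rw [hR, coe_gaussRedData_red hM x _ hxz, pA_jqModC]
  have hredb : ∀ i, ((R.red (b i) : ↥(modularFunctionFieldFullC (IsLocalRing.ResidueField ↥A) M)) :
      LaurentSeries (IsLocalRing.ResidueField ↥A)) = pA A (z i) := fun i => by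
    rw [hR, coe_gaussRedData_red hM (b i) (z i) rfl]
  refine isCartesian_of_basis R hn0 x b hx hb ?_ ?_
  · intro f
    obtain ⟨d, hd, hf⟩ := hz.span f f.2
    have key : ∀ i, ∃ r s : Polynomial K, s ≠ 0 ∧
        Polynomial.aeval (jqModC K) s * d i = Polynomial.aeval (jqModC K) r := by
      intro i
      obtain ⟨r, s, hrs⟩ := (IntermediateField.mem_adjoin_simple_iff K _).mp (hd i)
      by_cases hs : Polynomial.aeval (jqModC K) s = 0
      · refine ⟨0, 1, one_ne_zero, ?_⟩
        rw [hrs, hs, div_zero]; simp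
      · refine ⟨r, s, fun h => hs (by rw [h, map_zero]), ?_⟩
        rw [hrs]; field_simp
    choose r s hs hrs using key
    refine ⟨∏ i, s i, fun i => r i * ∏ j ∈ Finset.univ.erase i, s j,
      Finset.prod_ne_zero_iff.mpr fun i _ => hs i, ?_⟩
    apply Subtype.ext
    push_cast
    simp only [coe_aeval_fullC]
    show Polynomial.aeval (jqModC K) (∏ i, s i) * (f : LaurentSeries K) =
      ∑ i, Polynomial.aeval (jqModC K) (r i * ∏ j ∈ Finset.univ.erase i, s j) * iA A (z i)
    rw [hf, Finset.mul_sum]
    refine Finset.sum_congr rfl fun i _ => ?_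
    rw [← Finset.mul_prod_erase Finset.univ s (Finset.mem_univ i), map_mul, map_mul, ← hrs i]
    ring
  · intro p hp
    have h1 := congrArg (Subtype.val) hp
    have h2 : ∑ i, Polynomial.aeval (jqModC (IsLocalRing.ResidueField ↥A)) (p i) * pA A (z i) = 0 := by
      have h3 : ((∑ i, Polynomial.aeval (R.red x) (p i) * R.red (b i) :
          ↥(modularFunctionFieldFullC (IsLocalRing.ResidueField ↥A) M)) :
          LaurentSeries (IsLocalRing.ResidueField ↥A)) = 0 := h1
      push_cast at h3
      simp only [coe_aeval_fullC, hredx, hredb] at h3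
      exact h3
    have h4 := hz.indep_res (fun i => Polynomial.aeval (jqModC (IsLocalRing.ResidueField ↥A)) (p i))
      (fun i => aeval_mem_adjoin _ _) h2
    funext i
    exact (transcendental_iff.mp
      (Fermat.Agent.S28.transcendental_jqModC (IsLocalRing.ResidueField ↥A))) _ (congrFun h4 i)

end Fermat.Agent.GAL.RED
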