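import Fermat.Agent.GAL.RED.Defs

/-!
# GAL-RED leaf A0: elementary API of `R.red`, `R.redA`.

Everything here is formal: `R.res : O →+* Fb` is a surjective ring hom from a local ring onto a
field, hence its kernel is the maximal ideal of `O` (same for `R.resA`).
-/

set_option autoImplicit false

namespace Fermat.Agent.GAL.RED

open AlgebraicCurve Fermat.Agent.Lib.RR

/-! ### generalities on a valuation subring with a surjection onto a field -/

namespace GRed

variable {L κ : Type*} [Field L] [Field κ] (V : ValuationSubring L) (φ : V →+* κ)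

open Classical in
/-- the map `φ` extended by zero -/
noncomputable def gred (f : L) : κ := if h : f ∈ V then φ ⟨f, h⟩ else 0

theorem of_mem {f : L} (h : f ∈ V) : gred V φ f = φ ⟨f, h⟩ := by simp [gred, h]

theorem of_not_mem {f : L} (h : f ∉ V) : gred V φ f = 0 := by simp [gred, h]

theorem mem_of_ne_zero {f : L} (h : gred V φ f ≠ 0) : f ∈ V := by
  by_contra h'
  exact h (of_not_mem V φ h')

theorem zero : gred V φ 0 = 0 := by
  rw [of_mem V φ V.zero_mem]; exact map_zero φ

theorem one : gred V φ 1 = 1 := by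
  rw [of_mem V φ V.one_mem]; exact map_one φ

theorem add {f g : L} (hf : f ∈ V) (hg : g ∈ V) :
    gred V φ (f + g) = gred V φ f + gred V φ g := by
  rw [of_mem V φ hf, of_mem V φ hg, of_mem V φ (V.add_mem _ _ hf hg), ← map_add]
  rfl

theorem mul {f g : L} (hf : f ∈ V) (hg : g ∈ V) :
    gred V φ (f * g) = gred V φ f * gred V φ g := by
  rw [of_mem V φ hf, of_mem V φ hg, of_mem V φ (V.mul_mem _ _ hf hg), ← map_mul]
  rfl

theorem neg (f : L) : gred V φ (-f) = -gred V φ f := by
  by_cases hf : f ∈ V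
  · rw [of_mem V φ hf, of_mem V φ (V.neg_mem _ hf), ← map_neg]
    rfl
  · have hf' : -f ∉ V := fun h => hf (by simpa using V.neg_mem _ h)
    rw [of_not_mem V φ hf, of_not_mem V φ hf', neg_zero]

theorem sub {f g : L} (hf : f ∈ V) (hg : g ∈ V) :
    gred V φ (f - g) = gred V φ f - gred V φ g := by
  rw [sub_eq_add_neg, add V φ hf (V.neg_mem _ hg), neg, sub_eq_add_neg]

theorem natCast (n : ℕ) : gred V φ (n : L) = (n : κ) := by
  have h : (n : L) ∈ V := natCast_mem V n
  rw [of_mem V φ h]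
  have : (⟨(n : L), h⟩ : V) = (n : V) := Subtype.ext (by simp)
  rw [this, map_natCast]

theorem sum {ι : Type*} (s : Finset ι) (f : ι → L) (hf : ∀ i ∈ s, f i ∈ V) :
    gred V φ (∑ i ∈ s, f i) = ∑ i ∈ s, gred V φ (f i) := by
  classical
  induction s using Finset.induction_on with
  | empty => simpa using zero V φ
  | insert i s hi ih =>
    have h1 : ∀ j ∈ s, f j ∈ V := fun j hj => hf j (Finset.mem_insert_of_mem hj)
    rw [Finset.sum_insert hi, Finset.sum_insert hi,
      add V φ (hf i (Finset.mem_insert_self _ _)) (sum_mem h1), ih h1]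

theorem prod {ι : Type*} (s : Finset ι) (f : ι → L) (hf : ∀ i ∈ s, f i ∈ V) :
    gred V φ (∏ i ∈ s, f i) = ∏ i ∈ s, gred V φ (f i) := by
  classical
  induction s using Finset.induction_on with
  | empty => simpa using one V φ
  | insert i s hi ih =>
    have h1 : ∀ j ∈ s, f j ∈ V := fun j hj => hf j (Finset.mem_insert_of_mem hj)
    rw [Finset.prod_insert hi, Finset.prod_insert hi,
      mul V φ (hf i (Finset.mem_insert_self _ _)) (prod_mem h1), ih h1]

variable {V φ} (hφ : Function.Surjective φ)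
include hφ

theorem res_eq_zero_iff (x : V) : φ x = 0 ↔ V.valuation (x : L) < 1 := by
  have hmax : (RingHom.ker φ).IsMaximal := RingHom.ker_isMaximal_of_surjective φ hφ
  have hker : RingHom.ker φ = IsLocalRing.maximalIdeal V := IsLocalRing.eq_maximalIdeal hmax
  rw [← RingHom.mem_ker, hker, ValuationSubring.valuation_lt_one_iff]

theorem eq_zero_iff {f : L} (hf : f ∈ V) : gred V φ f = 0 ↔ V.valuation f < 1 := by
  rw [of_mem V φ hf, res_eq_zero_iff hφ]

theorem ne_zero_iff_valuation {f : L} : gred V φ f ≠ 0 ↔ V.valuation f = 1 := by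
  by_cases hf : f ∈ V
  · have h1 : V.valuation f ≤ 1 := (V.valuation_le_one_iff f).mpr hf
    rw [Ne, eq_zero_iff hφ hf, not_lt]
    exact ⟨fun h => le_antisymm h1 h, fun h => h.ge⟩
  · constructor
    · intro h
      exact absurd (of_not_mem V φ hf) h
    · intro h
      exact absurd ((V.valuation_le_one_iff f).mp h.le) hf

theorem ne_zero_iff {f : L} : gred V φ f ≠ 0 ↔ f ≠ 0 ∧ f ∈ V ∧ f⁻¹ ∈ V := by
  rw [ne_zero_iff_valuation hφ]
  constructor
  · intro h
    refine ⟨?_, (V.valuation_le_one_iff f).mp h.le, (V.valuation_le_one_iff _).mp ?_⟩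
    · rintro rfl
      simp at h
    · rw [map_inv₀, h, inv_one]
  · rintro ⟨h0, h1, h2⟩
    have h3 : V.valuation f ≤ 1 := (V.valuation_le_one_iff f).mpr h1
    have h4 : V.valuation f⁻¹ ≤ 1 := (V.valuation_le_one_iff _).mpr h2
    have h5 : V.valuation f ≠ 0 := (Valuation.ne_zero_iff _).mpr h0
    rw [map_inv₀, inv_le_one₀ (zero_lt_iff.mpr h5)] at h4
    exact le_antisymm h3 h4

theorem inv (f : L) : gred V φ f⁻¹ = (gred V φ f)⁻¹ := by
  by_cases h : gred V φ f = 0
  · rw [h, inv_zero]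
    by_contra h'
    rw [← Ne, ne_zero_iff_valuation hφ, map_inv₀, inv_eq_one] at h'
    exact ((ne_zero_iff_valuation hφ).mpr h') h
  · obtain ⟨h0, h1, h2⟩ := (ne_zero_iff hφ).mp h
    apply eq_inv_of_mul_eq_one_right
    rw [← mul V φ h1 h2, mul_inv_cancel₀ h0, one]

theorem pow (f : L) (n : ℕ) : gred V φ (f ^ n) = gred V φ f ^ n := by
  by_cases hf : f ∈ V
  · induction n with
    | zero => simpa using one V φ
    | succ n ih => rw [pow_succ, pow_succ, mul V φ (pow_mem hf n) hf, ih]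
  · rcases Nat.eq_zero_or_pos n with rfl | hn
    · simpa using one V φ
    · have h1 : 1 < V.valuation f := by
        rw [← not_le, V.valuation_le_one_iff]
        exact hf
      have h2 : f ^ n ∉ V := by
        rw [← V.valuation_le_one_iff, not_le, map_pow]
        exact one_lt_pow₀ h1 hn.ne'
      rw [of_not_mem V φ hf, of_not_mem V φ h2, zero_pow hn.ne']

theorem zpow (f : L) (n : ℤ) : gred V φ (f ^ n) = gred V φ f ^ n := by
  cases n with
  | ofNat n => simpa using pow hφ f n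
  | negSucc n => rw [zpow_negSucc, zpow_negSucc, inv hφ, pow hφ]

theorem div {f g : L} (hf : f ∈ V) (hg : gred V φ g ≠ 0) :
    gred V φ (f / g) = gred V φ f / gred V φ g := by
  rw [div_eq_mul_inv, div_eq_mul_inv, mul V φ hf ((ne_zero_iff hφ).mp hg).2.2, inv hφ]

theorem exists_lift (h : κ) : ∃ f : L, f ∈ V ∧ gred V φ f = h := by
  obtain ⟨⟨f, hf⟩, rfl⟩ := hφ h
  exact ⟨f, hf, of_mem V φ hf⟩

end GRed

variable {K F k Fb : Type*} [Field K] [Field F] [Algebra K F] [Field k] [Field Fb] [Algebra k Fb]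

namespace RedData

variable (R : RedData K F k Fb)

theorem red_eq_gred : R.red = GRed.gred R.O R.res := rfl

theorem redA_eq_gred : R.redA = GRed.gred R.A R.resA := rfl

@[simp] theorem red_zero : R.red 0 = 0 := GRed.zero _ _

@[simp] theorem red_one : R.red 1 = 1 := GRed.one _ _

/-- `R.red f ≠ 0` iff `f` is a unit of `O`. -/
theorem red_ne_zero_iff {f : F} : R.red f ≠ 0 ↔ f ≠ 0 ∧ f ∈ R.O ∧ f⁻¹ ∈ R.O :=
  GRed.ne_zero_iff R.res_surjective

theorem red_ne_zero_iff_valuation {f : F} : R.red f ≠ 0 ↔ R.O.valuation f = 1 :=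
  GRed.ne_zero_iff_valuation R.res_surjective

theorem red_eq_zero_iff {f : F} (hf : f ∈ R.O) : R.red f = 0 ↔ R.O.valuation f < 1 :=
  GRed.eq_zero_iff R.res_surjective hf

theorem ne_zero_of_red_ne_zero {f : F} (h : R.red f ≠ 0) : f ≠ 0 :=
  (R.red_ne_zero_iff.mp h).1

theorem inv_mem_of_red_ne_zero {f : F} (h : R.red f ≠ 0) : f⁻¹ ∈ R.O :=
  (R.red_ne_zero_iff.mp h).2.2

theorem red_neg (f : F) : R.red (-f) = -R.red f := GRed.neg _ _ f

theorem red_sub {f g : F} (hf : f ∈ R.O) (hg : g ∈ R.O) : R.red (f - g) = R.red f - R.red g :=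
  GRed.sub _ _ hf hg

/-- valid for ALL `f` (both sides vanish if `f` is not a unit of `O`). -/
theorem red_inv (f : F) : R.red f⁻¹ = (R.red f)⁻¹ := GRed.inv R.res_surjective f

/-- valid for ALL `f`. -/
theorem red_pow (f : F) (n : ℕ) : R.red (f ^ n) = R.red f ^ n := GRed.pow R.res_surjective f n

theorem red_zpow {f : F} (hf : R.red f ≠ 0) (n : ℤ) : R.red (f ^ n) = R.red f ^ n :=
  GRed.zpow R.res_surjective f n

theorem red_div {f g : F} (hf : f ∈ R.O) (hg : R.red g ≠ 0) : R.red (f / g) = R.red f / R.red g :=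
  GRed.div R.res_surjective hf hg

theorem red_mul_ne_zero {f g : F} (hf : R.red f ≠ 0) (hg : R.red g ≠ 0) : R.red (f * g) ≠ 0 := by
  rw [R.red_mul (R.mem_of_red_ne_zero hf) (R.mem_of_red_ne_zero hg)]
  exact mul_ne_zero hf hg

theorem red_sum {ι : Type*} (s : Finset ι) (f : ι → F) (hf : ∀ i ∈ s, f i ∈ R.O) :
    R.red (∑ i ∈ s, f i) = ∑ i ∈ s, R.red (f i) := GRed.sum _ _ s f hf

theorem red_prod {ι : Type*} (s : Finset ι) (f : ι → F) (hf : ∀ i ∈ s, f i ∈ R.O) :
    R.red (∏ i ∈ s, f i) = ∏ i ∈ s, R.red (f i) := GRed.prod _ _ s f hf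

theorem exists_lift (h : Fb) : ∃ f : F, f ∈ R.O ∧ R.red f = h :=
  GRed.exists_lift R.res_surjective h

/-- adding something of valuation `< 1` does not change the reduction. -/
theorem red_add_of_red_eq_zero {f g : F} (hf : f ∈ R.O) (hg : g ∈ R.O) (hg0 : R.red g = 0) :
    R.red (f + g) = R.red f := by
  rw [R.red_add hf hg, hg0, add_zero]

/-! ### the constant field -/

@[simp] theorem redA_zero : R.redA 0 = 0 := GRed.zero _ _

@[simp] theorem redA_one : R.redA 1 = 1 := GRed.one _ _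

theorem redA_add {a b : K} (ha : a ∈ R.A) (hb : b ∈ R.A) : R.redA (a + b) = R.redA a + R.redA b :=
  GRed.add _ _ ha hb

theorem redA_mul {a b : K} (ha : a ∈ R.A) (hb : b ∈ R.A) : R.redA (a * b) = R.redA a * R.redA b :=
  GRed.mul _ _ ha hb

theorem redA_neg (a : K) : R.redA (-a) = -R.redA a := GRed.neg _ _ a

theorem redA_inv (a : K) : R.redA a⁻¹ = (R.redA a)⁻¹ := GRed.inv R.resA_surjective a

theorem redA_pow (a : K) (n : ℕ) : R.redA (a ^ n) = R.redA a ^ n := GRed.pow R.resA_surjective a n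

theorem redA_natCast (n : ℕ) : R.redA (n : K) = (n : k) := GRed.natCast _ _ n

theorem redA_ne_zero_iff {a : K} : R.redA a ≠ 0 ↔ a ≠ 0 ∧ a ∈ R.A ∧ a⁻¹ ∈ R.A :=
  GRed.ne_zero_iff R.resA_surjective

theorem redA_ne_zero_iff_valuation {a : K} : R.redA a ≠ 0 ↔ R.A.valuation a = 1 :=
  GRed.ne_zero_iff_valuation R.resA_surjective

theorem redA_eq_zero_iff {a : K} (ha : a ∈ R.A) : R.redA a = 0 ↔ R.A.valuation a < 1 :=
  GRed.eq_zero_iff R.resA_surjective ha

theorem mem_of_redA_ne_zero {a : K} (h : R.redA a ≠ 0) : a ∈ R.A := GRed.mem_of_ne_zero _ _ h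

theorem exists_liftA (c : k) : ∃ a : K, a ∈ R.A ∧ R.redA a = c :=
  GRed.exists_lift R.resA_surjective c

/-- `O ∩ K = A`. -/
theorem algebraMap_mem_iff (a : K) : algebraMap K F a ∈ R.O ↔ a ∈ R.A := by
  refine ⟨fun h => ?_, R.algebraMap_mem a⟩
  by_contra ha
  have ha0 : a ≠ 0 := fun h0 => ha (h0 ▸ R.A.zero_mem)
  have hinv : a⁻¹ ∈ R.A := (R.A.mem_or_inv_mem a).resolve_left ha
  have h1 : R.redA a⁻¹ = 0 := by
    by_contra h1
    have := (R.redA_ne_zero_iff.mp h1).2.2
    rw [inv_inv] at this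
    exact ha this
  have h2 : R.red (algebraMap K F a⁻¹) = 0 := by
    rw [R.red_algebraMap hinv, h1, map_zero]
  have h3 : R.red (algebraMap K F a⁻¹) ≠ 0 := by
    rw [R.red_ne_zero_iff]
    refine ⟨by simpa using ha0, R.algebraMap_mem _ hinv, ?_⟩
    rw [map_inv₀, inv_inv]
    exact h
  exact h3 h2

/-- valid for ALL `a : K`. -/
theorem red_algebraMap' (a : K) : R.red (algebraMap K F a) = algebraMap k Fb (R.redA a) := by
  by_cases ha : a ∈ R.A
  · exact R.red_algebraMap ha
  · rw [R.redA_of_not_mem ha, map_zero, R.red_of_not_mem]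
    rwa [R.algebraMap_mem_iff]

theorem smul_mem {a : K} (ha : a ∈ R.A) {f : F} (hf : f ∈ R.O) : a • f ∈ R.O := by
  rw [Algebra.smul_def]
  exact R.O.mul_mem _ _ (R.algebraMap_mem a ha) hf

theorem red_smul {a : K} (ha : a ∈ R.A) {f : F} (hf : f ∈ R.O) :
    R.red (a • f) = R.redA a • R.red f := by
  rw [Algebra.smul_def, R.red_mul (R.algebraMap_mem a ha) hf, R.red_algebraMap ha,
    Algebra.smul_def]

/-- For `a, b : K`: `a / b ∈ A` or `b / a ∈ A`, in the form used for case distinctions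
"`|a| ≤ |b|` or `|b| < |a|`". -/
theorem div_mem_or_small (a b : K) (hb : b ≠ 0) :
    a / b ∈ R.A ∨ (b / a ∈ R.A ∧ R.redA (b / a) = 0) := by
  by_cases h : a / b ∈ R.A
  · exact Or.inl h
  · right
    have h1 : b / a ∈ R.A := by
      have := (R.A.mem_or_inv_mem (a / b)).resolve_left h
      rwa [inv_div] at this
    refine ⟨h1, ?_⟩
    by_contra h2
    have := (R.redA_ne_zero_iff.mp h2).2.2
    rw [inv_div] at this
    exact h this

private theorem aeval_map_eq_sum (q : Polynomial R.A) (x : F) :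
    Polynomial.aeval x (q.map R.A.subtype) =
      ∑ i ∈ Finset.range (q.natDegree + 1), algebraMap K F (q.coeff i : K) * x ^ i := by
  rw [Polynomial.aeval_def, Polynomial.eval₂_map, Polynomial.eval₂_eq_sum_range]
  rfl

/-- polynomials with coefficients in `A`. -/
theorem aeval_map_mem (q : Polynomial R.A) {x : F} (hx : x ∈ R.O) :
    Polynomial.aeval x (q.map R.A.subtype) ∈ R.O := by
  rw [aeval_map_eq_sum]
  exact sum_mem fun i _ => R.O.mul_mem _ _ (R.algebraMap_mem _ (q.coeff i).2) (pow_mem hx i)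

theorem red_aeval_map (q : Polynomial R.A) {x : F} (hx : x ∈ R.O) :
    R.red (Polynomial.aeval x (q.map R.A.subtype)) =
      Polynomial.aeval (R.red x) (q.map R.resA) := by
  rw [aeval_map_eq_sum, R.red_sum _ _ fun i _ =>
    R.O.mul_mem _ _ (R.algebraMap_mem _ (q.coeff i).2) (pow_mem hx i),
    Polynomial.aeval_def, Polynomial.eval₂_map, Polynomial.eval₂_eq_sum_range]
  refine Finset.sum_congr rfl fun i _ => ?_
  rw [R.red_mul (R.algebraMap_mem _ (q.coeff i).2) (pow_mem hx i), R.red_pow,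
    R.red_algebraMap (q.coeff i).2, R.redA_of_mem (q.coeff i).2]
  rfl

end RedData

end Fermat.Agent.GAL.RED
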