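import Fermat.Agent.GAL.RED.Main
import Fermat.Agent.GAL.RED.Concrete

/-!
# GAL-RED: INJ for the modular function fields `F_K(M) = modularFunctionFieldFullC K M`.

Inputs still to be supplied by GAL-FF / GAL-IGUSA: the instances `IsFF` and the equality of genera.
-/

set_option autoImplicit false

namespace Fermat.Agent.GAL.RED

open AlgebraicCurve ModularCurve Fermat.Agent.Lib.RR Fermat.Agent.GAL.Gauss

variable {K : Type} [Field K] (A : ValuationSubring K) (M : ℕ) [NeZero M]

/-- **INJ** for `F_K(M)`: `P, Q ∈ A((q))` with `P, Q ∈ F_K(M)`, `Q̄ ≠ 0`, `P̄ = Q̄`, `m` invertible in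
the residue field, `m ∣ div (P/Q)`.  Then `P/Q` is an `m`-th power in `F_K(M)`. -/
theorem inj_modular [IsAlgClosed K] [IsAlgClosed (IsLocalRing.ResidueField ↥A)]
    [IsFF K ↥(modularFunctionFieldFullC K M)]
    [IsFF (IsLocalRing.ResidueField ↥A) ↥(modularFunctionFieldFullC (IsLocalRing.ResidueField ↥A) M)]
    (hM : ((M : ℕ) : IsLocalRing.ResidueField ↥A) ≠ 0)
    (hg : genusFF K ↥(modularFunctionFieldFullC K M) =
      genusFF (IsLocalRing.ResidueField ↥A)
        ↥(modularFunctionFieldFullC (IsLocalRing.ResidueField ↥A) M))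
    (m : ℕ) (hm : (m : IsLocalRing.ResidueField ↥A) ≠ 0)
    (P Q : ↥(modularFunctionFieldFullC K M)) (p q : LaurentSeries ↥A)
    (hP : (P : LaurentSeries K) = iA A p) (hQ : (Q : LaurentSeries K) = iA A q)
    (hq : pA A q ≠ 0) (hpq : pA A p = pA A q)
    (hdiv : ∀ v : Place K ↥(modularFunctionFieldFullC K M), (m : ℤ) ∣ v.ord (P / Q)) :
    ∃ w : ↥(modularFunctionFieldFullC K M), P / Q = w ^ m := by
  refine inj_div (gaussRedData A M hM) (gaussRedData_isCartesian hM) hg m hm P Q ?_ ?_ hdiv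
  · intro h
    apply hq
    rw [← coe_gaussRedData_red hM Q q hQ, h]
    rfl
  · apply Subtype.ext
    rw [coe_gaussRedData_red hM P p hP, coe_gaussRedData_red hM Q q hQ, hpq]

end Fermat.Agent.GAL.RED
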