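import Fermat.Agent.GAL.RED.Defs

/-!
# GAL-RED leaf B0: basic facts on one function field `F / K`, `K` algebraically closed of any
characteristic, on top of `Fermat.Agent.Lib.RR`.
-/

set_option autoImplicit false

namespace Fermat.Agent.GAL.RED

open AlgebraicCurve Fermat.Agent.Lib.RR

variable {K F : Type*} [Field K] [Field F] [Algebra K F]

/-! ### B0: basics -/

section B0

theorem min_le_ord_add (P : Place K F) {f g : F} (h : f + g ≠ 0) :
    min (P.ord f) (P.ord g) ≤ P.ord (f + g) := by
  rcases eq_or_ne f 0 with rfl | hf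
  · rw [zero_add]
    exact min_le_right _ _
  rcases eq_or_ne g 0 with rfl | hg
  · rw [add_zero]
    exact min_le_left _ _
  exact Fermat.Agent.S24.ord_add_ge P h hf hg

theorem ord_add_eq_of_lt (P : Place K F) {f g : F} (hf : f ≠ 0) (hg : g ≠ 0)
    (h : P.ord f < P.ord g) : P.ord (f + g) = P.ord f := by
  have h1 : P.adicValuation g < P.adicValuation f := by
    rw [P.adicValuation_eq_exp_neg_ord hf, P.adicValuation_eq_exp_neg_ord hg, WithZero.exp_lt_exp]
    omega
  have h2 : P.adicValuation (f + g) = P.adicValuation f := Valuation.map_add_eq_of_lt_left _ h1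
  unfold Place.ord
  rw [h2]

theorem ord_neg (P : Place K F) (f : F) : P.ord (-f) = P.ord f := by
  unfold Place.ord
  rw [Valuation.map_neg]

theorem ord_algebraMap (P : Place K F) (a : K) : P.ord (algebraMap K F a) = 0 :=
  Basic_ord_algebraMap P a

theorem ord_pow (P : Place K F) (f : F) (n : ℕ) : P.ord (f ^ n) = n * P.ord f := by
  rw [← zpow_natCast, P.ord_zpow]

theorem ord_div (P : Place K F) {f g : F} (hf : f ≠ 0) (hg : g ≠ 0) :
    P.ord (f / g) = P.ord f - P.ord g := by
  rw [div_eq_mul_inv, P.ord_mul hf (inv_ne_zero hg), P.ord_inv]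
  ring

variable [IsFF K F] [IsAlgClosed K]

theorem curveBasic_residue_bijective (P : Place K F) :
    Function.Bijective (algebraMap K P.ResidueField) := by
  have : Algebra.IsIntegral K P.ResidueField := Algebra.IsIntegral.of_finite K P.ResidueField
  exact IsAlgClosed.algebraMap_bijective_of_isIntegral

theorem deg_eq_one (P : Place K F) : P.deg = 1 := by
  let e : K ≃ₗ[K] P.ResidueField :=
    LinearEquiv.ofBijective (Algebra.linearMap K P.ResidueField) (curveBasic_residue_bijective P)
  rw [Place.deg, ← e.finrank_eq, Module.finrank_self]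

theorem degree_eq_sum (D : Divisor K F) : Divisor.degree D = D.sum fun _ n => n := by
  rw [Basic_degree_eq_sum]
  refine Finset.sum_congr rfl fun v _ => ?_
  simp only [deg_eq_one v]
  simp

/-- an effective divisor of degree one is a point -/
theorem exists_eq_pt {D : Divisor K F} (h0 : 0 ≤ D) (h1 : Divisor.degree D = 1) :
    ∃ P : Place K F, D = pt P := by
  classical
  have hD : D ≠ 0 := by
    rintro rfl
    rw [map_zero] at h1
    exact zero_ne_one h1
  obtain ⟨P, hP⟩ : ∃ P, D P ≠ 0 := by
    by_contra h
    push Not at h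
    exact hD (Finsupp.ext h)
  have hP1 : 1 ≤ D P := by
    have : 0 ≤ D P := h0 P
    omega
  refine ⟨P, ?_⟩
  have h2 : 0 ≤ D - pt P := by
    intro v
    simp only [Finsupp.coe_zero, Pi.zero_apply, Finsupp.sub_apply, pt, Finsupp.single_apply]
    split_ifs with hv
    · rw [← hv]; omega
    · have : 0 ≤ D v := h0 v
      omega
  have h3 : Divisor.degree (D - pt P) = 0 := by
    rw [map_sub, degree_pt, deg_eq_one, h1]
    norm_num
  exact sub_eq_zero.mp (eq_zero_of_nonneg_of_degree h2 h3)

/-- value of a function at a place (the residue field is `K`). -/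
theorem exists_eval (P : Place K F) {f : F} (hf : 0 ≤ P.ord f) :
    ∃ a : K, f = algebraMap K F a ∨ 0 < P.ord (f - algebraMap K F a) := by
  rcases eq_or_ne f 0 with rfl | hf0
  · exact ⟨0, Or.inl (map_zero _).symm⟩
  have hmem : f ∈ P.toValuationSubring := Fermat.Agent.S24.mem_of_ord_nonneg P hf0 hf
  obtain ⟨a, ha⟩ := (curveBasic_residue_bijective P).2
    (IsLocalRing.residue P.toValuationSubring ⟨f, hmem⟩)
  refine ⟨a, ?_⟩
  have h1 : IsLocalRing.residue P.toValuationSubring
      (⟨f, hmem⟩ - algebraMap K P.toValuationSubring a) = 0 := by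
    rw [map_sub, ← ha]
    exact sub_eq_zero.mpr rfl
  rw [IsLocalRing.residue_eq_zero_iff, Fermat.Agent.S24.mem_maximalIdeal_iff] at h1
  have hcoe : ((⟨f, hmem⟩ - algebraMap K P.toValuationSubring a : P.toValuationSubring) : F)
      = f - algebraMap K F a := rfl
  rw [hcoe] at h1
  rcases h1 with h | h
  · exact Or.inl (sub_eq_zero.mp h)
  · exact Or.inr h

theorem mem_range_of_mem_L_zero {f : F} (hf : f ∈ riemannRochSpace (0 : Divisor K F)) :
    f ∈ Set.range (algebraMap K F) := by
  have hint : IsIntegral K f := (isAlgebraic_of_mem_L_zero hf).isIntegral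
  exact minpoly.mem_range_of_degree_eq_one K f
    (IsAlgClosed.degree_eq_one_of_irreducible K (minpoly.irreducible hint))

theorem mem_range_of_ord_nonneg {f : F} (hf : ∀ P : Place K F, 0 ≤ P.ord f) :
    f ∈ Set.range (algebraMap K F) := by
  apply mem_range_of_mem_L_zero
  rw [mem_riemannRochSpace_iff]
  intro v
  right
  simpa using hf v

/-- if `ℓ(D) = 1` and `D ≥ 0` then `L(D) = K`. -/
theorem mem_range_of_ell_eq_one {D : Divisor K F} (h0 : 0 ≤ D) (h1 : ell D = 1) {f : F}
    (hf : f ∈ riemannRochSpace D) : f ∈ Set.range (algebraMap K F) := by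
  have h1L : (1 : F) ∈ riemannRochSpace D := by
    apply L_mono h0
    have := algebraMap_mem_L_zero (K := K) (F := F) 1
    rwa [map_one] at this
  have hne1 : (⟨1, h1L⟩ : riemannRochSpace D) ≠ 0 := by
    intro hcon
    exact one_ne_zero (congrArg Subtype.val hcon)
  obtain ⟨c, hc⟩ := (finrank_eq_one_iff_of_nonzero' _ hne1).mp h1 ⟨f, hf⟩
  refine ⟨c, ?_⟩
  have := congrArg Subtype.val hc
  simpa [Algebra.smul_def] using this

/-- there is a non constant function. -/
theorem curveBasic_exists_nonconstant : ∃ y : F, y ∉ Set.range (algebraMap K F) := by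
  obtain ⟨P⟩ := IsPreFF.nonempty (K := K) (F := F)
  set D : Divisor K F := (genusFF K F + 1) • pt P with hD
  have h1 := riemann_ineq D
  have hdeg : Divisor.degree D = (genusFF K F : ℤ) + 1 := by
    rw [hD, map_nsmul, degree_pt, deg_eq_one]
    simp
  rw [hdeg, ell_zero] at h1
  have h2 : 2 ≤ ell D := by
    have : (2 : ℤ) ≤ ell D := by push_cast at h1; linarith
    exact_mod_cast this
  by_contra hcon
  push Not at hcon
  have h0 : (0 : Divisor K F) ≤ D := by
    rw [hD]
    exact nsmul_nonneg (by
      have := le_add_pt (0 : Divisor K F) P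
      rwa [zero_add] at this) _
  have h1L : (1 : F) ∈ riemannRochSpace D := by
    apply L_mono h0
    have := algebraMap_mem_L_zero (K := K) (F := F) 1
    rwa [map_one] at this
  have hle : ell D ≤ 1 := by
    apply finrank_le_one (⟨1, h1L⟩ : riemannRochSpace D)
    rintro ⟨f, hf⟩
    obtain ⟨c, hc⟩ := hcon f
    refine ⟨c, Subtype.ext ?_⟩
    show c • (1 : F) = f
    rw [Algebra.smul_def, mul_one, hc]
  omega

/-- a non constant function has a zero. -/
theorem curveBasic_exists_zero {y : F} (hy : y ∉ Set.range (algebraMap K F)) :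
    ∃ P : Place K F, 0 < P.ord y := by
  by_contra hcon
  push Not at hcon
  have h1 : 0 ≤ -divOf (K := K) y := by
    intro v
    simp only [Finsupp.coe_zero, Pi.zero_apply, Finsupp.coe_neg, Pi.neg_apply, divOf_apply]
    have := hcon v
    omega
  have h2 : -divOf (K := K) y = 0 :=
    eq_zero_of_nonneg_of_degree h1 (by rw [map_neg, degree_divOf, neg_zero])
  apply hy
  apply mem_range_of_ord_nonneg
  intro P
  have h3 := congrArg (fun D : Divisor K F => D P) h2
  simp only [Finsupp.coe_neg, Pi.neg_apply, divOf_apply, Finsupp.coe_zero, Pi.zero_apply] at h3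
  omega

theorem infinite_place : Infinite (Place K F) := by
  obtain ⟨y, hy⟩ := curveBasic_exists_nonconstant (K := K) (F := F)
  have hya : ∀ a : K, y - algebraMap K F a ∉ Set.range (algebraMap K F) := by
    rintro a ⟨b, hb⟩
    apply hy
    refine ⟨b + a, ?_⟩
    rw [map_add, hb]
    ring
  choose P hP using fun a => curveBasic_exists_zero (hya a)
  have hinj : Function.Injective P := by
    intro a b hab
    by_contra hne
    have h1 := hP a
    have h2 := hP b
    rw [← hab] at h2
    have h3 : (y - algebraMap K F b) + -(y - algebraMap K F a) = algebraMap K F (a - b) := by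
      rw [map_sub]; ring
    have h4 : algebraMap K F (a - b) ≠ 0 := by
      rw [Ne, map_eq_zero, sub_eq_zero]
      exact hne
    have h5 := min_le_ord_add (P a) (f := y - algebraMap K F b) (g := -(y - algebraMap K F a))
      (by rw [h3]; exact h4)
    rw [h3, ord_algebraMap, ord_neg] at h5
    rcases min_le_iff.mp h5 with h | h <;> omega
  have : Infinite K := IsAlgClosed.instInfinite
  exact Infinite.of_injective P hinj

end B0

end Fermat.Agent.GAL.RED
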