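import Fermat.Agent.GAL.RED.BDeg

/-!
# GAL-RED leaf C2: `B` is monotone, additive, compatible with principal divisors.
-/

set_option autoImplicit false
set_option linter.unusedSectionVars false

namespace Fermat.Agent.GAL.RED

open AlgebraicCurve Fermat.Agent.Lib.RR

variable {K F k Fb : Type*} [Field K] [Field F] [Algebra K F] [Field k] [Field Fb] [Algebra k Fb]
variable [IsFF K F] [IsAlgClosed K] [IsFF k Fb] [IsAlgClosed k]

namespace RedData

variable {R : RedData K F k Fb}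

/-! ### leaf C2 -/

theorem exists_generic_at {D : Divisor K F} (h : R.V D ≠ ⊥) (Q : Place k Fb) :
    ∃ y ∈ R.V D, y ≠ 0 ∧ Q.ord y = -R.B D Q := by
  classical
  obtain ⟨y, hy, hy0, hQ⟩ := R.exists_generic h {Q}
  exact ⟨y, hy, hy0, hQ Q (Finset.mem_singleton_self Q)⟩

theorem B_mono {D D' : Divisor K F} (h : R.V D ≠ ⊥) (hDD' : D ≤ D') : R.B D ≤ R.B D' := by
  intro Q
  obtain ⟨y, hy, hy0, hQ⟩ := exists_generic_at h Q
  have h1 : y ∈ riemannRochSpace (R.B D') :=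
    R.V_le_L_B D' (R.redSub_mono (L_mono hDD') hy)
  have h2 := ((mem_riemannRochSpace_iff.1 h1) Q).resolve_left hy0
  omega

theorem B_add (hC : R.IsCartesian) (hg : genusFF K F = genusFF k Fb) {D₁ D₂ : Divisor K F}
    (h₁ : 3 * (genusFF K F : ℤ) ≤ Divisor.degree D₁)
    (h₂ : 3 * (genusFF K F : ℤ) ≤ Divisor.degree D₂) :
    R.B (D₁ + D₂) = R.B D₁ + R.B D₂ := by
  have hg0 : (0 : ℤ) ≤ genusFF K F := by positivity
  have hV₁ : R.V D₁ ≠ ⊥ := V_ne_bot hC (by omega)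
  have hV₂ : R.V D₂ ≠ ⊥ := V_ne_bot hC (by omega)
  have h₁₂ : 3 * (genusFF K F : ℤ) ≤ Divisor.degree (D₁ + D₂) := by
    rw [map_add]; omega
  have hle : 0 ≤ R.B (D₁ + D₂) - (R.B D₁ + R.B D₂) := by
    intro Q
    obtain ⟨b₁, hb₁, hb₁0, hQ₁⟩ := exists_generic_at hV₁ Q
    obtain ⟨b₂, hb₂, hb₂0, hQ₂⟩ := exists_generic_at hV₂ Q
    obtain ⟨f₁, hf₁L, hf₁O, rfl⟩ := R.mem_redSub.1 hb₁
    obtain ⟨f₂, hf₂L, hf₂O, rfl⟩ := R.mem_redSub.1 hb₂
    have hf₁0 : f₁ ≠ 0 := R.ne_zero_of_red_ne_zero hb₁0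
    have hf₂0 : f₂ ≠ 0 := R.ne_zero_of_red_ne_zero hb₂0
    have hmem : f₁ * f₂ ∈ riemannRochSpace (D₁ + D₂) := by
      rw [mem_riemannRochSpace_iff]
      intro P
      right
      have a₁ := ((mem_riemannRochSpace_iff.1 hf₁L) P).resolve_left hf₁0
      have a₂ := ((mem_riemannRochSpace_iff.1 hf₂L) P).resolve_left hf₂0
      rw [P.ord_mul hf₁0 hf₂0, Finsupp.add_apply]
      omega
    have hV : R.red f₁ * R.red f₂ ∈ R.V (D₁ + D₂) :=
      R.mem_redSub.2 ⟨f₁ * f₂, hmem, R.O.mul_mem _ _ hf₁O hf₂O, R.red_mul hf₁O hf₂O⟩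
    have h3 := ((mem_riemannRochSpace_iff.1 (R.V_le_L_B _ hV)) Q).resolve_left
      (mul_ne_zero hb₁0 hb₂0)
    rw [Q.ord_mul hb₁0 hb₂0] at h3
    simp only [Finsupp.coe_zero, Pi.zero_apply, Finsupp.coe_sub, Finsupp.coe_add, Pi.sub_apply,
      Pi.add_apply]
    omega
  have hdeg : Divisor.degree (R.B (D₁ + D₂) - (R.B D₁ + R.B D₂)) = 0 := by
    rw [map_sub, map_add, degree_B hC hg h₁, degree_B hC hg h₂, degree_B hC hg h₁₂, map_add]
    ring
  exact sub_eq_zero.1 (eq_zero_of_nonneg_of_degree hle hdeg)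

theorem mem_V_sub_divOf_iff (D : Divisor K F) {y : F} (hy : R.red y ≠ 0) (b : Fb) :
    b ∈ R.V D ↔ R.red y * b ∈ R.V (D - divOf y) := by
  have hy0 : y ≠ 0 := R.ne_zero_of_red_ne_zero hy
  have hyO : y ∈ R.O := R.mem_of_red_ne_zero hy
  have hyi : y⁻¹ ∈ R.O := R.inv_mem_of_red_ne_zero hy
  constructor
  · intro hb
    obtain ⟨f, hfL, hfO, rfl⟩ := R.mem_redSub.1 hb
    refine R.mem_redSub.2 ⟨y * f, ?_, R.O.mul_mem _ _ hyO hfO, R.red_mul hyO hfO⟩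
    have : y⁻¹ * (y * f) ∈ riemannRochSpace D := by
      rwa [inv_mul_cancel_left₀ hy0]
    rw [mul_mem_L_iff D (inv_ne_zero hy0), divOf_inv, ← sub_eq_add_neg] at this
    exact this
  · intro hb
    obtain ⟨f, hfL, hfO, hf⟩ := R.mem_redSub.1 hb
    refine R.mem_redSub.2 ⟨y⁻¹ * f, ?_, R.O.mul_mem _ _ hyi hfO, ?_⟩
    · rw [mul_mem_L_iff D (inv_ne_zero hy0), divOf_inv, ← sub_eq_add_neg]
      exact hfL
    · rw [R.red_mul hyi hfO, hf, R.red_inv, inv_mul_cancel_left₀ hy]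

theorem B_sub_divOf {D : Divisor K F} (h : R.V D ≠ ⊥) {y : F} (hy : R.red y ≠ 0) :
    R.B (D - divOf y) = R.B D - divOf (R.red y) := by
  have hne : R.V (D - divOf y) ≠ ⊥ := by
    obtain ⟨b, hb, hb0⟩ := Submodule.exists_mem_ne_zero_of_ne_bot h
    intro hbot
    have := (mem_V_sub_divOf_iff D hy b).1 hb
    rw [hbot, Submodule.mem_bot] at this
    exact mul_ne_zero hy hb0 this
  apply genDiv_unique (R.V (D - divOf y)) (R.V_le_L_B _) (fun Q => exists_generic_at hne Q)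
  · intro b hb
    have hb' : R.red y * ((R.red y)⁻¹ * b) ∈ R.V (D - divOf y) := by
      rwa [mul_inv_cancel_left₀ hy]
    have h1 := R.V_le_L_B D ((mem_V_sub_divOf_iff D hy _).2 hb')
    rw [mul_mem_L_iff _ (inv_ne_zero hy), divOf_inv, ← sub_eq_add_neg] at h1
    exact h1
  · intro Q
    obtain ⟨b, hb, hb0, hQ⟩ := exists_generic_at h Q
    refine ⟨R.red y * b, (mem_V_sub_divOf_iff D hy b).1 hb, mul_ne_zero hy hb0, ?_⟩
    rw [Q.ord_mul hy hb0, hQ, Finsupp.sub_apply, divOf_apply]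
    ring

end RedData

end Fermat.Agent.GAL.RED
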