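import Fermat.Agent.GAL.RED.BDiv

/-!
# GAL-RED leaf C1: `deg B(D) = deg D` and `V(D) = L̄(B(D))` for `deg D ≥ 3g`.
-/

set_option autoImplicit false
set_option linter.unusedSectionVars false

namespace Fermat.Agent.GAL.RED

open AlgebraicCurve Fermat.Agent.Lib.RR

variable {K F k Fb : Type*} [Field K] [Field F] [Algebra K F] [Field k] [Field Fb] [Algebra k Fb]
variable [IsFF K F] [IsAlgClosed K] [IsFF k Fb] [IsAlgClosed k]

namespace RedData

variable {R : RedData K F k Fb}

/-! ### leaf C1 -/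

theorem finrank_V (hC : R.IsCartesian) (D : Divisor K F) :
    Module.finrank k (R.V D) = ell D :=
  hC (riemannRochSpace D) inferInstance

theorem V_ne_bot (hC : R.IsCartesian) {D : Divisor K F}
    (hD : (genusFF K F : ℤ) ≤ Divisor.degree D) : R.V D ≠ ⊥ := by
  intro h
  have h1 := finrank_V hC D
  rw [h, finrank_bot] at h1
  have h2 := riemann_ineq D
  rw [ell_zero, ← h1] at h2
  push_cast at h2
  omega

/-- generic `ȳ₁, ȳ₂ ∈ V(D)`, `deg (ȳ₂/ȳ₁)_∞ = deg B(D)`, `deg (y₂/y₁)_∞ ≤ deg D`, and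
`degree_poleDiv_red_le`. -/
theorem degree_B_le {D : Divisor K F} (h : R.V D ≠ ⊥) :
    Divisor.degree (R.B D) ≤ Divisor.degree D := by
  classical
  obtain ⟨y1b, hy1V, hy1b0, -⟩ := R.exists_generic h ∅
  have hZ1 : 0 ≤ divOf y1b + R.B D := by
    rcases mem_L_iff.1 (R.V_le_L_B D hy1V) with h0 | h0
    · exact absurd h0 hy1b0
    · exact h0
  set Z1 : Divisor k Fb := divOf y1b + R.B D with hZ1def
  have hdegZ1 : Divisor.degree Z1 = Divisor.degree (R.B D) := by
    rw [hZ1def, map_add, degree_divOf, zero_add]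
  obtain ⟨y2b, hy2V, hy2b0, hy2⟩ := R.exists_generic h Z1.support
  obtain ⟨y1, hy1L, hy1O, hy1⟩ := R.mem_redSub.1 hy1V
  obtain ⟨y2, hy2L, hy2O, hy2r⟩ := R.mem_redSub.1 hy2V
  have hy1red : R.red y1 ≠ 0 := by rw [hy1]; exact hy1b0
  have hy10 : y1 ≠ 0 := R.ne_zero_of_red_ne_zero hy1red
  have hy2red : R.red y2 ≠ 0 := by rw [hy2r]; exact hy2b0
  have hy20 : y2 ≠ 0 := R.ne_zero_of_red_ne_zero hy2red
  have hredy : R.red (y2 / y1) = y2b / y1b := by
    rw [R.red_div hy2O hy1red, hy1, hy2r]
  -- the polar divisor of `y2b / y1b` is `Z1`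
  have hpole : poleDiv (K := k) (y2b / y1b) = Z1 := by
    ext Q
    rw [poleDiv_apply, ord_div Q hy2b0 hy1b0]
    have hZQ : Z1 Q = Q.ord y1b + R.B D Q := by
      rw [hZ1def, Finsupp.add_apply, divOf_apply]
    have hZQ0 : 0 ≤ Z1 Q := hZ1 Q
    by_cases hQ : Q ∈ Z1.support
    · have := hy2 Q hQ
      rw [max_eq_left (by omega)]
      omega
    · have hz : Z1 Q = 0 := Finsupp.notMem_support_iff.1 hQ
      have h2 := ((mem_riemannRochSpace_iff.1 (R.V_le_L_B D hy2V)) Q).resolve_left hy2b0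
      rw [max_eq_right (by omega)]
      omega
  -- the polar divisor of `y2 / y1` is at most `D + div y1`
  have hZ : 0 ≤ divOf y1 + D := by
    rcases mem_L_iff.1 hy1L with h0 | h0
    · exact absurd h0 hy10
    · exact h0
  have hle : poleDiv (K := K) (y2 / y1) ≤ divOf y1 + D := by
    intro P
    rw [poleDiv_apply, ord_div P hy20 hy10, Finsupp.add_apply, divOf_apply]
    have h2 := ((mem_riemannRochSpace_iff.1 hy2L) P).resolve_left hy20
    have h1 : (0 : ℤ) ≤ (divOf y1 + D : Divisor K F) P := hZ P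
    rw [Finsupp.add_apply, divOf_apply] at h1
    apply max_le <;> omega
  have hdegle : Divisor.degree (poleDiv (K := K) (y2 / y1)) ≤ Divisor.degree D := by
    have := degree_mono hle
    rwa [map_add, degree_divOf, zero_add] at this
  by_cases hconst : R.red (y2 / y1) ∈ Set.range (algebraMap k Fb)
  · -- constant: `Z1 = 0`
    obtain ⟨c, hc⟩ := hconst
    have hz : Z1 = 0 := by
      rw [← hpole, ← hredy, ← hc]
      ext Q
      rw [poleDiv_apply, ord_algebraMap]
      simp
    rw [← hdegZ1, hz, map_zero]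
    by_contra hneg
    have hneg : Divisor.degree D < 0 := not_le.1 hneg
    have := L_eq_bot_of_degree_neg hneg
    rw [this, Submodule.mem_bot] at hy1L
    exact hy10 hy1L
  · have := degree_poleDiv_red_le R (y2 / y1) hconst
    rw [hredy, hpole, hdegZ1] at this
    exact this.trans hdegle

theorem BDeg_aux (hC : R.IsCartesian) (hg : genusFF K F = genusFF k Fb) {D : Divisor K F}
    (hD : 3 * (genusFF K F : ℤ) ≤ Divisor.degree D) :
    Divisor.degree (R.B D) = Divisor.degree D ∧ (ell (R.B D) : ℤ) = ell D := by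
  have hg0 : (0 : ℤ) ≤ genusFF K F := by positivity
  have hg' : (genusFF K F : ℤ) = genusFF k Fb := by exact_mod_cast hg
  have hne : R.V D ≠ ⊥ := V_ne_bot hC (by omega)
  have hle := degree_B_le hne
  have hell : (ell D : ℤ) = Divisor.degree D + 1 - genusFF K F :=
    ell_eq_of_lt_degree' (by omega)
  have hfin := finrank_V hC D
  have h1 : Module.finrank k (R.V D) ≤ ell (R.B D) := Submodule.finrank_mono (R.V_le_L_B D)
  rw [hfin] at h1
  have h1' : (ell D : ℤ) ≤ ell (R.B D) := by exact_mod_cast h1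
  have hdeg0 : 0 ≤ Divisor.degree (R.B D) := by
    by_contra hneg
    have hneg : Divisor.degree (R.B D) < 0 := not_le.1 hneg
    have := ell_eq_zero_of_degree_neg hneg
    rw [this] at h1'
    push_cast at h1'
    omega
  have h2 := ell_le_degree_add hdeg0
  rw [ell_zero] at h2
  push_cast at h2
  have h3 : (ell (R.B D) : ℤ) = Divisor.degree (R.B D) + 1 - genusFF k Fb :=
    ell_eq_of_lt_degree' (by omega)
  constructor <;> omega

theorem degree_B (hC : R.IsCartesian) (hg : genusFF K F = genusFF k Fb) {D : Divisor K F}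
    (hD : 3 * (genusFF K F : ℤ) ≤ Divisor.degree D) :
    Divisor.degree (R.B D) = Divisor.degree D :=
  (BDeg_aux hC hg hD).1

theorem V_eq_L_B (hC : R.IsCartesian) (hg : genusFF K F = genusFF k Fb) {D : Divisor K F}
    (hD : 3 * (genusFF K F : ℤ) ≤ Divisor.degree D) :
    R.V D = riemannRochSpace (R.B D) := by
  apply Submodule.eq_of_le_of_finrank_eq (R.V_le_L_B D)
  rw [finrank_V hC D]
  have := (BDeg_aux hC hg hD).2
  have h : ell (R.B D) = ell D := by exact_mod_cast this
  exact h.symm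

end RedData

end Fermat.Agent.GAL.RED
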