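import Fermat.Agent.GAL.RED.CurveBasic

/-!
# GAL-RED leaf B1: the divisor generated by a finite dimensional space of functions.
-/

set_option autoImplicit false
set_option linter.unusedSectionVars false

namespace Fermat.Agent.GAL.RED

open AlgebraicCurve Fermat.Agent.Lib.RR

variable {K F : Type*} [Field K] [Field F] [Algebra K F]

variable [IsFF K F] [IsAlgClosed K]

/-! ### B1: the divisor generated by a finite dimensional space, generic elements -/

/-- `B Q = max_{h ∈ V \ 0} (- ord_Q h)`; for every finite set `S` of places a "generic" element of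
`V` attains the maximum at all places of `S`. -/
theorem exists_genDiv (V : Submodule K F) [Module.Finite K V] (hV : V ≠ ⊥) :
    ∃ B : Divisor K F, V ≤ riemannRochSpace B ∧
      ∀ S : Finset (Place K F), ∃ h ∈ V, h ≠ 0 ∧ ∀ Q ∈ S, Q.ord h = -B Q := by
  classical
  have hnt : Nontrivial V := (Submodule.nontrivial_iff_ne_bot).2 hV
  let b := Module.finBasis K V
  have hd : 0 < Module.finrank K V := Module.finrank_pos
  let i₀ : Fin (Module.finrank K V) := ⟨0, hd⟩
  have hne : (Finset.univ : Finset (Fin (Module.finrank K V))).Nonempty := ⟨i₀, Finset.mem_univ _⟩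
  have he0 : ∀ i, ((b i : V) : F) ≠ 0 := fun i h => b.ne_zero i (Subtype.ext h)
  let Bf : Place K F → ℤ := fun Q => Finset.univ.sup' hne fun i => -Q.ord ((b i : V) : F)
  let B : Divisor K F := Finsupp.onFinset
    (Finset.univ.biUnion fun i => (divOf (K := K) ((b i : V) : F)).support) Bf (by
      intro Q hQ
      by_contra hcon
      apply hQ
      have h0 : ∀ i, Q.ord ((b i : V) : F) = 0 := by
        intro i
        by_contra hi
        apply hcon
        rw [Finset.mem_biUnion]
        refine ⟨i, Finset.mem_univ _, ?_⟩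
        rw [Finsupp.mem_support_iff, divOf_apply]
        exact hi
      simp only [Bf, h0, neg_zero]
      exact Finset.sup'_const hne 0)
  have hB : ∀ Q, B Q = Bf Q := fun Q => rfl
  have hle : ∀ Q i, -Q.ord ((b i : V) : F) ≤ B Q := fun Q i =>
    Finset.le_sup' (fun i => -Q.ord ((b i : V) : F)) (Finset.mem_univ i)
  have hVB : V ≤ riemannRochSpace B := by
    intro h hh
    have h1 : (⟨h, hh⟩ : V) = ∑ i, b.repr ⟨h, hh⟩ i • b i := (b.sum_repr _).symm
    have h2 : h = ∑ i, b.repr ⟨h, hh⟩ i • ((b i : V) : F) := by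
      have := congrArg V.subtype h1
      rw [map_sum] at this
      simpa only [map_smul, Submodule.subtype_apply] using this
    rw [h2]
    refine Submodule.sum_mem _ fun i _ => Submodule.smul_mem _ _ ?_
    rw [mem_riemannRochSpace_iff]
    intro Q
    right
    have := hle Q i
    omega
  refine ⟨B, hVB, fun S => ?_⟩
  let W : Place K F → Submodule K V := fun Q => (riemannRochSpace (B - pt Q)).comap V.subtype
  have hW : ∀ Q, W Q ≠ ⊤ := by
    intro Q htop
    obtain ⟨i, -, hi⟩ := Finset.exists_mem_eq_sup' hne fun i => -Q.ord ((b i : V) : F)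
    have hmem : b i ∈ W Q := by
      rw [htop]
      exact Submodule.mem_top
    have hmem' : ((b i : V) : F) ∈ riemannRochSpace (B - pt Q) := hmem
    rw [mem_riemannRochSpace_iff] at hmem'
    rcases hmem' Q with h0 | h0
    · exact he0 i h0
    · rw [Finsupp.sub_apply, Finsupp.single_eq_same] at h0
      have : B Q = -Q.ord ((b i : V) : F) := hi
      omega
  have hnot : (⊤ : Submodule K V) ∉ insert ⊥ (S.image W) := by
    rw [Finset.mem_insert, Finset.mem_image]
    rintro (h | ⟨Q, -, hQ⟩)
    · exact top_ne_bot h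
    · exact hW Q hQ
  have hcov := Subspace.biUnion_ne_univ_of_top_notMem hnot
  obtain ⟨h, hh⟩ : ∃ h : V, h ∉ ⋃ p ∈ insert ⊥ (S.image W), (p : Set V) := by
    by_contra hcon
    push Not at hcon
    exact hcov (Set.eq_univ_of_forall hcon)
  simp only [Set.mem_iUnion, not_exists] at hh
  have hh0 : h ≠ 0 := by
    intro h0
    exact hh ⊥ (Finset.mem_insert_self _ _) (by rw [h0]; exact Submodule.zero_mem _)
  have hh0' : (h : F) ≠ 0 := fun h0 => hh0 (Subtype.ext h0)
  refine ⟨h, h.2, hh0', fun Q hQ => ?_⟩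
  have h1 : -B Q ≤ Q.ord (h : F) := by
    rcases (mem_riemannRochSpace_iff.1 (hVB h.2)) Q with h0 | h0
    · exact absurd h0 hh0'
    · exact h0
  by_contra hne'
  apply hh (W Q) (Finset.mem_insert_of_mem (Finset.mem_image_of_mem W hQ))
  show (h : F) ∈ riemannRochSpace (B - pt Q)
  rw [mem_riemannRochSpace_iff]
  intro P
  right
  rcases eq_or_ne P Q with rfl | hPQ
  · rw [Finsupp.sub_apply, Finsupp.single_eq_same]
    omega
  · rw [Finsupp.sub_apply, Finsupp.single_eq_of_ne hPQ, sub_zero]
    rcases (mem_riemannRochSpace_iff.1 (hVB h.2)) P with h0 | h0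
    · exact absurd h0 hh0'
    · exact h0

/-- uniqueness of the divisor of `exists_genDiv` -/
theorem genDiv_unique (V : Submodule K F) {B B' : Divisor K F}
    (h1 : V ≤ riemannRochSpace B) (h2 : ∀ Q : Place K F, ∃ h ∈ V, h ≠ 0 ∧ Q.ord h = -B Q)
    (h1' : V ≤ riemannRochSpace B') (h2' : ∀ Q : Place K F, ∃ h ∈ V, h ≠ 0 ∧ Q.ord h = -B' Q) :
    B = B' := by
  ext Q
  obtain ⟨h, hV, h0, hQ⟩ := h2 Q
  obtain ⟨h', hV', h0', hQ'⟩ := h2' Q
  have a1 : -B' Q ≤ Q.ord h := by
    rcases (mem_riemannRochSpace_iff.1 (h1' hV)) Q with h | h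
    · exact absurd h h0
    · exact h
  have a2 : -B Q ≤ Q.ord h' := by
    rcases (mem_riemannRochSpace_iff.1 (h1 hV')) Q with h | h
    · exact absurd h h0'
    · exact h
  omega

end Fermat.Agent.GAL.RED
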