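import Fermat.Agent.GAL.RED.CurveBasic

/-!
# GAL-RED leaf B4: non special divisors.
-/

set_option autoImplicit false

namespace Fermat.Agent.GAL.RED

open AlgebraicCurve Fermat.Agent.Lib.RR

variable {K F : Type*} [Field K] [Field F] [Algebra K F]

variable [IsFF K F] [IsAlgClosed K]

/-! ### B4: non special divisors -/

/-- removing a general point drops `ℓ` by one. -/
theorem NonSpecial_step (D : Divisor K F) (hD : 0 < ell D) (s : Finset (Place K F)) :
    ∃ Q : Place K F, Q ∉ s ∧ ell (D - pt Q) + 1 = ell D := by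
  classical
  obtain ⟨w, hw0, hw⟩ := ell_pos_iff.mp hD
  have hw' : 0 ≤ divOf w + D := (mem_L_iff.mp hw).resolve_left hw0
  have : Infinite (Place K F) := infinite_place
  obtain ⟨Q, hQ⟩ := Infinite.exists_notMem_finset ((divOf (K := K) w + D).support ∪ s)
  rw [Finset.mem_union, not_or] at hQ
  have hQ0 : (divOf (K := K) w + D) Q = 0 := by simpa using hQ.1
  refine ⟨Q, hQ.2, ?_⟩
  have hnot : w ∉ riemannRochSpace (D - pt Q) := by
    intro h
    have h1 := (mem_L_iff.mp h).resolve_left hw0 Q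
    have h2 : (divOf (K := K) w + (D - pt Q)) Q = (divOf (K := K) w + D) Q - 1 := by
      simp [pt]
      ring
    rw [h2, hQ0] at h1
    simp at h1
  have hle : D - pt Q ≤ D := by
    have := le_add_pt (D - pt Q) Q
    rwa [sub_add_cancel] at this
  have hlt : riemannRochSpace (D - pt Q) < riemannRochSpace D :=
    lt_of_le_of_ne (L_mono hle) (fun h => hnot (h ▸ hw))
  have h1 : ell (D - pt Q) < ell D := Submodule.finrank_lt_finrank_of_lt hlt
  have h2 := ell_add_pt_le (D - pt Q) Q
  rw [sub_add_cancel, deg_eq_one] at h2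
  omega

/-- (B4) there are `g` distinct places with `ℓ(Q₁ + ... + Q_g) = 1`. -/
theorem exists_nonspecial :
    ∃ s : Finset (Place K F), s.card = genusFF K F ∧ ell (∑ Q ∈ s, pt Q) = 1 := by
  classical
  obtain ⟨W, -, hW, hRR⟩ := riemann_roch (K := K) (F := F)
  have key : ∀ j : ℕ, j ≤ genusFF K F → ∃ s : Finset (Place K F), s.card = j ∧
      ell (W - ∑ Q ∈ s, pt Q) + j = genusFF K F := by
    intro j
    induction j with
    | zero => intro _; exact ⟨∅, rfl, by simpa using hW⟩
    | succ j ih =>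
      intro hj
      obtain ⟨s, hs, hell⟩ := ih (by omega)
      obtain ⟨Q, hQs, hQ⟩ := NonSpecial_step (W - ∑ Q ∈ s, pt Q) (by omega) s
      refine ⟨insert Q s, by rw [Finset.card_insert_of_notMem hQs, hs], ?_⟩
      rw [Finset.sum_insert hQs, add_comm (pt Q), ← sub_sub]
      omega
  obtain ⟨s, hs, hell⟩ := key _ le_rfl
  refine ⟨s, hs, ?_⟩
  have h0 : ell (W - ∑ Q ∈ s, pt Q) = 0 := by omega
  have hdeg : Divisor.degree (∑ Q ∈ s, pt Q) = genusFF K F := by
    rw [map_sum, Finset.sum_congr rfl (fun Q _ => by rw [degree_pt, deg_eq_one])]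
    simp [hs]
  have := hRR (∑ Q ∈ s, pt Q)
  rw [h0, hdeg] at this
  have h1 : (ell (∑ Q ∈ s, pt Q) : ℤ) = 1 := by
    rw [this]; simp
  exact_mod_cast h1

end Fermat.Agent.GAL.RED
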