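import Fermat.Agent.GAL.RED.CurveBasic

/-!
# GAL-RED leaf B5: local parameters with poles at one other place.
-/

set_option autoImplicit false

namespace Fermat.Agent.GAL.RED

open AlgebraicCurve Fermat.Agent.Lib.RR

variable {K F : Type*} [Field K] [Field F] [Algebra K F]

variable [IsFF K F] [IsAlgClosed K]

/-! ### B5: local parameters with poles at one other place -/

theorem exists_param {Q Q' : Place K F} (h : Q ≠ Q') (n : ℕ) (hn : 2 * genusFF K F + 1 ≤ n) :
    ∃ t : F, t ∈ riemannRochSpace (n • pt Q') ∧ Q.ord t = 1 := by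
  classical
  set D1 : Divisor K F := n • pt Q' - pt Q with hD1
  set D2 : Divisor K F := D1 - pt Q with hD2
  have hn' : (2 * (genusFF K F : ℤ) + 1 ≤ n) := by exact_mod_cast hn
  have hdeg1 : Divisor.degree D1 = (n : ℤ) - 1 := by
    rw [hD1, map_sub, map_nsmul, degree_pt, degree_pt, deg_eq_one, deg_eq_one]
    simp
  have hdeg2 : Divisor.degree D2 = (n : ℤ) - 2 := by
    rw [hD2, map_sub, hdeg1, degree_pt, deg_eq_one]
    push_cast
    ring
  have hl1 := ell_eq_of_lt_degree' (D := D1) (by rw [hdeg1]; linarith)
  have hl2 := ell_eq_of_lt_degree' (D := D2) (by rw [hdeg2]; linarith)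
  have hlt : ell D2 < ell D1 := by
    have : (ell D2 : ℤ) < ell D1 := by rw [hl1, hl2, hdeg1, hdeg2]; linarith
    exact_mod_cast this
  obtain ⟨t, ht1, ht2⟩ : ∃ t, t ∈ riemannRochSpace D1 ∧ t ∉ riemannRochSpace D2 := by
    by_contra hcon
    push Not at hcon
    have hle : riemannRochSpace D1 ≤ riemannRochSpace D2 := hcon
    have := Submodule.finrank_mono hle
    unfold ell at hlt
    omega
  have ht0 : t ≠ 0 := by
    rintro rfl
    exact ht2 (Submodule.zero_mem _)
  have hptQ : ∀ v : Place K F, (0 : ℤ) ≤ pt Q v := by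
    intro v
    simp only [pt, Finsupp.single_apply]
    split_ifs <;> norm_num
  have hD1Q : D1 Q = -1 := by
    simp only [hD1, pt, Finsupp.sub_apply, Finsupp.smul_apply, Finsupp.single_apply,
      if_neg (Ne.symm h), if_true]
    simp
  refine ⟨t, ?_, ?_⟩
  · refine L_mono ?_ ht1
    intro v
    simp only [hD1, Finsupp.sub_apply]
    have := hptQ v
    omega
  · have h1 : 1 ≤ Q.ord t := by
      rcases (mem_riemannRochSpace_iff.mp ht1) Q with h0 | h0
      · exact absurd h0 ht0
      · rw [hD1Q] at h0
        omega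
    by_contra hne
    apply ht2
    rw [mem_riemannRochSpace_iff]
    intro v
    right
    by_cases hv : v = Q
    · subst hv
      simp only [hD2, Finsupp.sub_apply, hD1Q, pt, Finsupp.single_eq_same]
      omega
    · rcases (mem_riemannRochSpace_iff.mp ht1) v with h0 | h0
      · exact absurd h0 ht0
      · have : pt Q v = 0 := Finsupp.single_eq_of_ne hv
        simp only [hD2, Finsupp.sub_apply, this]
        omega

end Fermat.Agent.GAL.RED
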