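import Fermat.Agent.GAL.RED.CurveBasic

/-!
# GAL-RED leaf B3: `deg (y)_∞ ≤ [F : K(y)]` in elementary form.
-/

set_option autoImplicit false

namespace Fermat.Agent.GAL.RED

open AlgebraicCurve Fermat.Agent.Lib.RR

/-- linear algebra: vectors of `V` independent modulo `W`. -/
theorem poleDegGe_exists_indep_mod {K F : Type*} [Field K] [AddCommGroup F] [Module K F]
    (W V : Submodule K F) (hWV : W ≤ V) [Module.Finite K V] (n : ℕ)
    (hn : Module.finrank K V = Module.finrank K W + n) :
    ∃ u : Fin n → F, (∀ i, u i ∈ V) ∧ ∀ a : Fin n → K, ∑ i, a i • u i ∈ W → a = 0 := by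
  obtain ⟨C, hC⟩ := Submodule.exists_isCompl (W.submoduleOf V)
  have h1 := Submodule.finrank_add_eq_of_isCompl hC
  have h2 : Module.finrank K (W.submoduleOf V) = Module.finrank K W :=
    (Submodule.submoduleOfEquivOfLe hWV).finrank_eq
  have h3 : Module.finrank K C = n := by omega
  let b := Module.finBasisOfFinrankEq K C h3
  refine ⟨fun i => ((b i : V) : F), fun i => (b i : V).2, fun a ha => ?_⟩
  have hcoe : (((∑ i, a i • b i : C) : V) : F) = ∑ i, a i • ((b i : V) : F) := by
    simp
  have hmemW : ((∑ i, a i • b i : C) : V) ∈ W.submoduleOf V := by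
    show (((∑ i, a i • b i : C) : V) : F) ∈ W
    rw [hcoe]
    exact ha
  have hzero : ((∑ i, a i • b i : C) : V) = 0 := by
    have := hC.disjoint.le_bot ⟨hmemW, (∑ i, a i • b i : C).2⟩
    exact (Submodule.mem_bot K).1 this
  have hzero' : (∑ i, a i • b i : C) = 0 := Subtype.ext hzero
  funext i
  exact Fintype.linearIndependent_iff.1 b.linearIndependent a hzero' i

variable {K F : Type*} [Field K] [Field F] [Algebra K F]

section

variable [HasPrincipalDivisors K F]

theorem poleDegGe_smul_apply (y : F) (l : ℕ) (P : Place K F) :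
    (l • poleDiv (K := K) y) P = (l : ℤ) * max (-(P.ord y)) 0 := by
  rw [Finsupp.smul_apply, poleDiv_apply, nsmul_eq_mul]

theorem poleDegGe_mul_mem (y : F) (l : ℕ) {u : F}
    (hu : u ∈ riemannRochSpace (l • poleDiv (K := K) y)) :
    y * u ∈ riemannRochSpace ((l + 1) • poleDiv (K := K) y) := by
  rw [mem_riemannRochSpace_iff] at hu ⊢
  intro P
  by_cases h0 : y * u = 0
  · exact Or.inl h0
  right
  have hy : y ≠ 0 := left_ne_zero_of_mul h0
  have hu0 : u ≠ 0 := right_ne_zero_of_mul h0
  have h1 := (hu P).resolve_left hu0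
  rw [poleDegGe_smul_apply] at h1 ⊢
  rw [P.ord_mul hy hu0]
  have h2 : -(P.ord y) ≤ max (-(P.ord y)) 0 := le_max_left _ _
  push_cast
  linarith

theorem poleDegGe_pow_mul_mem (y : F) (l j : ℕ) {u : F}
    (hu : u ∈ riemannRochSpace (l • poleDiv (K := K) y)) :
    y ^ j * u ∈ riemannRochSpace ((l + j) • poleDiv (K := K) y) := by
  induction j with
  | zero => simpa using hu
  | succ j ih =>
    have := poleDegGe_mul_mem y (l + j) ih
    rw [← mul_assoc, ← pow_succ'] at this
    exact this

theorem poleDegGe_L_mono (y : F) {l l' : ℕ} (h : l ≤ l') :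
    riemannRochSpace (l • poleDiv (K := K) y) ≤ riemannRochSpace (l' • poleDiv (K := K) y) := by
  apply L_mono
  intro P
  rw [poleDegGe_smul_apply, poleDegGe_smul_apply]
  have h1 : (0 : ℤ) ≤ max (-(P.ord y)) 0 := le_max_right _ _
  have h2 : (l : ℤ) ≤ l' := by exact_mod_cast h
  exact mul_le_mul_of_nonneg_right h2 h1

/-- `f` has at some pole `P` of `y` a pole of order `> l N(P)`. -/
def PoleDegGeBig (K : Type*) {F : Type*} [Field K] [Field F] [Algebra K F] (y : F) (l : ℕ)
    (f : F) : Prop :=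
  ∃ P : Place K F, P.ord y < 0 ∧ f ≠ 0 ∧ P.ord f < (l : ℤ) * P.ord y

omit [HasPrincipalDivisors K F] in
theorem PoleDegGeBig.mul {y : F} {l : ℕ} {f : F} (h : PoleDegGeBig K y l f) :
    PoleDegGeBig K y (l + 1) (y * f) := by
  obtain ⟨P, hP, hf, hlt⟩ := h
  have hy : y ≠ 0 := by
    rintro rfl
    simp at hP
  refine ⟨P, hP, mul_ne_zero hy hf, ?_⟩
  rw [P.ord_mul hy hf]
  push_cast
  linarith

omit [HasPrincipalDivisors K F] in
theorem PoleDegGeBig.pow_mul {y : F} {l : ℕ} {f : F} (h : PoleDegGeBig K y l f) (e : ℕ) :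
    PoleDegGeBig K y (l + e) (y ^ e * f) := by
  induction e with
  | zero => simpa using h
  | succ e ih =>
    have := ih.mul
    rw [← mul_assoc, ← pow_succ'] at this
    exact this

theorem PoleDegGeBig.not_mem {y : F} {l : ℕ} {f : F} (h : PoleDegGeBig K y l f) :
    f ∉ riemannRochSpace (l • poleDiv (K := K) y) := by
  obtain ⟨P, hP, hf, hlt⟩ := h
  intro hmem
  rw [mem_riemannRochSpace_iff] at hmem
  have h1 := (hmem P).resolve_left hf
  rw [poleDegGe_smul_apply, max_eq_left (by omega)] at h1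
  linarith

theorem poleDegGeBig_of_mem {y : F} {l : ℕ} {f : F}
    (h1 : f ∈ riemannRochSpace ((l + 1) • poleDiv (K := K) y))
    (h0 : f ∉ riemannRochSpace (l • poleDiv (K := K) y)) : PoleDegGeBig K y l f := by
  rw [mem_riemannRochSpace_iff] at h1 h0
  push_neg at h0
  obtain ⟨P, hf, hP⟩ := h0
  have h2 := (h1 P).resolve_left hf
  rw [poleDegGe_smul_apply] at h2 hP
  by_cases hy : P.ord y < 0
  · refine ⟨P, hy, hf, ?_⟩
    rw [max_eq_left (by omega)] at hP
    linarith
  · exfalso
    rw [max_eq_right (by omega)] at h2 hP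
    simp only [mul_zero, neg_zero] at h2 hP
    omega

/-- the core of the argument. -/
theorem poleDegGe_polyIndep (y : F) (l : ℕ) {n : ℕ} (u : Fin n → F)
    (hu : ∀ i, u i ∈ riemannRochSpace ((l + 1) • poleDiv (K := K) y))
    (hind : ∀ a : Fin n → K, ∑ i, a i • u i ∈ riemannRochSpace (l • poleDiv (K := K) y) → a = 0) :
    PolyIndep K y u := by
  classical
  intro p hp
  by_contra hne
  have hex : (Finset.univ.filter fun i => p i ≠ 0).Nonempty := by
    by_contra hemp
    apply hne
    funext i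
    by_contra hi
    exact hemp ⟨i, Finset.mem_filter.2 ⟨Finset.mem_univ _, hi⟩⟩
  obtain ⟨i1, hi1, hmax⟩ := Finset.exists_max_image _ (fun i => (p i).natDegree) hex
  have hi1' : p i1 ≠ 0 := (Finset.mem_filter.1 hi1).2
  set e := (p i1).natDegree with he
  have hdeg : ∀ i, (p i).natDegree < e + 1 := by
    intro i
    by_cases hi : p i = 0
    · rw [hi]; simp
    · exact Nat.lt_succ_of_le (hmax i (by simp [hi]))
  set a : Fin n → K := fun i => (p i).coeff e with ha
  have ha1 : a ≠ 0 := by
    intro h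
    have : (p i1).coeff e = 0 := congrFun h i1
    rw [he, Polynomial.coeff_natDegree, Polynomial.leadingCoeff_eq_zero] at this
    exact hi1' this
  set w : F := ∑ i, a i • u i with hw
  have hwV : w ∈ riemannRochSpace ((l + 1) • poleDiv (K := K) y) :=
    Submodule.sum_mem _ fun i _ => Submodule.smul_mem _ _ (hu i)
  have hwW : w ∉ riemannRochSpace (l • poleDiv (K := K) y) := fun h => ha1 (hind a h)
  have hbig := (poleDegGeBig_of_mem hwV hwW).pow_mul e
  apply hbig.not_mem
  -- `y ^ e * w = - (lower terms)`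
  have hsplit : ∀ i, Polynomial.aeval y (p i) * u i
      = ∑ j ∈ Finset.range e, (p i).coeff j • (y ^ j * u i) + y ^ e * (a i • u i) := by
    intro i
    rw [Polynomial.aeval_eq_sum_range' (hdeg i), Finset.sum_range_succ, add_mul, Finset.sum_mul]
    congr 1
    · refine Finset.sum_congr rfl fun j _ => ?_
      rw [smul_mul_assoc]
    · rw [smul_mul_assoc, mul_smul_comm]
  have hsum : y ^ e * w
      = - ∑ i, ∑ j ∈ Finset.range e, (p i).coeff j • (y ^ j * u i) := by
    have h1 : ∑ i, Polynomial.aeval y (p i) * u i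
        = ∑ i, ∑ j ∈ Finset.range e, (p i).coeff j • (y ^ j * u i) + y ^ e * w := by
      rw [hw, Finset.mul_sum, ← Finset.sum_add_distrib]
      exact Finset.sum_congr rfl fun i _ => hsplit i
    rw [hp] at h1
    linear_combination -h1
  rw [hsum]
  refine Submodule.neg_mem _ (Submodule.sum_mem _ fun i _ => Submodule.sum_mem _ fun j hj => ?_)
  refine Submodule.smul_mem _ _ ?_
  have hj' : j < e := Finset.mem_range.1 hj
  exact poleDegGe_L_mono y (by omega) (poleDegGe_pow_mul_mem y (l + 1) j (hu i))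

end

variable [IsFF K F] [IsAlgClosed K]

/-- (B3) `deg (y)_∞ ≤ [F : K(y)]`. -/
theorem exists_polyIndep (y : F) (hy : y ∉ Set.range (algebraMap K F)) :
    ∃ (n : ℕ) (z : Fin n → F), (n : ℤ) = Divisor.degree (poleDiv (K := K) y) ∧ PolyIndep K y z := by
  have hN0 : (0 : Divisor K F) ≤ poleDiv (K := K) y := by
    intro P
    rw [poleDiv_apply]
    exact le_max_right _ _
  obtain ⟨n, hn⟩ := Int.eq_ofNat_of_zero_le (degree_nonneg hN0)
  rcases Nat.eq_zero_or_pos n with rfl | hpos
  · refine ⟨0, Fin.elim0, hn.symm, ?_⟩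
    intro p _
    funext i
    exact i.elim0
  set l : ℕ := 2 * genusFF K F with hl
  have hdeg : ∀ m : ℕ, Divisor.degree (m • poleDiv (K := K) y) = (m : ℤ) * n := by
    intro m
    rw [map_nsmul, hn, nsmul_eq_mul]
  have hn1 : (1 : ℤ) ≤ n := by exact_mod_cast hpos
  have hg : (0 : ℤ) ≤ (genusFF K F : ℤ) := Int.natCast_nonneg _
  have e0 : (ell (l • poleDiv (K := K) y) : ℤ) = (l : ℤ) * n + 1 - genusFF K F := by
    rw [← hdeg]
    apply ell_eq_of_lt_degree'
    rw [hdeg, hl]
    push_cast
    nlinarith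
  have e1 : (ell ((l + 1) • poleDiv (K := K) y) : ℤ) = ((l + 1 : ℕ) : ℤ) * n + 1 - genusFF K F := by
    rw [← hdeg]
    apply ell_eq_of_lt_degree'
    rw [hdeg, hl]
    push_cast
    nlinarith
  have hfin : Module.finrank K (riemannRochSpace ((l + 1) • poleDiv (K := K) y))
      = Module.finrank K (riemannRochSpace (l • poleDiv (K := K) y)) + n := by
    have : (ell ((l + 1) • poleDiv (K := K) y) : ℤ) = (ell (l • poleDiv (K := K) y) : ℤ) + n := by
      rw [e0, e1]
      push_cast
      ring
    have h2 : ell ((l + 1) • poleDiv (K := K) y) = ell (l • poleDiv (K := K) y) + n := by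
      exact_mod_cast this
    exact h2
  obtain ⟨u, huV, huW⟩ := poleDegGe_exists_indep_mod _ _
    (poleDegGe_L_mono (K := K) y (Nat.le_succ l)) n hfin
  exact ⟨n, u, hn.symm, poleDegGe_polyIndep y l u huV huW⟩

end Fermat.Agent.GAL.RED
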