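import Fermat.Agent.GAL.RED.CurveBasic

/-!
# GAL-RED leaf B2: `[F : K(y)] ≤ deg (y)_∞` in elementary form.
-/

set_option autoImplicit false

namespace Fermat.Agent.GAL.RED

open AlgebraicCurve Fermat.Agent.Lib.RR

variable {K F : Type*} [Field K] [Field F] [Algebra K F]

/-- `yʲ zᵢ` are `K`-linearly independent. -/
theorem poleDegLe_linearIndependent (y : F) {n : ℕ} (z : Fin n → F) (hz : PolyIndep K y z)
    (l : ℕ) : LinearIndependent K (fun p : Fin n × Fin (l + 1) => y ^ (p.2 : ℕ) * z p.1) := by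
  rw [Fintype.linearIndependent_iff]
  intro g hg
  let p : Fin n → Polynomial K := fun i => ∑ j : Fin (l + 1), Polynomial.monomial (j : ℕ) (g (i, j))
  have hp : ∑ i, Polynomial.aeval y (p i) * z i = 0 := by
    rw [← hg, Fintype.sum_prod_type]
    refine Finset.sum_congr rfl fun i _ => ?_
    simp only [p, map_sum, Finset.sum_mul, Polynomial.aeval_monomial]
    refine Finset.sum_congr rfl fun j _ => ?_
    rw [Algebra.smul_def, mul_assoc]
  have h0 := hz p hp
  rintro ⟨i, j⟩
  have h1 : (p i).coeff (j : ℕ) = 0 := by rw [h0]; simp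
  simp only [p, Polynomial.finsetSum_coeff, Polynomial.coeff_monomial] at h1
  rw [Finset.sum_eq_single j] at h1
  · simpa using h1
  · intro j' _ hj'
    rw [if_neg]
    intro h
    exact hj' (Fin.ext h)
  · intro h
    exact absurd (Finset.mem_univ j) h

variable [IsFF K F] [IsAlgClosed K]

theorem poleDegLe_poleDiv_nonneg (y : F) : 0 ≤ poleDiv (K := K) y := by
  intro P
  rw [poleDiv_apply]
  exact le_max_right _ _

theorem poleDegLe_mem (y : F) {z : F} {C : Divisor K F} (hC : 0 ≤ divOf (K := K) z + C)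
    {l j : ℕ} (hj : j ≤ l) : y ^ j * z ∈ riemannRochSpace (l • poleDiv (K := K) y + C) := by
  rw [mem_riemannRochSpace_iff]
  intro P
  by_cases h0 : y ^ j * z = 0
  · exact Or.inl h0
  right
  have hy : y ^ j ≠ 0 := left_ne_zero_of_mul h0
  have hz : z ≠ 0 := right_ne_zero_of_mul h0
  rw [P.ord_mul hy hz, ord_pow, Finsupp.add_apply, Finsupp.smul_apply, poleDiv_apply]
  have h1 := hC P
  simp only [Finsupp.coe_zero, Pi.zero_apply, Finsupp.coe_add, Pi.add_apply, divOf_apply] at h1
  have h2 : -(P.ord y) ≤ max (-(P.ord y)) 0 := le_max_left _ _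
  have h3 : (0 : ℤ) ≤ max (-(P.ord y)) 0 := le_max_right _ _
  have h4 : (j : ℤ) * -(P.ord y) ≤ (j : ℤ) * max (-(P.ord y)) 0 :=
    mul_le_mul_of_nonneg_left h2 (Int.natCast_nonneg j)
  have h5 : (j : ℤ) * max (-(P.ord y)) 0 ≤ (l : ℤ) * max (-(P.ord y)) 0 :=
    mul_le_mul_of_nonneg_right (by exact_mod_cast hj) h3
  rw [nsmul_eq_mul]
  push_cast
  nlinarith

/-! ### B2, B3: `deg (y)_∞ = [F : K(y)]` in elementary form -/

/-- (B2) `[F : K(y)] ≤ deg (y)_∞`. -/
theorem card_le_degree_poleDiv (y : F) {n : ℕ} (z : Fin n → F) (hz : PolyIndep K y z) :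
    (n : ℤ) ≤ Divisor.degree (poleDiv (K := K) y) := by
  obtain ⟨C, hC0, hC⟩ := riemann_exists_common_bound (fun i => divOf (K := K) (z i))
  have hN := poleDegLe_poleDiv_nonneg (K := K) y
  have hν : 0 ≤ Divisor.degree (poleDiv (K := K) y) := degree_nonneg hN
  have hdC : 0 ≤ Divisor.degree C := degree_nonneg hC0
  have key : ∀ l : ℕ, (n : ℤ) * (l + 1) ≤
      l * Divisor.degree (poleDiv (K := K) y) + Divisor.degree C + 1 := by
    intro l
    let b : Fin n × Fin (l + 1) → riemannRochSpace (l • poleDiv (K := K) y + C) :=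
      fun p => ⟨y ^ (p.2 : ℕ) * z p.1, poleDegLe_mem y (hC p.1) (Nat.lt_succ_iff.mp p.2.2)⟩
    have hb : LinearIndependent K b :=
      LinearIndependent.of_comp (Submodule.subtype _) (poleDegLe_linearIndependent y z hz l)
    have h1 := hb.fintype_card_le_finrank
    rw [Fintype.card_prod, Fintype.card_fin, Fintype.card_fin] at h1
    have hdeg : Divisor.degree (l • poleDiv (K := K) y + C)
        = l * Divisor.degree (poleDiv (K := K) y) + Divisor.degree C := by
      rw [map_add, map_nsmul, nsmul_eq_mul]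
    have h2 := ell_le_degree_add (D := l • poleDiv (K := K) y + C) (by
      rw [hdeg]; positivity)
    rw [ell_zero, hdeg] at h2
    have h3 : ((n * (l + 1) : ℕ) : ℤ) ≤ (ell (l • poleDiv (K := K) y + C) : ℤ) := by
      exact_mod_cast h1
    push_cast at h3 h2
    linarith
  by_contra hlt
  rw [not_le] at hlt
  have h := key ((Divisor.degree C).toNat + 1)
  have h1 : ((Divisor.degree C).toNat : ℤ) = Divisor.degree C := Int.toNat_of_nonneg hdC
  push_cast at h
  rw [h1] at h
  nlinarith

end Fermat.Agent.GAL.RED
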