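import Fermat.Agent.GAL.RED.CurveBasic
import Fermat.Agent.GAL.RED.GenDiv
import Fermat.Agent.GAL.RED.PoleDegLe
import Fermat.Agent.GAL.RED.PoleDegGe
import Fermat.Agent.GAL.RED.NonSpecial
import Fermat.Agent.GAL.RED.Param

/-! # GAL-RED block B (aggregator): facts about ONE function field. -/
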