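import Fermat.Agent.GAL.RED.Lift
import Fermat.Agent.GAL.RED.Curve

/-!
# GAL-RED block C: the divisor `B(D)` generated by the reduction of `L(D)` (definitions).
-/

set_option autoImplicit false

namespace Fermat.Agent.GAL.RED

open AlgebraicCurve Fermat.Agent.Lib.RR

variable {K F k Fb : Type*} [Field K] [Field F] [Algebra K F] [Field k] [Field Fb] [Algebra k Fb]
variable [IsFF K F] [IsAlgClosed K] [IsFF k Fb] [IsAlgClosed k]

/-- (b) `deg (ȳ)_∞ ≤ deg (y)_∞`. -/
theorem degree_poleDiv_red_le (R : RedData K F k Fb) (y : F)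
    (hy : R.red y ∉ Set.range (algebraMap k Fb)) :
    Divisor.degree (poleDiv (K := k) (R.red y)) ≤ Divisor.degree (poleDiv (K := K) y) := by
  obtain ⟨n, zb, hn, hzb⟩ := exists_polyIndep (K := k) (R.red y) hy
  choose z hzO hz using fun i => R.exists_lift (zb i)
  have hyO : y ∈ R.O := R.mem_of_red_ne_zero (fun h => hy ⟨0, by rw [h, map_zero]⟩)
  have h1 : PolyIndep K y z := R.polyIndep_of_red hyO hzO (by
    have : (fun i => R.red (z i)) = zb := funext hz
    rw [this]; exact hzb)
  rw [← hn]
  exact card_le_degree_poleDiv y z h1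

namespace RedData

variable (R : RedData K F k Fb)

/-- `V(D)`, the reduction of `L(D)`. -/
abbrev V (D : Divisor K F) : Submodule k Fb := R.redSub (riemannRochSpace D)

instance instFiniteV (D : Divisor K F) : Module.Finite k (R.V D) := R.finite_redSub _

open Classical in
/-- `B(D)`: the smallest divisor with `V(D) ⊆ L̄(B(D))` (`0` if `V(D) = 0`). -/
noncomputable def B (D : Divisor K F) : Divisor k Fb :=
  if h : R.V D ≠ ⊥ then (exists_genDiv (R.V D) h).choose else 0

theorem V_le_L_B (D : Divisor K F) : R.V D ≤ riemannRochSpace (R.B D) := by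
  unfold B
  split_ifs with h
  · exact (exists_genDiv (R.V D) h).choose_spec.1
  · have : R.V D = ⊥ := by simpa using h
    rw [this]; exact bot_le

theorem exists_generic {D : Divisor K F} (h : R.V D ≠ ⊥) (S : Finset (Place k Fb)) :
    ∃ y ∈ R.V D, y ≠ 0 ∧ ∀ Q ∈ S, Q.ord y = -R.B D Q := by
  unfold B
  rw [dif_pos h]
  exact (exists_genDiv (R.V D) h).choose_spec.2 S

end RedData

end Fermat.Agent.GAL.RED
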