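import Fermat.Agent.GAL.RED.Basic

/-!
# GAL-RED leaf A2: echelon form with maximal pivots over a valued field.
-/

set_option autoImplicit false

namespace Fermat.Agent.GAL.RED

variable {K F k Fb : Type*} [Field K] [Field F] [Algebra K F] [Field k] [Field Fb] [Algebra k Fb]

/-- normalisation of a non zero vector: integral with one coordinate equal to `1`. -/
theorem echelon_exists_normalised (A : ValuationSubring K) {ι : Type*} [Fintype ι] (w : ι → K)
    (hw : w ≠ 0) : ∃ (a : K) (j : ι), (a • w) j = 1 ∧ ∀ i, (a • w) i ∈ A := by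
  obtain ⟨j0, hj0⟩ : ∃ j0, w j0 ≠ 0 := by
    by_contra h
    push Not at h
    exact hw (funext h)
  obtain ⟨j, -, hj⟩ := Finset.exists_max_image Finset.univ (fun j => A.valuation (w j))
    ⟨j0, Finset.mem_univ _⟩
  have hwj : w j ≠ 0 := by
    intro h
    have h1 := hj j0 (Finset.mem_univ _)
    simp only [h, map_zero, le_zero_iff, map_eq_zero] at h1
    exact hj0 h1
  refine ⟨(w j)⁻¹, j, ?_, fun i => ?_⟩
  · simp [hwj]
  · rw [← A.valuation_le_one_iff, Pi.smul_apply, smul_eq_mul, map_mul, map_inv₀]
    have h0 : A.valuation (w j) ≠ 0 := (map_ne_zero _).mpr hwj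
    have h1 := hj i (Finset.mem_univ _)
    calc (A.valuation (w j))⁻¹ * A.valuation (w i)
        ≤ (A.valuation (w j))⁻¹ * A.valuation (w j) := by gcongr
      _ = 1 := inv_mul_cancel₀ h0

theorem echelon_aux (R : RedData K F k Fb) {ι : Type*} [Fintype ι] (d : ℕ) :
    ∀ L : Submodule K (ι → K), Module.finrank K L = d →
      ∃ e : Fin d → (ι → K), (∀ i, e i ∈ L) ∧ (∀ i j, e i j ∈ R.A) ∧
        LinearIndependent k (fun i => fun j => R.redA (e i j)) := by
  induction d with
  | zero =>
    intro L _
    exact ⟨Fin.elim0, fun i => i.elim0, fun i => i.elim0, linearIndependent_empty_type⟩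
  | succ d ih =>
    intro L hL
    have hne : L ≠ ⊥ := by
      rintro rfl
      rw [finrank_bot] at hL
      omega
    obtain ⟨w, hwL, hw0⟩ := L.exists_mem_ne_zero_of_ne_bot hne
    obtain ⟨a, j, hvj, hvA⟩ := echelon_exists_normalised R.A w hw0
    set v : ι → K := a • w with hv
    have hvL : v ∈ L := L.smul_mem a hwL
    let φ : L →ₗ[K] K := (LinearMap.proj j).comp L.subtype
    have hφ : ∀ x : L, φ x = (x : ι → K) j := fun _ => rfl
    have hsurj : LinearMap.range φ = ⊤ := by
      rw [LinearMap.range_eq_top]
      intro c
      refine ⟨c • ⟨v, hvL⟩, ?_⟩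
      rw [map_smul, hφ]
      show c • v j = c
      rw [hvj, smul_eq_mul, mul_one]
    have hrn := LinearMap.finrank_range_add_finrank_ker φ
    rw [hsurj, finrank_top, Module.finrank_self, hL] at hrn
    let L' : Submodule K (ι → K) := (LinearMap.ker φ).map L.subtype
    have hL' : Module.finrank K L' = d := by
      rw [Submodule.finrank_map_subtype_eq]
      omega
    have hmem : ∀ x ∈ L', x ∈ L ∧ x j = 0 := by
      rintro _ ⟨x, hx, rfl⟩
      exact ⟨x.2, hx⟩
    obtain ⟨e', he'L, he'A, he'li⟩ := ih L' hL'
    refine ⟨Fin.cons v e', ?_, ?_, ?_⟩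
    · intro i
      refine Fin.cases ?_ (fun i => ?_) i
      · exact hvL
      · exact (hmem _ (he'L i)).1
    · intro i
      refine Fin.cases ?_ (fun i => ?_) i
      · exact hvA
      · exact he'A i
    · have hcons : (fun i => fun j => R.redA ((Fin.cons v e' : Fin (d + 1) → (ι → K)) i j))
          = (Fin.cons (fun j => R.redA (v j)) (fun i => fun j => R.redA (e' i j)) :
              Fin (d + 1) → (ι → k)) := by
        funext i
        refine Fin.cases ?_ (fun i => ?_) i
        · rfl
        · rfl
      rw [hcons, linearIndependent_finCons]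
      refine ⟨he'li, fun hspan => ?_⟩
      have hle : Submodule.span k (Set.range fun i => fun j => R.redA (e' i j))
          ≤ LinearMap.ker (LinearMap.proj j : (ι → k) →ₗ[k] k) := by
        rw [Submodule.span_le]
        rintro _ ⟨i, rfl⟩
        show R.redA (e' i j) = 0
        rw [(hmem _ (he'L i)).2, R.redA_zero]
      have h1 : R.redA (v j) = 0 := hle hspan
      rw [hvj, R.redA_one] at h1
      exact one_ne_zero h1

/-- Every subspace `L` of `K^ι` has a basis of integral vectors whose reductions are linearly
independent ("orthonormal basis for the sup norm").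

Proof: induction on `finrank L` (or on `card ι`).  If `L ≠ 0` choose a basis `w` of `L`, and
`(s, j)` with `|w s j|` maximal among all entries (finite family in a valuation ring:
`exists_scale_family`-style argument).  `v := (w s j)⁻¹ • w s` is integral with `v j = 1`.
`L' := L ⊓ {x | x j = 0}` has dimension one less (`x ↦ x - x j • v` is a projection of `L` onto
`L'` with kernel `K v`); induction gives `e'` for `L'`; `e := Fin.cons v e'`.  Independence of the
reductions: look at the coordinate `j`: the reductions of the `e'` vanish there, that of `v` is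
`1`. -/
theorem exists_echelon (R : RedData K F k Fb) {ι : Type*} [Fintype ι] (L : Submodule K (ι → K)) :
    ∃ e : Fin (Module.finrank K L) → (ι → K), (∀ i, e i ∈ L) ∧ (∀ i j, e i j ∈ R.A) ∧
      LinearIndependent k (fun i => fun j => R.redA (e i j)) :=
  echelon_aux R _ L rfl

end Fermat.Agent.GAL.RED
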