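import Fermat.Agent.GAL.RED.Lift
import Fermat.Agent.GAL.RED.Echelon

/-!
# GAL-RED leaf A3: the criterion for `IsCartesian` ("(I3)(a)").
-/

set_option autoImplicit false

namespace Fermat.Agent.GAL.RED

open AlgebraicCurve Fermat.Agent.Lib.RR

section coordinates

variable (K : Type*) {F : Type*} [Field K] [Field F] [Algebra K F] (y : F) {n : ℕ} (z : Fin n → F)
  (N : ℕ)

/-- `c ↦ ∑ c (i, j) y ^ j z i`. -/
noncomputable def cartPhi : (Fin n × Fin N → K) →ₗ[K] F :=
  ∑ ij : Fin n × Fin N,
    (LinearMap.proj ij : (Fin n × Fin N → K) →ₗ[K] K).smulRight (y ^ (ij.2 : ℕ) * z ij.1)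

variable {K N}

theorem cartPhi_apply (c : Fin n × Fin N → K) :
    cartPhi K y z N c = ∑ ij : Fin n × Fin N, c ij • (y ^ (ij.2 : ℕ) * z ij.1) := by
  simp [cartPhi, LinearMap.sum_apply]

/-- the polynomials attached to a coordinate vector. -/
noncomputable def cartPoly (c : Fin n × Fin N → K) (i : Fin n) : Polynomial K :=
  ∑ j : Fin N, Polynomial.monomial (j : ℕ) (c (i, j))

theorem cartPhi_eq_sum_aeval (c : Fin n × Fin N → K) :
    cartPhi K y z N c = ∑ i, Polynomial.aeval y (cartPoly c i) * z i := by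
  rw [cartPhi_apply, Fintype.sum_prod_type]
  refine Finset.sum_congr rfl fun i _ => ?_
  simp only [cartPoly, map_sum, Polynomial.aeval_monomial, Finset.sum_mul]
  refine Finset.sum_congr rfl fun j _ => ?_
  rw [Algebra.smul_def]
  ring

theorem cartPoly_coeff (c : Fin n × Fin N → K) (i : Fin n) (j : Fin N) :
    (cartPoly c i).coeff (j : ℕ) = c (i, j) := by
  rw [cartPoly, Polynomial.finsetSum_coeff, Finset.sum_eq_single j]
  · simp
  · intro j' _ hj'
    rw [Polynomial.coeff_monomial, if_neg]
    intro h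
    exact hj' (Fin.ext h)
  · intro h
    exact absurd (Finset.mem_univ j) h

theorem cartPoly_of_coeff (q : Fin n → Polynomial K) (hq : ∀ i, (q i).natDegree < N) (i : Fin n) :
    cartPoly (fun ij : Fin n × Fin N => (q ij.1).coeff (ij.2 : ℕ)) i = q i := by
  rw [cartPoly]
  conv_rhs => rw [(q i).as_sum_range' N (hq i)]
  exact Fin.sum_univ_eq_sum_range (fun j => Polynomial.monomial j ((q i).coeff j)) N

variable {y z}

theorem cartPhi_injective (h : PolyIndep K y z) : Function.Injective (cartPhi K y z N) := by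
  rw [← LinearMap.ker_eq_bot, LinearMap.ker_eq_bot']
  intro c hc
  rw [cartPhi_eq_sum_aeval] at hc
  have h0 := h _ hc
  funext ij
  obtain ⟨i, j⟩ := ij
  have h1 := congrFun h0 i
  rw [← cartPoly_coeff c i j, h1]
  simp

theorem aeval_ne_zero_of_polyIndep (hn : 0 < n) (h : PolyIndep K y z) {d : Polynomial K}
    (hd : d ≠ 0) : Polynomial.aeval y d ≠ 0 := by
  classical
  intro h0
  have h1 := h (Pi.single ⟨0, hn⟩ d) (by
    rw [Finset.sum_eq_single (⟨0, hn⟩ : Fin n)]
    · simp [h0]
    · intro i _ hi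
      simp [Pi.single_eq_of_ne hi]
    · intro h
      exact absurd (Finset.mem_univ _) h)
  apply hd
  have h2 := congrFun h1 ⟨0, hn⟩
  simpa using h2

end coordinates

variable {K F k Fb : Type*} [Field K] [Field F] [Algebra K F] [Field k] [Field Fb] [Algebra k Fb]

theorem red_cartPhi (R : RedData K F k Fb) {n : ℕ} {x : F} {b : Fin n → F} (hx : x ∈ R.O)
    (hb : ∀ i, b i ∈ R.O) (N : ℕ) (e : Fin n × Fin N → K) (he : ∀ ij, e ij ∈ R.A) :
    cartPhi K x b N e ∈ R.O ∧ R.red (cartPhi K x b N e) =
      cartPhi k (R.red x) (fun i => R.red (b i)) N (fun ij => R.redA (e ij)) := by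
  have hmem0 : ∀ ij : Fin n × Fin N, x ^ (ij.2 : ℕ) * b ij.1 ∈ R.O := fun ij =>
    R.O.mul_mem _ _ (pow_mem hx _) (hb _)
  have hmem : ∀ ij : Fin n × Fin N, e ij • (x ^ (ij.2 : ℕ) * b ij.1) ∈ R.O := fun ij =>
    R.smul_mem (he ij) (hmem0 ij)
  constructor
  · rw [cartPhi_apply]
    exact sum_mem fun ij _ => hmem ij
  · rw [cartPhi_apply, cartPhi_apply, R.red_sum _ _ (fun ij _ => hmem ij)]
    refine Finset.sum_congr rfl fun ij _ => ?_
    rw [R.red_smul (he ij) (hmem0 ij), R.red_mul (pow_mem hx _) (hb _), R.red_pow]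

/-- (A3) If `F` is spanned over `K(x)` by integral elements `b i` whose reductions are independent
over `k[x̄]`, then `R` is cartesian. -/
theorem isCartesian_of_basis (R : RedData K F k Fb) {n : ℕ} (hn : 0 < n) (x : F) (b : Fin n → F)
    (hx : x ∈ R.O) (hb : ∀ i, b i ∈ R.O)
    (hspan : ∀ f : F, ∃ (d : Polynomial K) (p : Fin n → Polynomial K), d ≠ 0 ∧
      Polynomial.aeval x d * f = ∑ i, Polynomial.aeval x (p i) * b i)
    (hind : PolyIndep k (R.red x) (fun i => R.red (b i))) : R.IsCartesian := by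
  classical
  intro L hL
  refine le_antisymm (R.finrank_redSub_le L) ?_
  have hindK : PolyIndep K x b := R.polyIndep_of_red hx hb hind
  set r := Module.finrank K L with hr
  let fb : Module.Basis (Fin r) K L := Module.finBasis K L
  choose ds ps hds hps using fun s : Fin r => hspan (fb s : F)
  let d : Polynomial K := ∏ s, ds s
  have hd : d ≠ 0 := Finset.prod_ne_zero_iff.mpr fun s _ => hds s
  let D : F := Polynomial.aeval x d
  have hD : D ≠ 0 := aeval_ne_zero_of_polyIndep hn hindK hd
  let q : Fin r → Fin n → Polynomial K := fun s i => (∏ t ∈ Finset.univ.erase s, ds t) * ps s i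
  have hq : ∀ s, D * (fb s : F) = ∑ i, Polynomial.aeval x (q s i) * b i := by
    intro s
    have h1 : d = (∏ t ∈ Finset.univ.erase s, ds t) * ds s := by
      rw [mul_comm]
      exact (Finset.mul_prod_erase Finset.univ ds (Finset.mem_univ s)).symm
    simp only [D, q]
    rw [h1, map_mul, mul_assoc, hps s, Finset.mul_sum]
    refine Finset.sum_congr rfl fun i _ => ?_
    rw [map_mul, mul_assoc]
  let N : ℕ := (Finset.univ.sup fun s => Finset.univ.sup fun i => (q s i).natDegree) + 1
  have hqN : ∀ s i, (q s i).natDegree < N := by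
    intro s i
    have h1 : (q s i).natDegree ≤ Finset.univ.sup fun i => (q s i).natDegree :=
      Finset.le_sup (f := fun i => (q s i).natDegree) (Finset.mem_univ i)
    have h2 : (Finset.univ.sup fun i => (q s i).natDegree) ≤
        Finset.univ.sup fun s => Finset.univ.sup fun i => (q s i).natDegree :=
      Finset.le_sup (f := fun s => Finset.univ.sup fun i => (q s i).natDegree) (Finset.mem_univ s)
    exact Nat.lt_succ_of_le (h1.trans h2)
  let Φ := cartPhi K x b N
  let c : Fin r → (Fin n × Fin N → K) := fun s ij => (q s ij.1).coeff (ij.2 : ℕ)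
  have hΦc : ∀ s, Φ (c s) = D * (fb s : F) := by
    intro s
    rw [hq s]
    simp only [Φ]
    rw [cartPhi_eq_sum_aeval]
    refine Finset.sum_congr rfl fun i _ => ?_
    rw [cartPoly_of_coeff (q s) (hqN s) i]
  have hmulinj : LinearMap.ker (LinearMap.mulLeft K D) = ⊥ := by
    rw [LinearMap.ker_eq_bot]
    exact mul_right_injective₀ hD
  have hcind : LinearIndependent K c := by
    apply LinearIndependent.of_comp Φ
    have h1 : LinearIndependent K (fun s => (fb s : F)) :=
      fb.linearIndependent.map' L.subtype (Submodule.ker_subtype L)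
    have h2 := h1.map' (LinearMap.mulLeft K D) hmulinj
    have h3 : (⇑Φ ∘ c) = (⇑(LinearMap.mulLeft K D) ∘ fun s => (fb s : F)) := by
      funext s
      exact hΦc s
    rw [h3]
    exact h2
  let L' : Submodule K (Fin n × Fin N → K) := Submodule.span K (Set.range c)
  have hL' : Module.finrank K L' = r := by
    rw [finrank_span_eq_card hcind, Fintype.card_fin]
  obtain ⟨e, heL, heA, heind⟩ := exists_echelon R L'
  have hle : L' ≤ (L.map (LinearMap.mulLeft K D)).comap Φ := by
    rw [Submodule.span_le]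
    rintro _ ⟨s, rfl⟩
    exact ⟨fb s, (fb s).2, (hΦc s).symm⟩
  -- scaling of the denominator
  obtain ⟨a, q0, ha, hq0, hq0ne⟩ := R.exists_scale_poly (fun _ : Fin 1 => d)
    (fun h => hd (congrFun h 0))
  let D0 : F := Polynomial.aeval x ((q0 0).map R.A.subtype)
  have hD0 : D0 = algebraMap K F a * D := by
    simp only [D0, D]
    rw [hq0 0, map_mul, Polynomial.aeval_C]
  have hD0O : D0 ∈ R.O := R.aeval_map_mem (q0 0) hx
  have hq0ne' : (q0 0).map R.resA ≠ 0 := by
    intro h
    apply hq0ne
    funext i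
    rw [Subsingleton.elim i 0, h]
    rfl
  have hD0red : R.red D0 ≠ 0 := by
    rw [R.red_aeval_map (q0 0) hx]
    exact aeval_ne_zero_of_polyIndep hn hind hq0ne'
  let g : Fin (Module.finrank K L') → F := fun s => Φ (e s) / D0
  have hgL : ∀ s, g s ∈ L := by
    intro s
    obtain ⟨l, hl, hlΦ⟩ := hle (heL s)
    have h1 : g s = a⁻¹ • l := by
      simp only [g]
      rw [← hlΦ, hD0, LinearMap.mulLeft_apply, Algebra.smul_def, map_inv₀]
      have ha' : algebraMap K F a ≠ 0 := by simpa using ha
      field_simp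
    rw [h1]
    exact L.smul_mem _ hl
  have hΦe := fun s => red_cartPhi R hx hb N (e s) (heA s)
  have hgO : ∀ s, g s ∈ R.O := by
    intro s
    simp only [g]
    rw [div_eq_mul_inv]
    exact R.O.mul_mem _ _ (hΦe s).1 (R.inv_mem_of_red_ne_zero hD0red)
  have hgred : ∀ s, R.red (g s) = (R.red D0)⁻¹ *
      cartPhi k (R.red x) (fun i => R.red (b i)) N (fun ij => R.redA (e s ij)) := by
    intro s
    simp only [g]
    rw [R.red_div (hΦe s).1 hD0red, (hΦe s).2, div_eq_mul_inv, mul_comm]
  have hind2 : LinearIndependent k (fun s => R.red (g s)) := by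
    have h1 := heind.map' (cartPhi k (R.red x) (fun i => R.red (b i)) N)
      (LinearMap.ker_eq_bot.mpr (cartPhi_injective hind))
    have h2 := h1.map' (LinearMap.mulLeft k (R.red D0)⁻¹) (by
      rw [LinearMap.ker_eq_bot]
      exact mul_right_injective₀ (inv_ne_zero hD0red))
    have h3 : (fun s => R.red (g s)) = (⇑(LinearMap.mulLeft k (R.red D0)⁻¹) ∘
        (⇑(cartPhi k (R.red x) (fun i => R.red (b i)) N) ∘ fun s => fun ij => R.redA (e s ij))) := by
      funext s
      exact hgred s
    rw [h3]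
    exact h2
  have hind3 : LinearIndependent k
      (fun s => (⟨R.red (g s), ⟨g s, hgL s, hgO s, rfl⟩⟩ : R.redSub L)) := by
    apply LinearIndependent.of_comp (R.redSub L).subtype
    exact hind2
  have := R.finite_redSub L
  have h3 := hind3.fintype_card_le_finrank
  rw [Fintype.card_fin, hL'] at h3
  exact h3

end Fermat.Agent.GAL.RED
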