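import Fermat.Agent.GAL.RED.Cartesian

/-!
# GAL-RED leaf A4: the criterion for `IsCartesian` in terms of field degrees.
-/

set_option autoImplicit false

namespace Fermat.Agent.GAL.RED

open AlgebraicCurve Fermat.Agent.Lib.RR

section fieldTheory

variable {K F : Type*} [Field K] [Field F] [Algebra K F]

/-- one element of `K(x)` as a fraction with non vanishing denominator. -/
theorem cartesianDeg_exists_frac (x : F) (c : F) (hc : c ∈ IntermediateField.adjoin K {x}) :
    ∃ r s : Polynomial K, Polynomial.aeval x s ≠ 0 ∧
      Polynomial.aeval x s * c = Polynomial.aeval x r := by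
  obtain ⟨r, s, hrs⟩ := (IntermediateField.mem_adjoin_simple_iff K c).1 hc
  by_cases hs : Polynomial.aeval x s = 0
  · refine ⟨0, 1, by simp, ?_⟩
    rw [hrs, hs]
    simp
  · refine ⟨r, s, hs, ?_⟩
    rw [hrs]
    field_simp

/-- common denominators in `K(x)`. -/
theorem cartesianDeg_exists_denom (x : F) {n : ℕ} (c : Fin n → F)
    (hc : ∀ i, c i ∈ IntermediateField.adjoin K {x}) :
    ∃ (d : Polynomial K) (p : Fin n → Polynomial K), Polynomial.aeval x d ≠ 0 ∧
      ∀ i, Polynomial.aeval x d * c i = Polynomial.aeval x (p i) := by
  classical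
  choose r s hs hrs using fun i => cartesianDeg_exists_frac x (c i) (hc i)
  refine ⟨∏ i, s i, fun i => r i * ∏ j ∈ Finset.univ.erase i, s j, ?_, fun i => ?_⟩
  · rw [map_prod]
    exact Finset.prod_ne_zero_iff.2 fun i _ => hs i
  · rw [← Finset.mul_prod_erase Finset.univ s (Finset.mem_univ i), map_mul, map_mul, ← hrs i]
    ring

/-- independence over `K(x)` implies independence over `K[x]`, for transcendental `x`. -/
theorem cartesianDeg_polyIndep (x : F) (htr : Transcendental K x) {n : ℕ} (b : Fin n → F)
    (hb : LinearIndependent (IntermediateField.adjoin K {x}) b) : PolyIndep K x b := by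
  intro p hp
  have hmem : ∀ i, Polynomial.aeval x (p i) ∈ IntermediateField.adjoin K {x} := by
    intro i
    rw [IntermediateField.mem_adjoin_simple_iff]
    exact ⟨p i, 1, by simp⟩
  have h0 : ∑ i, (⟨Polynomial.aeval x (p i), hmem i⟩ : IntermediateField.adjoin K {x}) • b i
      = 0 := by
    rw [← hp]
    rfl
  have h1 := Fintype.linearIndependent_iff.1 hb _ h0
  funext i
  have h2 : Polynomial.aeval x (p i) = 0 := congrArg Subtype.val (h1 i)
  exact (transcendental_iff.1 htr) (p i) h2

/-- independence over `K[x]` implies independence over `K(x)`. -/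
theorem cartesianDeg_linearIndependent (x : F) {n : ℕ} (b : Fin n → F)
    (hb : PolyIndep K x b) : LinearIndependent (IntermediateField.adjoin K {x}) b := by
  rw [Fintype.linearIndependent_iff]
  intro c hc i
  obtain ⟨d, p, hd, hp⟩ := cartesianDeg_exists_denom x (fun i => ((c i : _) : F))
    (fun i => (c i).2)
  have h0 : ∑ i, Polynomial.aeval x (p i) * b i = 0 := by
    have h1 : ∑ i, ((c i : _) : F) * b i = 0 := hc
    calc ∑ i, Polynomial.aeval x (p i) * b i
        = ∑ i, Polynomial.aeval x d * (((c i : _) : F) * b i) := by
          refine Finset.sum_congr rfl fun i _ => ?_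
          rw [← hp i, mul_assoc]
      _ = 0 := by rw [← Finset.mul_sum, h1, mul_zero]
  have hp0 := hb p h0
  have h2 := hp i
  rw [hp0] at h2
  simp only [Pi.zero_apply, map_zero, mul_eq_zero] at h2
  exact Subtype.ext (h2.resolve_left hd)

/-- spanning over `K(x)` in elementary form. -/
theorem cartesianDeg_span (x : F) {n : ℕ} (b : Fin n → F)
    (hb : Submodule.span (IntermediateField.adjoin K {x}) (Set.range b) = ⊤) (f : F) :
    ∃ (d : Polynomial K) (p : Fin n → Polynomial K), d ≠ 0 ∧
      Polynomial.aeval x d * f = ∑ i, Polynomial.aeval x (p i) * b i := by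
  have hf : f ∈ Submodule.span (IntermediateField.adjoin K {x}) (Set.range b) := by
    rw [hb]; trivial
  obtain ⟨c, hc⟩ := (Submodule.mem_span_range_iff_exists_fun _).1 hf
  obtain ⟨d, p, hd, hp⟩ := cartesianDeg_exists_denom x (fun i => ((c i : _) : F))
    (fun i => (c i).2)
  refine ⟨d, p, ?_, ?_⟩
  · rintro rfl
    simp at hd
  · have h1 : ∑ i, ((c i : _) : F) * b i = f := hc
    rw [← h1, Finset.mul_sum]
    refine Finset.sum_congr rfl fun i _ => ?_
    rw [← hp i, mul_assoc]

end fieldTheory

variable {K F k Fb : Type*} [Field K] [Field F] [Algebra K F] [Field k] [Field Fb] [Algebra k Fb]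

/-- (A4) The criterion in terms of field degrees: `[F : K(x)] ≤ [Fb : k(x̄)] < ∞`, `x̄`
transcendental. -/
theorem isCartesian_of_finrank_le (R : RedData K F k Fb) (x : F) (hx : x ∈ R.O)
    (htr : Transcendental k (R.red x))
    (hfin : FiniteDimensional (IntermediateField.adjoin K {x}) F)
    (hfinb : FiniteDimensional (IntermediateField.adjoin k {R.red x}) Fb)
    (hle : Module.finrank (IntermediateField.adjoin K {x}) F ≤
      Module.finrank (IntermediateField.adjoin k {R.red x}) Fb) : R.IsCartesian := by
  have hn : 0 < Module.finrank (IntermediateField.adjoin k {R.red x}) Fb := Module.finrank_pos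
  let bb := Module.finBasis (IntermediateField.adjoin k {R.red x}) Fb
  choose b hbO hbred using fun i => R.exists_lift (bb i)
  have hind : PolyIndep k (R.red x) (fun i => R.red (b i)) := by
    have : (fun i => R.red (b i)) = bb := funext hbred
    rw [this]
    exact cartesianDeg_polyIndep (R.red x) htr bb bb.linearIndependent
  have hindK : PolyIndep K x b := R.polyIndep_of_red hx hbO hind
  have hli : LinearIndependent (IntermediateField.adjoin K {x}) b :=
    cartesianDeg_linearIndependent x b hindK
  have hcard : Fintype.card (Fin (Module.finrank (IntermediateField.adjoin k {R.red x}) Fb))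
      = Module.finrank (IntermediateField.adjoin K {x}) F := by
    refine le_antisymm hli.fintype_card_le_finrank ?_
    rw [Fintype.card_fin]
    exact hle
  have hspan := hli.span_eq_top_of_card_eq_finrank' hcard
  exact isCartesian_of_basis R hn x b hx hbO (cartesianDeg_span x b hspan) hind

end Fermat.Agent.GAL.RED
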