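import Fermat.Agent.GAL.RED.Local

/-!
# GAL-RED leaf D3: the heart of INJ.
-/

set_option autoImplicit false

namespace Fermat.Agent.GAL.RED

open AlgebraicCurve Fermat.Agent.Lib.RR

variable {K F k Fb : Type*} [Field K] [Field F] [Algebra K F] [Field k] [Field Fb] [Algebra k Fb]

open Classical in
theorem Const_sum_pt_apply {K F : Type*} [Field K] [Field F] [Algebra K F]
    (s : Finset (Place K F)) (Q : Place K F) :
    (∑ Q' ∈ s, pt Q') Q = if Q ∈ s then 1 else 0 := by
  rw [Finsupp.finset_sum_apply]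
  simp only [pt, Finsupp.single_apply]
  rw [Finset.sum_ite_eq' s Q (fun _ => (1 : ℤ))]

theorem Const_sum_pt_nonneg {K F : Type*} [Field K] [Field F] [Algebra K F]
    (s : Finset (Place K F)) : (0 : Divisor K F) ≤ ∑ Q' ∈ s, pt Q' := by
  classical
  intro Q
  rw [Const_sum_pt_apply]
  simp only [Finsupp.coe_zero, Pi.zero_apply]
  split_ifs <;> norm_num

open Classical in
theorem Const_sum_lift_apply (r : Place K F → Place k Fb) (s : Finset (Place k Fb))
    (P₀ : Place k Fb → Place K F) (hP₀ : ∀ Q, r (P₀ Q) = Q) (P : Place K F) :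
    (∑ Q ∈ s, pt (P₀ Q)) P = if r P ∈ s ∧ P = P₀ (r P) then 1 else 0 := by
  rw [Finsupp.finset_sum_apply]
  simp only [pt, Finsupp.single_apply]
  by_cases h : r P ∈ s ∧ P = P₀ (r P)
  · rw [if_pos h, Finset.sum_eq_single (r P)]
    · rw [if_pos h.2.symm]
    · intro Q _ hQ
      rw [if_neg]
      intro hQP
      apply hQ
      rw [← hQP, hP₀]
    · intro hn
      exact absurd h.1 hn
  · rw [if_neg h]
    apply Finset.sum_eq_zero
    intro Q hQ
    rw [if_neg]
    intro hQP
    apply h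
    have : r P = Q := by rw [← hQP, hP₀]
    rw [this]
    exact ⟨hQ, hQP.symm⟩

variable [IsFF K F] [IsAlgClosed K] [IsFF k Fb] [IsAlgClosed k]

/-- (D3) The heart: `div f' = m (E - E₀)` with `E₀ = ∑_{Q ∈ s} P₀(Q)` a lift of a non special
divisor `∑_{Q ∈ s} Q`, `E ≥ 0`, `r_* E = r_* E₀`, `f̄' = 1`.  Then `f'` is constant. -/
theorem const_of_nonspecial {R : RedData K F k Fb} {r : Place K F → Place k Fb}
    (hC : R.IsCartesian) (hg : genusFF K F = genusFF k Fb) (hr : IsRedMap R r)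
    (m : ℕ) (hm : (m : k) ≠ 0)
    (s : Finset (Place k Fb)) (hs : ell (∑ Q ∈ s, pt Q) = 1)
    (P₀ : Place k Fb → Place K F) (hP₀ : ∀ Q, r (P₀ Q) = Q)
    (E : Divisor K F) (hE : 0 ≤ E) (hrE : Finsupp.mapDomain r E = ∑ Q ∈ s, pt Q)
    (f' : F) (hf' : R.red f' = 1)
    (hdiv : divOf (K := K) f' = (m : ℤ) • (E - ∑ Q ∈ s, pt (P₀ Q))) :
    f' ∈ Set.range (algebraMap K F) := by
  classical
  by_contra hnot
  obtain ⟨a, b, hab⟩ := hC.exists_nonconstant hnot
  set F1 : F := algebraMap K F a + algebraMap K F b * f' with hF1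
  have hF1ne : R.red F1 ≠ 0 := by
    intro h
    apply hab
    rw [h]
    exact ⟨0, map_zero _⟩
  have hF1O : F1 ∈ R.O := R.mem_of_red_ne_zero hF1ne
  have hf'ne : R.red f' ≠ 0 := by rw [hf']; exact one_ne_zero
  have hf'O : f' ∈ R.O := R.mem_of_red_ne_zero hf'ne
  have hf'0 : f' ≠ 0 := R.ne_zero_of_red_ne_zero hf'ne
  -- `b ∉ A`
  have hbA : b ∉ R.A := by
    intro hb
    have h1 : algebraMap K F b * f' ∈ R.O := R.O.mul_mem _ _ (R.algebraMap_mem b hb) hf'O
    have h2 : algebraMap K F a ∈ R.O := by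
      have : algebraMap K F a = F1 - algebraMap K F b * f' := by rw [hF1]; ring
      rw [this]
      exact R.O.sub_mem hF1O h1
    apply hab
    rw [hF1, R.red_add h2 h1, R.red_mul (R.algebraMap_mem b hb) hf'O, hf', mul_one,
      R.red_algebraMap', R.red_algebraMap', ← map_add]
    exact ⟨_, rfl⟩
  have hb0 : b ≠ 0 := by
    rintro rfl
    exact hbA R.A.zero_mem
  have hπ0A : b⁻¹ ∈ R.A := (R.A.mem_or_inv_mem b).resolve_left hbA
  have hπ0red : R.redA b⁻¹ = 0 := by
    by_contra h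
    have := (R.redA_ne_zero_iff.1 h).2.2
    rw [inv_inv] at this
    exact hbA this
  -- the constant `c`
  set c : K := -a * b⁻¹ with hc
  have hbF : algebraMap K F b ≠ 0 := by simpa using hb0
  have hcF : algebraMap K F c = f' - algebraMap K F b⁻¹ * F1 := by
    rw [hc, hF1, map_mul, map_neg, map_inv₀]
    field_simp
    ring
  have hπF1O : algebraMap K F b⁻¹ * F1 ∈ R.O := R.O.mul_mem _ _ (R.algebraMap_mem _ hπ0A) hF1O
  have hπF1red : R.red (algebraMap K F b⁻¹ * F1) = 0 := by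
    rw [R.red_mul (R.algebraMap_mem _ hπ0A) hF1O, R.red_algebraMap', hπ0red, map_zero, zero_mul]
  have hcO : algebraMap K F c ∈ R.O := by
    rw [hcF]
    exact R.O.sub_mem hf'O hπF1O
  have hcA : c ∈ R.A := (R.algebraMap_mem_iff c).1 hcO
  have hcred : R.redA c = 1 := by
    have h1 : R.red (algebraMap K F c) = 1 := by
      rw [hcF, R.red_sub hf'O hπF1O, hf', hπF1red, sub_zero]
    rw [R.red_algebraMap'] at h1
    apply (algebraMap k Fb).injective
    rw [h1, map_one]
  have hcne : R.redA c ≠ 0 := by rw [hcred]; exact one_ne_zero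
  obtain ⟨hc0, -, hcinvA⟩ := R.redA_ne_zero_iff.1 hcne
  have hcF0 : algebraMap K F c ≠ 0 := by simpa using hc0
  -- the small constant `π`
  set π : K := b⁻¹ * c⁻¹ with hπ
  have hπ0 : π ≠ 0 := mul_ne_zero (inv_ne_zero hb0) (inv_ne_zero hc0)
  have hπA : π ∈ R.A := R.A.mul_mem _ _ hπ0A hcinvA
  have hπred : R.redA π = 0 := by
    rw [hπ, R.redA_mul hπ0A hcinvA, hπ0red, zero_mul]
  have hπF0 : algebraMap K F π ≠ 0 := by simpa using hπ0
  have hkey : 1 + algebraMap K F π * F1 = f' * algebraMap K F c⁻¹ := by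
    have h1 : f' = algebraMap K F c + algebraMap K F b⁻¹ * F1 := by rw [hcF]; ring
    rw [hπ, map_mul, map_inv₀ (algebraMap K F) c]
    conv_rhs => rw [h1]
    field_simp
  have hord : ∀ P : Place K F, P.ord (1 + algebraMap K F π * F1)
      = (m : ℤ) * (E P - (∑ Q ∈ s, pt (P₀ Q)) P) := by
    intro P
    have hcinvF0 : algebraMap K F c⁻¹ ≠ 0 := by simpa using hc0
    rw [hkey, P.ord_mul hf'0 hcinvF0, ord_algebraMap, add_zero, ← divOf_apply (K := K) f' P, hdiv]
    simp only [Finsupp.smul_apply, Finsupp.sub_apply, smul_eq_mul]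
  have hF10 : F1 ≠ 0 := R.ne_zero_of_red_ne_zero hF1ne
  -- the claim
  have hclaim : R.red F1 ∈ riemannRochSpace (∑ Q ∈ s, pt Q) := by
    rw [mem_riemannRochSpace_iff]
    intro Q
    right
    rw [Const_sum_pt_apply]
    by_cases hQ : Q ∈ s
    · rw [if_pos hQ]
      have h1 : Finsupp.mapDomain r E Q = 1 := by
        rw [hrE, Const_sum_pt_apply, if_pos hQ]
      obtain ⟨P₁, hP₁, hEP⟩ := exists_unique_of_mapDomain_apply_eq_one r E Q
        (fun P _ => hE P) h1
      apply local_claim hC hg hr m hm Q (P₀ Q) P₁ (hP₀ Q) hP₁ F1 hF1ne π hπ0 hπA hπred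
      intro P hP
      rw [hord P, hEP P hP, Const_sum_lift_apply r s P₀ hP₀ P, hP]
      simp only [hQ, true_and]
    · rw [if_neg hQ, neg_zero]
      apply hr.ord_red_nonneg hF1ne Q
      intro P hP
      by_contra hneg
      rw [not_le] at hneg
      have h1 := hord P
      rw [Const_sum_lift_apply r s P₀ hP₀ P, hP, if_neg (fun h => hQ h.1), sub_zero] at h1
      have h2 : P.ord (algebraMap K F π * F1) = P.ord F1 := by
        rw [P.ord_mul hπF0 hF10, ord_algebraMap, zero_add]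
      have h3 : P.ord (algebraMap K F π * F1 + 1) = P.ord (algebraMap K F π * F1) := by
        apply ord_add_eq_of_lt P (mul_ne_zero hπF0 hF10) one_ne_zero
        rw [h2, Place.ord_one]
        exact hneg
      rw [add_comm, h3, h2] at h1
      have h4 : (0 : ℤ) ≤ (m : ℤ) * E P := mul_nonneg (Int.natCast_nonneg m) (hE P)
      omega
  exact hab (mem_range_of_ell_eq_one (Const_sum_pt_nonneg s) hs hclaim)

end Fermat.Agent.GAL.RED
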