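import Fermat.Agent.GAL.RED.Lift
import Fermat.Agent.GAL.RED.Curve

/-!
# GAL-RED leaf D0: formal consequences of `IsRedMap R r`.
The "residue disc" of a place `Q` of `Fb` is `{P | r P = Q}`.
-/

set_option autoImplicit false

namespace Fermat.Agent.GAL.RED

open AlgebraicCurve Fermat.Agent.Lib.RR

variable {K F k Fb : Type*} [Field K] [Field F] [Algebra K F] [Field k] [Field Fb] [Algebra k Fb]

/-! ### generalities on `Finsupp.mapDomain` -/

open Classical in
theorem Disc_mapDomain_apply {α β : Type*} (r : α → β) (D : α →₀ ℤ) (b : β) :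
    Finsupp.mapDomain r D b = ∑ a ∈ D.support, if r a = b then D a else 0 := by
  rw [Finsupp.mapDomain, Finsupp.sum_apply, Finsupp.sum]
  refine Finset.sum_congr rfl fun a _ => ?_
  rw [Finsupp.single_apply]

theorem mapDomain_nonneg {α β : Type*} (r : α → β) {D : α →₀ ℤ} (h : 0 ≤ D) :
    0 ≤ Finsupp.mapDomain r D := by
  classical
  intro b
  rw [Disc_mapDomain_apply]
  apply Finset.sum_nonneg
  intro a _
  split_ifs
  · exact h a
  · exact le_refl _

theorem mapDomain_mono {α β : Type*} (r : α → β) {D D' : α →₀ ℤ} (h : D ≤ D') :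
    Finsupp.mapDomain r D ≤ Finsupp.mapDomain r D' := by
  have h1 : D' = D + (D' - D) := by abel
  rw [h1, Finsupp.mapDomain_add]
  exact le_add_of_nonneg_right (mapDomain_nonneg r (sub_nonneg.mpr h))

open Classical in
theorem mapDomain_apply_eq_sum {α β : Type*} (r : α → β) (D : α →₀ ℤ) (b : β) :
    Finsupp.mapDomain r D b = ∑ a ∈ D.support.filter (fun a => r a = b), D a := by
  rw [Disc_mapDomain_apply, Finset.sum_filter]

theorem mapDomain_apply_nonneg {α β : Type*} (r : α → β) (D : α →₀ ℤ) (b : β)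
    (h : ∀ a, r a = b → 0 ≤ D a) : 0 ≤ Finsupp.mapDomain r D b := by
  classical
  rw [Disc_mapDomain_apply]
  apply Finset.sum_nonneg
  intro a _
  split_ifs with ha
  · exact h a ha
  · exact le_refl _

theorem Disc_le_mapDomain_apply {α β : Type*} (r : α → β) (D : α →₀ ℤ) (b : β)
    (h : ∀ a, r a = b → 0 ≤ D a) {a₀ : α} (h₀ : r a₀ = b) :
    D a₀ ≤ Finsupp.mapDomain r D b := by
  classical
  by_cases hs : a₀ ∈ D.support
  · rw [mapDomain_apply_eq_sum]
    exact Finset.single_le_sum (f := fun a => D a)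
      (fun a ha => h a (Finset.mem_filter.mp ha).2) (Finset.mem_filter.mpr ⟨hs, h₀⟩)
  · rw [Finsupp.notMem_support_iff.mp hs]
    exact mapDomain_apply_nonneg r D b h

theorem mapDomain_apply_pos {α β : Type*} (r : α → β) (D : α →₀ ℤ) (b : β)
    (h : ∀ a, r a = b → 0 ≤ D a) {a₀ : α} (h₀ : r a₀ = b) (hpos : 0 < D a₀) :
    0 < Finsupp.mapDomain r D b :=
  lt_of_lt_of_le hpos (Disc_le_mapDomain_apply r D b h h₀)

theorem Disc_add_le_mapDomain_apply {α β : Type*} (r : α → β) (D : α →₀ ℤ) (b : β)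
    (h : ∀ a, r a = b → 0 ≤ D a) {a₀ a₁ : α} (h₀ : r a₀ = b) (h₁ : r a₁ = b) (hne : a₀ ≠ a₁) :
    D a₀ + D a₁ ≤ Finsupp.mapDomain r D b := by
  classical
  by_cases hs : a₀ ∈ D.support
  · by_cases hs1 : a₁ ∈ D.support
    · rw [mapDomain_apply_eq_sum]
      have hm0 : a₀ ∈ D.support.filter (fun a => r a = b) := Finset.mem_filter.mpr ⟨hs, h₀⟩
      have hm1 : a₁ ∈ (D.support.filter (fun a => r a = b)).erase a₀ :=
        Finset.mem_erase.mpr ⟨hne.symm, Finset.mem_filter.mpr ⟨hs1, h₁⟩⟩
      rw [← Finset.add_sum_erase _ _ hm0]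
      apply add_le_add_right
      exact Finset.single_le_sum (f := fun a => D a)
        (fun a ha => h a (Finset.mem_filter.mp (Finset.mem_of_mem_erase ha)).2) hm1
    · rw [Finsupp.notMem_support_iff.mp hs1, add_zero]
      exact Disc_le_mapDomain_apply r D b h h₀
  · rw [Finsupp.notMem_support_iff.mp hs, zero_add]
    exact Disc_le_mapDomain_apply r D b h h₁

open Classical in
/-- total mass one on a fibre, all masses `≥ 0`: exactly one point of mass one. -/
theorem exists_unique_of_mapDomain_apply_eq_one {α β : Type*} (r : α → β) (D : α →₀ ℤ) (b : β)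
    (h : ∀ a, r a = b → 0 ≤ D a) (h1 : Finsupp.mapDomain r D b = 1) :
    ∃ a₁, r a₁ = b ∧ ∀ a, r a = b → D a = if a = a₁ then 1 else 0 := by
  obtain ⟨a₁, ha₁, hD₁⟩ : ∃ a₁, r a₁ = b ∧ D a₁ ≠ 0 := by
    by_contra hcon
    have h0 : Finsupp.mapDomain r D b = 0 := by
      rw [mapDomain_apply_eq_sum]
      apply Finset.sum_eq_zero
      intro a ha
      by_contra hne
      exact hcon ⟨a, (Finset.mem_filter.mp ha).2, hne⟩
    rw [h0] at h1
    exact zero_ne_one h1
  have hle : D a₁ ≤ 1 := h1 ▸ Disc_le_mapDomain_apply r D b h ha₁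
  have hge : 0 ≤ D a₁ := h a₁ ha₁
  have heq : D a₁ = 1 := by omega
  refine ⟨a₁, ha₁, fun a ha => ?_⟩
  split_ifs with haa
  · rw [haa, heq]
  · have h2 : D a + D a₁ ≤ 1 := h1 ▸ Disc_add_le_mapDomain_apply r D b h ha ha₁ haa
    have h3 : 0 ≤ D a := h a ha
    omega

theorem mapDomain_sub' {α β : Type*} (r : α → β) (D D' : α →₀ ℤ) :
    Finsupp.mapDomain r (D - D') = Finsupp.mapDomain r D - Finsupp.mapDomain r D' :=
  map_sub (Finsupp.mapDomain.addMonoidHom r) D D'

theorem mapDomain_zsmul' {α β : Type*} (r : α → β) (n : ℤ) (D : α →₀ ℤ) :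
    Finsupp.mapDomain r (n • D) = n • Finsupp.mapDomain r D :=
  map_zsmul (Finsupp.mapDomain.addMonoidHom r) n D

variable [IsFF K F] [IsAlgClosed K] [IsFF k Fb] [IsAlgClosed k]

theorem degree_mapDomain (r : Place K F → Place k Fb) (D : Divisor K F) :
    Divisor.degree (Finsupp.mapDomain r D) = Divisor.degree D := by
  rw [degree_eq_sum, degree_eq_sum]
  exact Finsupp.sum_mapDomain_index (fun _ => rfl) (fun _ _ _ => rfl)

namespace IsRedMap

variable {R : RedData K F k Fb} {r : Place K F → Place k Fb}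

theorem ord_red (hr : IsRedMap R r) {y : F} (hy : R.red y ≠ 0) (Q : Place k Fb) :
    Q.ord (R.red y) = Finsupp.mapDomain r (divOf (K := K) y) Q := by
  rw [hr.map_divOf y hy, divOf_apply]

/-- no pole in the disc of `Q` ⟹ the reduction is regular at `Q`. -/
theorem ord_red_nonneg (hr : IsRedMap R r) {y : F} (hy : R.red y ≠ 0) (Q : Place k Fb)
    (h : ∀ P, r P = Q → 0 ≤ P.ord y) : 0 ≤ Q.ord (R.red y) := by
  rw [hr.ord_red hy]
  apply mapDomain_apply_nonneg
  intro P hP
  rw [divOf_apply]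
  exact h P hP

theorem ord_red_pos (hr : IsRedMap R r) {y : F} (hy : R.red y ≠ 0) (Q : Place k Fb)
    (h : ∀ P, r P = Q → 0 ≤ P.ord y) {P₀ : Place K F} (h₀ : r P₀ = Q) (hpos : 0 < P₀.ord y) :
    0 < Q.ord (R.red y) := by
  rw [hr.ord_red hy]
  apply mapDomain_apply_pos r _ Q _ h₀
  · rw [divOf_apply]
    exact hpos
  · intro P hP
    rw [divOf_apply]
    exact h P hP

open Classical in
/-- no pole in the disc, reduction has a simple zero at `Q`: exactly one simple zero in the disc. -/
theorem ord_eq_ite (hr : IsRedMap R r) {y : F} (hy : R.red y ≠ 0) (Q : Place k Fb)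
    (h : ∀ P, r P = Q → 0 ≤ P.ord y) (h1 : Q.ord (R.red y) = 1)
    {P₀ : Place K F} (h₀ : r P₀ = Q) (hpos : 0 < P₀.ord y) :
    ∀ P, r P = Q → P.ord y = if P = P₀ then 1 else 0 := by
  rw [hr.ord_red hy] at h1
  obtain ⟨P₁, hP₁, hall⟩ := exists_unique_of_mapDomain_apply_eq_one r (divOf (K := K) y) Q
    (fun P hP => by rw [divOf_apply]; exact h P hP) h1
  have h01 : P₀ = P₁ := by
    by_contra hne
    have := hall P₀ h₀
    rw [if_neg hne, divOf_apply] at this
    omega
  intro P hP
  have := hall P hP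
  rw [divOf_apply] at this
  rw [this, h01]

/-- `red L(D) ⊆ L̄(r_* D)` for ALL `D`. -/
theorem red_mem_L (hr : IsRedMap R r) {D : Divisor K F} {f : F} (hf : f ∈ riemannRochSpace D) :
    R.red f ∈ riemannRochSpace (Finsupp.mapDomain r D) := by
  by_cases h0 : R.red f = 0
  · rw [h0]
    exact Submodule.zero_mem _
  · rw [mem_L_iff]
    right
    rw [← hr.map_divOf f h0, ← Finsupp.mapDomain_add]
    apply mapDomain_nonneg
    exact (mem_L_iff.mp hf).resolve_left (R.ne_zero_of_red_ne_zero h0)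

theorem exists_lift_L (hr : IsRedMap R r) {D : Divisor K F}
    (hD : 3 * (genusFF K F : ℤ) ≤ Divisor.degree D) {h : Fb}
    (hh : h ∈ riemannRochSpace (Finsupp.mapDomain r D)) :
    ∃ f ∈ riemannRochSpace D, f ∈ R.O ∧ R.red f = h := by
  rw [← hr.redSub_L D hD] at hh
  exact R.mem_redSub.mp hh

/-- Values at points of the disc of `Q` of an integral function `t` without poles in the disc and
with non constant reduction: they are integral, and reduce to the value of `t̄` at `Q`; here only
the case `t̄(Q) = 0`.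

Proof.  `b := t(P)` (`exists_eval`; `t` is not constant).  If `b ∉ A` then `b⁻¹ t - 1` has
reduction `-1`, no pole in the disc and a zero at `P`: contradiction with `ord_red_pos`.
So `b ∈ A`; `t - b` has reduction `t̄ - b̄ ≠ 0`, no pole in the disc and a zero at `P`, so
`ord_Q (t̄ - b̄) > 0`; as `ord_Q t̄ > 0`, `b̄ = 0`. -/
theorem exists_eval_small (hr : IsRedMap R r) {t : F} (Q : Place k Fb)
    (ht : R.red t ∉ Set.range (algebraMap k Fb))
    (h : ∀ P, r P = Q → 0 ≤ P.ord t) (hQ : 0 < Q.ord (R.red t)) {P : Place K F} (hP : r P = Q) :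
    ∃ a : K, a ∈ R.A ∧ R.redA a = 0 ∧ 0 < P.ord (t - algebraMap K F a) := by
  have htne : R.red t ≠ 0 := by
    intro h0
    apply ht
    rw [h0]
    exact ⟨0, map_zero _⟩
  have htO : t ∈ R.O := R.mem_of_red_ne_zero htne
  have ht0 : t ≠ 0 := R.ne_zero_of_red_ne_zero htne
  obtain ⟨b, hb⟩ := exists_eval P (h P hP)
  have hb' : 0 < P.ord (t - algebraMap K F b) := by
    rcases hb with hb | hb
    · exfalso
      apply ht
      rw [hb, R.red_algebraMap']
      exact ⟨_, rfl⟩
    · exact hb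
  have hsub0 : t - algebraMap K F b ≠ 0 := by
    intro h0
    rw [h0, Place.ord_zero] at hb'
    exact lt_irrefl _ hb'
  -- no pole of `t - b` in the disc
  have hnp : ∀ P', r P' = Q → 0 ≤ P'.ord (t - algebraMap K F b) := by
    intro P' hP'
    have h1 := min_le_ord_add P' (f := t) (g := -algebraMap K F b)
      (by rw [← sub_eq_add_neg]; exact hsub0)
    rw [ord_neg, ord_algebraMap, ← sub_eq_add_neg] at h1
    exact le_trans (le_min (h P' hP') (le_refl _)) h1
  have hbA : b ∈ R.A := by
    by_contra hbA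
    have hb0 : b ≠ 0 := fun h0 => hbA (h0 ▸ R.A.zero_mem)
    have hinv : b⁻¹ ∈ R.A := (R.A.mem_or_inv_mem b).resolve_left hbA
    have hinv0 : R.redA b⁻¹ = 0 := by
      by_contra h1
      have := (R.redA_ne_zero_iff.mp h1).2.2
      rw [inv_inv] at this
      exact hbA this
    set y : F := algebraMap K F b⁻¹ * (t - algebraMap K F b) with hy
    have hy' : y = algebraMap K F b⁻¹ * t - 1 := by
      rw [hy, mul_sub, ← map_mul, inv_mul_cancel₀ hb0, map_one]
    have hmem : algebraMap K F b⁻¹ * t ∈ R.O := R.O.mul_mem _ _ (R.algebraMap_mem _ hinv) htO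
    have hred : R.red y = -1 := by
      rw [hy', R.red_sub hmem R.O.one_mem, R.red_mul (R.algebraMap_mem _ hinv) htO,
        R.red_algebraMap hinv, hinv0, map_zero, zero_mul, R.red_one, zero_sub]
    have hredne : R.red y ≠ 0 := by
      rw [hred]
      exact neg_ne_zero.mpr one_ne_zero
    have hc0 : algebraMap K F b⁻¹ ≠ 0 := by
      simpa using hb0
    have hord : ∀ P' : Place K F, P'.ord y = P'.ord (t - algebraMap K F b) := by
      intro P'
      rw [hy, P'.ord_mul hc0 hsub0, ord_algebraMap, zero_add]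
    have hpos := hr.ord_red_pos hredne Q (fun P' hP' => by rw [hord]; exact hnp P' hP') hP
      (by rw [hord]; exact hb')
    rw [hred, ord_neg, ← map_one (algebraMap k Fb), ord_algebraMap] at hpos
    exact lt_irrefl _ hpos
  refine ⟨b, hbA, ?_, hb'⟩
  have hred : R.red (t - algebraMap K F b) = R.red t - algebraMap k Fb (R.redA b) := by
    rw [R.red_sub htO (R.algebraMap_mem _ hbA), R.red_algebraMap hbA]
  have hredne : R.red (t - algebraMap K F b) ≠ 0 := by
    rw [hred]
    intro h0
    apply ht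
    exact ⟨_, (sub_eq_zero.mp h0).symm⟩
  have hpos := hr.ord_red_pos hredne Q hnp hP hb'
  rw [hred] at hpos
  by_contra hne
  -- `b̄ = t̄ - (t̄ - b̄)` has positive order
  have hcne : algebraMap k Fb (R.redA b) ≠ 0 := by
    simpa using hne
  have h1 := min_le_ord_add Q (f := R.red t) (g := -(R.red t - algebraMap k Fb (R.redA b)))
    (by rw [← sub_eq_add_neg, sub_sub_cancel]; exact hcne)
  rw [ord_neg, ← sub_eq_add_neg, sub_sub_cancel, ord_algebraMap] at h1
  have h2 := lt_min hQ hpos
  omega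

end IsRedMap

end Fermat.Agent.GAL.RED
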