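import Fermat.Agent.GAL.RED.Disc

/-!
# GAL-RED leaf D1: a coordinate on a residue disc.
-/

set_option autoImplicit false

namespace Fermat.Agent.GAL.RED

open AlgebraicCurve Fermat.Agent.Lib.RR

variable {K F k Fb : Type*} [Field K] [Field F] [Algebra K F] [Field k] [Field Fb] [Algebra k Fb]
variable [IsFF K F] [IsAlgClosed K] [IsFF k Fb] [IsAlgClosed k]

omit [IsFF K F] [IsAlgClosed K] [IsFF k Fb] [IsAlgClosed k] in
/-- subtracting a small constant does not change the reduction. -/
theorem DiscParam_sub_small {R : RedData K F k Fb} {t : F} (ht : R.red t ≠ 0) {a : K}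
    (ha : a ∈ R.A) (ha0 : R.redA a = 0) :
    R.red (t - algebraMap K F a) = R.red t := by
  rw [R.red_sub (R.mem_of_red_ne_zero ht) (R.algebraMap_mem _ ha), R.red_algebraMap ha, ha0,
    map_zero, sub_zero]

omit [IsFF K F] [IsAlgClosed K] in
theorem DiscParam_ord_sub_nonneg (P : Place K F) {t : F} (a : K) (h : 0 ≤ P.ord t)
    (hne : t - algebraMap K F a ≠ 0) : 0 ≤ P.ord (t - algebraMap K F a) := by
  have h1 := min_le_ord_add P (f := t) (g := -algebraMap K F a)
    (by rw [← sub_eq_add_neg]; exact hne)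
  rw [ord_neg, ord_algebraMap, ← sub_eq_add_neg] at h1
  exact le_trans (le_min h (le_refl _)) h1

open Classical in
/-- For `P₀` in the disc of `Q` there is an integral `t` whose reduction is a local parameter at
`Q`, which on the disc has exactly one simple zero, at `P₀`, and no pole, and such that every point
`P₁` of the disc is the unique (simple) zero on the disc of `t - a` for some `a ∈ 𝔪_A`. -/
theorem exists_disc_param {R : RedData K F k Fb} {r : Place K F → Place k Fb} (hr : IsRedMap R r)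
    (hg : genusFF K F = genusFF k Fb)
    (Q : Place k Fb) (P₀ : Place K F) (h₀ : r P₀ = Q) :
    ∃ t : F, R.red t ≠ 0 ∧ Q.ord (R.red t) = 1 ∧
      (∀ P, r P = Q → P.ord t = if P = P₀ then 1 else 0) ∧
      ∀ P₁, r P₁ = Q → ∃ a : K, a ∈ R.A ∧ R.redA a = 0 ∧
        R.red (t - algebraMap K F a) = R.red t ∧
        ∀ P, r P = Q → P.ord (t - algebraMap K F a) = if P = P₁ then 1 else 0 := by
  have : Infinite (Place k Fb) := infinite_place (K := k) (F := Fb)
  obtain ⟨Q', hQ'⟩ := exists_ne Q
  obtain ⟨P', hP'⟩ := hr.surjective Q'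
  set n : ℕ := 3 * genusFF K F + 1 with hn
  obtain ⟨tb, htbL, htbQ⟩ := exists_param (K := k) (F := Fb) hQ'.symm n (by rw [hn, hg]; omega)
  have hmap : Finsupp.mapDomain r (n • pt P') = n • pt Q' := by
    rw [Finsupp.mapDomain_smul, Finsupp.mapDomain_single, hP']
  have hdeg : 3 * (genusFF K F : ℤ) ≤ Divisor.degree (n • pt P') := by
    rw [map_nsmul, degree_pt, deg_eq_one, hn]
    simp
  rw [← hmap] at htbL
  obtain ⟨t0, ht0L, ht0O, ht0red⟩ := hr.exists_lift_L hdeg htbL
  have htb0 : tb ≠ 0 := by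
    rintro rfl
    rw [Place.ord_zero] at htbQ
    exact zero_ne_one htbQ
  have htbnc : tb ∉ Set.range (algebraMap k Fb) := by
    rintro ⟨c, rfl⟩
    rw [ord_algebraMap] at htbQ
    exact zero_ne_one htbQ
  have ht0ne : R.red t0 ≠ 0 := by rw [ht0red]; exact htb0
  have ht00 : t0 ≠ 0 := R.ne_zero_of_red_ne_zero ht0ne
  have hnp0 : ∀ P, r P = Q → 0 ≤ P.ord t0 := by
    intro P hP
    have hPP' : P' ≠ P := by
      rintro rfl
      exact hQ' (hP'.symm.trans hP)
    have h1 := ((mem_riemannRochSpace_iff.mp ht0L) P).resolve_left ht00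
    rw [Finsupp.smul_apply, Finsupp.single_apply, if_neg hPP', smul_zero, neg_zero] at h1
    exact h1
  obtain ⟨a0, ha0A, ha00, ha0pos⟩ := hr.exists_eval_small Q (by rw [ht0red]; exact htbnc) hnp0
    (by rw [ht0red, htbQ]; exact one_pos) h₀
  set t : F := t0 - algebraMap K F a0 with ht
  have htred : R.red t = tb := by rw [ht, DiscParam_sub_small ht0ne ha0A ha00, ht0red]
  have htne : R.red t ≠ 0 := by rw [htred]; exact htb0
  have ht0' : t ≠ 0 := R.ne_zero_of_red_ne_zero htne
  have hnp : ∀ P, r P = Q → 0 ≤ P.ord t := fun P hP =>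
    DiscParam_ord_sub_nonneg P a0 (hnp0 P hP) ht0'
  refine ⟨t, htne, by rw [htred, htbQ], ?_, ?_⟩
  · exact hr.ord_eq_ite htne Q hnp (by rw [htred, htbQ]) h₀ ha0pos
  · intro P₁ hP₁
    obtain ⟨a, haA, ha0, hapos⟩ := hr.exists_eval_small Q (by rw [htred]; exact htbnc) hnp
      (by rw [htred, htbQ]; exact one_pos) hP₁
    have hred : R.red (t - algebraMap K F a) = R.red t := DiscParam_sub_small htne haA ha0
    have hne : R.red (t - algebraMap K F a) ≠ 0 := by rw [hred]; exact htne
    refine ⟨a, haA, ha0, hred, ?_⟩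
    exact hr.ord_eq_ite hne Q
      (fun P hP => DiscParam_ord_sub_nonneg P a (hnp P hP) (R.ne_zero_of_red_ne_zero hne))
      (by rw [hred, htred, htbQ]) hP₁ hapos

end Fermat.Agent.GAL.RED
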