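import Fermat.Agent.GAL.RED.Basic

/-!
# GAL-RED leaf A1: scaling, lifting of independence, `dim red L ≤ dim L`, consequences of
`IsCartesian`.
-/

set_option autoImplicit false

namespace Fermat.Agent.GAL.RED

open AlgebraicCurve Fermat.Agent.Lib.RR

variable {K F k Fb : Type*} [Field K] [Field F] [Algebra K F] [Field k] [Field Fb] [Algebra k Fb]

namespace RedData

variable (R : RedData K F k Fb)

/-- A nonzero finite family of constants can be scaled to be integral with one unit entry
(take `a = (c i₀)⁻¹` with `|c i₀|` maximal: induction on the finite set, `A` is a valuation ring). -/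
theorem exists_scale_family {ι : Type*} [Finite ι] (c : ι → K) (hc : c ≠ 0) :
    ∃ a : K, a ≠ 0 ∧ (∀ i, a * c i ∈ R.A) ∧ ∃ i, R.redA (a * c i) ≠ 0 := by
  obtain ⟨j, hj⟩ : ∃ j, c j ≠ 0 := by
    by_contra hcon
    push Not at hcon
    exact hc (funext hcon)
  have : Nonempty ι := ⟨j⟩
  obtain ⟨i₀, hi₀⟩ := Finite.exists_max (fun i => R.A.valuation (c i))
  have h0 : c i₀ ≠ 0 := by
    intro h
    have h1 := hi₀ j
    simp only [h, map_zero, le_zero_iff, map_eq_zero] at h1
    exact hj h1
  have hv0 : 0 < R.A.valuation (c i₀) := zero_lt_iff.mpr (by simpa using h0)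
  refine ⟨(c i₀)⁻¹, inv_ne_zero h0, fun i => ?_, i₀, ?_⟩
  · rw [← R.A.valuation_le_one_iff, map_mul, map_inv₀, inv_mul_le_iff₀ hv0, mul_one]
    exact hi₀ i
  · rw [inv_mul_cancel₀ h0, redA_one]
    exact one_ne_zero

/-- The same for a finite family of polynomials. -/
theorem exists_scale_poly {n : ℕ} (p : Fin n → Polynomial K) (hp : p ≠ 0) :
    ∃ (a : K) (q : Fin n → Polynomial R.A), a ≠ 0 ∧
      (∀ i, (q i).map R.A.subtype = Polynomial.C a * p i) ∧
      (fun i => (q i).map R.resA) ≠ 0 := by
  let c : (Σ i : Fin n, Fin ((p i).natDegree + 1)) → K := fun x => (p x.1).coeff x.2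
  have hc : c ≠ 0 := by
    obtain ⟨i, hi⟩ : ∃ i, p i ≠ 0 := by
      by_contra hcon
      push Not at hcon
      exact hp (funext hcon)
    intro h
    have h1 := congrFun h ⟨i, Fin.last _⟩
    have h2 : (p i).coeff (p i).natDegree = 0 := h1
    exact hi (Polynomial.leadingCoeff_eq_zero.mp h2)
  obtain ⟨a, ha, hmem, ⟨i₁, j₁⟩, hne⟩ := R.exists_scale_family c hc
  have hmem' : ∀ (i : Fin n) (j : ℕ), a * (p i).coeff j ∈ R.A := by
    intro i j
    by_cases hj : j < (p i).natDegree + 1
    · exact hmem ⟨i, ⟨j, hj⟩⟩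
    · rw [Polynomial.coeff_eq_zero_of_natDegree_lt (by omega), mul_zero]
      exact R.A.zero_mem
  have hlift : ∀ i, ∃ q : Polynomial R.A, q.map R.A.subtype = Polynomial.C a * p i := by
    intro i
    rw [← Polynomial.mem_lifts, Polynomial.lifts_iff_coeff_lifts]
    intro j
    rw [Polynomial.coeff_C_mul]
    exact ⟨⟨_, hmem' i j⟩, rfl⟩
  choose q hq using hlift
  refine ⟨a, q, ha, hq, fun h => hne ?_⟩
  have h1 : ((q i₁).map R.resA).coeff j₁ = 0 := by
    have h0 : (q i₁).map R.resA = 0 := congrFun h i₁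
    rw [h0]
    simp
  rw [Polynomial.coeff_map] at h1
  have h2 : (((q i₁).coeff j₁ : R.A) : K) = a * (p i₁).coeff j₁ := by
    have := congrArg (fun r => Polynomial.coeff r (j₁ : ℕ)) (hq i₁)
    simp only [Polynomial.coeff_map, Polynomial.coeff_C_mul] at this
    exact this
  show R.redA (a * (p i₁).coeff j₁) = 0
  rw [← h2, R.redA_of_mem ((q i₁).coeff j₁).2]
  exact h1

/-- Lifts of `k`-independent elements are `K`-independent. -/
theorem linearIndependent_of_red {ι : Type*} {z : ι → F} (hz : ∀ i, z i ∈ R.O)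
    (h : LinearIndependent k (fun i => R.red (z i))) : LinearIndependent K z := by
  rw [linearIndependent_iff'] at h ⊢
  intro s g hg
  by_contra hcon
  push Not at hcon
  obtain ⟨i₀, hi₀, hgi₀⟩ := hcon
  have hc : (fun i : s => g i) ≠ 0 := fun h0 => hgi₀ (congrFun h0 ⟨i₀, hi₀⟩)
  obtain ⟨a, -, hmem, ⟨i₁, hi₁⟩, hne⟩ := R.exists_scale_family (fun i : s => g i) hc
  have hmem' : ∀ i ∈ s, a * g i ∈ R.A := fun i hi => hmem ⟨i, hi⟩
  have h1 : ∑ i ∈ s, (a * g i) • z i = 0 := by
    simp_rw [mul_smul]
    rw [← Finset.smul_sum, hg, smul_zero]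
  have h2 : ∑ i ∈ s, R.redA (a * g i) • R.red (z i) = 0 := by
    have h3 := R.red_sum s (fun i => (a * g i) • z i)
      (fun i hi => R.smul_mem (hmem' i hi) (hz i))
    rw [h1, red_zero] at h3
    rw [h3]
    exact Finset.sum_congr rfl fun i hi => (R.red_smul (hmem' i hi) (hz i)).symm
  exact hne (h s (fun i => R.redA (a * g i)) h2 i₁ hi₁)

/-- Lifts of `k[ȳ]`-independent elements are `K[y]`-independent. -/
theorem polyIndep_of_red {y : F} (hy : y ∈ R.O) {n : ℕ} {z : Fin n → F} (hz : ∀ i, z i ∈ R.O)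
    (h : PolyIndep k (R.red y) (fun i => R.red (z i))) : PolyIndep K y z := by
  intro p hp
  by_contra hcon
  obtain ⟨a, q, -, hq, hne⟩ := R.exists_scale_poly p hcon
  apply hne
  apply h
  have h1 : ∑ i, Polynomial.aeval y ((q i).map R.A.subtype) * z i = 0 := by
    simp_rw [hq, map_mul, Polynomial.aeval_C, mul_assoc]
    rw [← Finset.mul_sum, hp, mul_zero]
  have h3 := R.red_sum Finset.univ (fun i => Polynomial.aeval y ((q i).map R.A.subtype) * z i)
    (fun i _ => R.O.mul_mem _ _ (R.aeval_map_mem (q i) hy) (hz i))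
  rw [h1, red_zero] at h3
  rw [h3]
  refine Finset.sum_congr rfl fun i _ => ?_
  rw [R.red_mul (R.aeval_map_mem (q i) hy) (hz i), R.red_aeval_map (q i) hy]

theorem redSub_mono {L L' : Submodule K F} (h : L ≤ L') : R.redSub L ≤ R.redSub L' := by
  rintro _ ⟨f, hf, hfO, rfl⟩
  exact ⟨f, h hf, hfO, rfl⟩

theorem Lift_rank_redSub_le (L : Submodule K F) [Module.Finite K L] :
    Module.rank k (R.redSub L) ≤ (Module.finrank K L : ℕ) := by
  apply rank_le
  intro s hs
  have hex : ∀ i : s, ∃ f : F, f ∈ L ∧ f ∈ R.O ∧ R.red f = ((i : R.redSub L) : Fb) :=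
    fun i => (i : R.redSub L).2
  choose f hfL hfO hfr using hex
  have h1 : LinearIndependent k (fun i : s => R.red (f i)) := by
    have h2 : LinearIndependent k (fun i : s => ((i : R.redSub L) : Fb)) :=
      hs.map' (R.redSub L).subtype (Submodule.ker_subtype _)
    simpa only [hfr] using h2
  have h3 : LinearIndependent K f := R.linearIndependent_of_red hfO h1
  have h4 : LinearIndependent K (fun i : s => (⟨f i, hfL i⟩ : L)) :=
    LinearIndependent.of_comp L.subtype h3
  have h5 := h4.fintype_card_le_finrank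
  simpa using h5

theorem finite_redSub (L : Submodule K F) [Module.Finite K L] : Module.Finite k (R.redSub L) := by
  rw [← Module.rank_lt_aleph0_iff]
  exact lt_of_le_of_lt (R.Lift_rank_redSub_le L) Cardinal.natCast_lt_aleph0

theorem finrank_redSub_le (L : Submodule K F) [Module.Finite K L] :
    Module.finrank k (R.redSub L) ≤ Module.finrank K L :=
  Module.finrank_le_of_rank_le (R.Lift_rank_redSub_le L)

variable {R}

/-- (U): the value group of `O` is that of `A` (apply `IsCartesian` to the line `K f`). -/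
theorem IsCartesian.exists_scale (hC : R.IsCartesian) {f : F} (hf : f ≠ 0) :
    ∃ c : K, c ≠ 0 ∧ R.red (algebraMap K F c * f) ≠ 0 := by
  have h1 : Module.finrank k (R.redSub (Submodule.span K {f})) = 1 := by
    rw [hC _ inferInstance, finrank_span_singleton hf]
  have h2 : R.redSub (Submodule.span K {f}) ≠ ⊥ := by
    intro h
    rw [h, finrank_bot] at h1
    exact zero_ne_one h1
  obtain ⟨_, ⟨g, hgL, -, rfl⟩, hne⟩ := (Submodule.ne_bot_iff _).mp h2
  obtain ⟨c, rfl⟩ := Submodule.mem_span_singleton.mp hgL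
  refine ⟨c, ?_, ?_⟩
  · rintro rfl
    rw [zero_smul, red_zero] at hne
    exact hne rfl
  · rwa [← Algebra.smul_def]

/-- apply `IsCartesian` to the plane `K + K f`. -/
theorem IsCartesian.exists_nonconstant (hC : R.IsCartesian) {f : F}
    (hf : f ∉ Set.range (algebraMap K F)) :
    ∃ a b : K, R.red (algebraMap K F a + algebraMap K F b * f) ∉ Set.range (algebraMap k Fb) := by
  by_contra hcon
  push Not at hcon
  have hli : LinearIndependent K ![(1 : F), f] := by
    rw [LinearIndependent.pair_iff]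
    intro s t hst
    have ht : t = 0 := by
      by_contra ht
      apply hf
      refine ⟨-(s / t), ?_⟩
      have h1 : t • f = -(s • (1 : F)) := by
        rw [eq_neg_iff_add_eq_zero, add_comm]; exact hst
      have h2 : f = t⁻¹ • (t • f) := by rw [smul_smul, inv_mul_cancel₀ ht, one_smul]
      rw [h2, h1, Algebra.algebraMap_eq_smul_one, smul_neg, smul_smul, ← neg_smul]
      congr 1
      field_simp
    refine ⟨?_, ht⟩
    rw [ht, zero_smul, add_zero] at hst
    exact (smul_eq_zero.mp hst).resolve_right one_ne_zero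
  set L : Submodule K F := Submodule.span K (Set.range ![(1 : F), f]) with hL
  have hfin : Module.Finite K L := by
    rw [hL]
    exact Module.Finite.span_of_finite K (Set.finite_range _)
  have h1 : Module.finrank k (R.redSub L) = 2 := by
    rw [hC _ hfin, hL, finrank_span_eq_card hli]
    simp
  have h2 : R.redSub L ≤ Submodule.span k {(1 : Fb)} := by
    rintro _ ⟨g, hgL, -, rfl⟩
    obtain ⟨c, rfl⟩ := (Submodule.mem_span_range_iff_exists_fun K).mp hgL
    obtain ⟨d, hd⟩ := hcon (c 0) (c 1)
    rw [Submodule.mem_span_singleton]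
    refine ⟨d, ?_⟩
    rw [← Algebra.algebraMap_eq_smul_one, hd, Fin.sum_univ_two]
    congr 1
    simp [Algebra.smul_def]
  have h3 := Submodule.finrank_mono h2
  rw [h1, finrank_span_singleton one_ne_zero] at h3
  omega

/-- dimension count. -/
theorem IsCartesian.redSub_eq (hC : R.IsCartesian) {L : Submodule K F} [Module.Finite K L]
    {M : Submodule k Fb} [Module.Finite k M] (hle : R.redSub L ≤ M)
    (hd : Module.finrank k M ≤ Module.finrank K L) : R.redSub L = M := by
  apply Submodule.eq_of_le_of_finrank_le hle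
  rw [hC L inferInstance]
  exact hd

end RedData

end Fermat.Agent.GAL.RED
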