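import Fermat.Agent.GAL.RED.DiscParam

/-!
# GAL-RED leaf D2: the local claim.
-/

set_option autoImplicit false

namespace Fermat.Agent.GAL.RED

open AlgebraicCurve Fermat.Agent.Lib.RR

/-- binomial expansion to first order inside a subring. -/
theorem local_exists_binom {F : Type*} [Field F] (O : ValuationSubring F) {x : F} (hx : x ∈ O)
    (m : ℕ) : ∃ G ∈ O, (1 + x) ^ m = 1 + (m : F) * x + x ^ 2 * G := by
  induction m with
  | zero => exact ⟨0, O.zero_mem, by simp⟩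
  | succ m ih =>
    obtain ⟨G, hG, h⟩ := ih
    refine ⟨(m : F) + G + x * G, ?_, ?_⟩
    · exact O.add_mem _ _ (O.add_mem _ _ (natCast_mem O m) hG) (O.mul_mem _ _ hx hG)
    · rw [pow_succ, h]
      push_cast
      ring

variable {K F k Fb : Type*} [Field K] [Field F] [Algebra K F] [Field k] [Field Fb] [Algebra k Fb]

/-- if `γ y₁ ∈ O` with `y₁` a unit of `O` then `γ ∈ A`. -/
theorem local_mem_A_of_mul_mem (R : RedData K F k Fb) {γ : K} {y₁ : F} (hy₁ : R.red y₁ ≠ 0)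
    (h : algebraMap K F γ * y₁ ∈ R.O) : γ ∈ R.A := by
  rw [← R.algebraMap_mem_iff]
  have h1 : algebraMap K F γ = algebraMap K F γ * y₁ * y₁⁻¹ := by
    rw [mul_assoc, mul_inv_cancel₀ (R.ne_zero_of_red_ne_zero hy₁), mul_one]
  rw [h1]
  exact R.O.mul_mem _ _ h (R.inv_mem_of_red_ne_zero hy₁)

/-- the order of `c̄ · h` is `0` or the order of `h`. -/
theorem local_le_ord_const_mul (Q : Place k Fb) (c : k) (h : Fb) {n : ℤ} (hn : n ≤ 0)
    (hh : n ≤ Q.ord h) : n ≤ Q.ord (algebraMap k Fb c * h) := by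
  rcases eq_or_ne c 0 with rfl | hc
  · simpa using hn
  rcases eq_or_ne h 0 with rfl | hh0
  · simpa using hn
  rw [Q.ord_mul ((map_ne_zero _).2 hc) hh0, ord_algebraMap, zero_add]
  exact hh

variable [IsFF K F] [IsAlgClosed K] [IsFF k Fb] [IsAlgClosed k]

open Classical in
/-- If `1 + π f₁` (`π ∈ 𝔪_A`, `v(f₁) = 0`) has divisor `m (P₁ - P₀)` on the disc of `Q`, `m`
invertible in `k`, then `f̄₁` has at most a simple pole at `Q`. -/
theorem local_claim {R : RedData K F k Fb} {r : Place K F → Place k Fb} (hC : R.IsCartesian)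
    (hg : genusFF K F = genusFF k Fb) (hr : IsRedMap R r) (m : ℕ) (hm : (m : k) ≠ 0)
    (Q : Place k Fb) (P₀ P₁ : Place K F) (h₀ : r P₀ = Q) (h₁ : r P₁ = Q)
    (f₁ : F) (hf₁ : R.red f₁ ≠ 0) (π : K) (hπ0 : π ≠ 0) (hπA : π ∈ R.A) (hπ : R.redA π = 0)
    (hdiv : ∀ P, r P = Q → P.ord (1 + algebraMap K F π * f₁) =
      (m : ℤ) * ((if P = P₁ then 1 else 0) - (if P = P₀ then 1 else 0))) :
    -1 ≤ Q.ord (R.red f₁) := by
  obtain ⟨t, ht0, htQ, htord, hta⟩ := exists_disc_param hr hg Q P₀ h₀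
  obtain ⟨a, haA, ha0, hred, haord⟩ := hta P₁ h₁
  -- notation
  set α : F := algebraMap K F a with hα
  set ϖ : F := algebraMap K F π with hϖ
  set s : F := t - α with hs
  set w : F := s⁻¹ with hw
  have hf₁O : f₁ ∈ R.O := R.mem_of_red_ne_zero hf₁
  have hαO : α ∈ R.O := R.algebraMap_mem a haA
  have hϖO : ϖ ∈ R.O := R.algebraMap_mem π hπA
  have hαred : R.red α = 0 := by rw [hα, R.red_algebraMap haA, ha0, map_zero]
  have hϖred : R.red ϖ = 0 := by rw [hϖ, R.red_algebraMap hπA, hπ, map_zero]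
  have hsred : R.red s ≠ 0 := by rw [hred]; exact ht0
  have hs0 : s ≠ 0 := R.ne_zero_of_red_ne_zero hsred
  have ht00 : t ≠ 0 := R.ne_zero_of_red_ne_zero ht0
  have hwO : w ∈ R.O := R.inv_mem_of_red_ne_zero hsred
  have hwred : R.red w = (R.red t)⁻¹ := by rw [hw, R.red_inv, hred]
  have hw0 : w ≠ 0 := inv_ne_zero hs0
  have htw : t * w = 1 + α * w := by
    have : t = s + α := by rw [hs]; ring
    rw [this, add_mul, hw, mul_inv_cancel₀ hs0]
  obtain ⟨G, hGO, hG⟩ := local_exists_binom R.O (R.O.mul_mem _ _ hαO hwO) m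
  set z₁ : F := (m : F) * w + α * (w ^ 2 * G) with hz₁
  have hmO : (m : F) ∈ R.O := natCast_mem R.O m
  have hw2G : w ^ 2 * G ∈ R.O := R.O.mul_mem _ _ (pow_mem hwO 2) hGO
  have hz₁O : z₁ ∈ R.O := R.O.add_mem _ _ (R.O.mul_mem _ _ hmO hwO) (R.O.mul_mem _ _ hαO hw2G)
  have hmred : R.red (m : F) = algebraMap k Fb (m : k) := by
    have : (m : F) = algebraMap K F (m : K) := by simp
    rw [this, R.red_algebraMap', R.redA_natCast]
  have hz₁red : R.red z₁ = algebraMap k Fb (m : k) * (R.red t)⁻¹ := by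
    rw [hz₁, R.red_add_of_red_eq_zero (R.O.mul_mem _ _ hmO hwO) (R.O.mul_mem _ _ hαO hw2G)
      (by rw [R.red_mul hαO hw2G, hαred, zero_mul]), R.red_mul hmO hwO, hmred, hwred]
  have hmk : algebraMap k Fb (m : k) ≠ 0 := (map_ne_zero _).2 hm
  have hz₁ne : R.red z₁ ≠ 0 := by
    rw [hz₁red]
    exact mul_ne_zero hmk (inv_ne_zero ht0)
  have hz₁ord : Q.ord (R.red z₁) = -1 := by
    rw [hz₁red, Q.ord_mul hmk (inv_ne_zero ht0), ord_algebraMap, Q.ord_inv, htQ, zero_add]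
  have htwm : (t * w) ^ m = 1 + α * z₁ := by
    rw [htw, hG, hz₁]
    ring
  set fp : F := 1 + ϖ * f₁ with hfp
  have hϖf₁O : ϖ * f₁ ∈ R.O := R.O.mul_mem _ _ hϖO hf₁O
  have hfpred : R.red fp = 1 := by
    rw [hfp, R.red_add_of_red_eq_zero R.O.one_mem hϖf₁O
      (by rw [R.red_mul hϖO hf₁O, hϖred, zero_mul]), R.red_one]
  have hfp0 : fp ≠ 0 := R.ne_zero_of_red_ne_zero (by rw [hfpred]; exact one_ne_zero)
  set y : F := fp * (t * w) ^ m with hy
  have hy0 : y ≠ 0 := mul_ne_zero hfp0 (pow_ne_zero _ (mul_ne_zero ht00 hw0))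
  have hyord : ∀ P, r P = Q → P.ord y = 0 := by
    intro P hP
    rw [hy, P.ord_mul hfp0 (pow_ne_zero _ (mul_ne_zero ht00 hw0)), ord_pow,
      P.ord_mul ht00 hw0, hw, P.ord_inv, hdiv P hP, htord P hP, haord P hP]
    ring
  have hy1 : y - 1 = ϖ * f₁ + α * z₁ + ϖ * α * (f₁ * z₁) := by
    rw [hy, htwm, hfp]
    ring
  -- scaling of `y - 1`
  obtain ⟨c, y₁, hcy, hy₁red, hy₁ord⟩ : ∃ (c : K) (y₁ : F), y - 1 = algebraMap K F c * y₁ ∧
      R.red y₁ ≠ 0 ∧ ∀ P, r P = Q → 0 ≤ P.ord y₁ := by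
    by_cases h1 : y - 1 = 0
    · refine ⟨0, 1, by rw [h1]; simp, by rw [R.red_one]; exact one_ne_zero, fun P _ => ?_⟩
      rw [P.ord_one]
    · obtain ⟨c', hc', hc'red⟩ := hC.exists_scale h1
      refine ⟨c'⁻¹, algebraMap K F c' * (y - 1), ?_, hc'red, fun P hP => ?_⟩
      · rw [← mul_assoc, ← map_mul, inv_mul_cancel₀ hc', map_one, one_mul]
      · rw [P.ord_mul ((map_ne_zero _).2 hc') h1, ord_algebraMap, zero_add]
        have h2 : y + (-1) ≠ 0 := by rwa [← sub_eq_add_neg]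
        have h3 := min_le_ord_add P h2
        rw [ord_neg, P.ord_one, hyord P hP, min_self, ← sub_eq_add_neg] at h3
        exact h3
  have hy₁Q : 0 ≤ Q.ord (R.red y₁) := hr.ord_red_nonneg hy₁red Q hy₁ord
  have hy₁O : y₁ ∈ R.O := R.mem_of_red_ne_zero hy₁red
  have hf₁z₁O : f₁ * z₁ ∈ R.O := R.O.mul_mem _ _ hf₁O hz₁O
  have hϖ0 : ϖ ≠ 0 := (map_ne_zero _).2 hπ0
  -- case II
  have caseII : a / π ∈ R.A → -1 ≤ Q.ord (R.red f₁) := by
    intro hβA
    set β : K := a / π with hβ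
    have haβ : α = ϖ * algebraMap K F β := by
      rw [hα, hϖ, ← map_mul, hβ, mul_div_cancel₀ _ hπ0]
    have hβO : algebraMap K F β ∈ R.O := R.algebraMap_mem β hβA
    have hE : algebraMap K F (c / π) * y₁ = f₁ + algebraMap K F β * z₁ + α * (f₁ * z₁) := by
      have h2 : ϖ * (algebraMap K F (c / π) * y₁) =
          ϖ * (f₁ + algebraMap K F β * z₁ + α * (f₁ * z₁)) := by
        have h3 : ϖ * (algebraMap K F (c / π) * y₁) = algebraMap K F c * y₁ := by
          rw [← mul_assoc, hϖ, ← map_mul, mul_div_cancel₀ _ hπ0]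
        rw [h3, ← hcy, hy1]
        have h5 : α * z₁ = ϖ * (algebraMap K F β * z₁) := by rw [haβ]; ring
        rw [h5]
        ring
      exact mul_left_cancel₀ hϖ0 h2
    have hβz₁O : algebraMap K F β * z₁ ∈ R.O := R.O.mul_mem _ _ hβO hz₁O
    have hαfzO : α * (f₁ * z₁) ∈ R.O := R.O.mul_mem _ _ hαO hf₁z₁O
    have hLO : f₁ + algebraMap K F β * z₁ + α * (f₁ * z₁) ∈ R.O :=
      R.O.add_mem _ _ (R.O.add_mem _ _ hf₁O hβz₁O) hαfzO
    have hγA : c / π ∈ R.A := local_mem_A_of_mul_mem R hy₁red (by rw [hE]; exact hLO)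
    have hredE := congrArg R.red hE
    rw [R.red_mul (R.algebraMap_mem _ hγA) hy₁O, R.red_algebraMap hγA,
      R.red_add_of_red_eq_zero (R.O.add_mem _ _ hf₁O hβz₁O) hαfzO
        (by rw [R.red_mul hαO hf₁z₁O, hαred, zero_mul]),
      R.red_add hf₁O hβz₁O, R.red_mul hβO hz₁O, R.red_algebraMap hβA] at hredE
    have hf₁eq : R.red f₁ = algebraMap k Fb (R.redA (c / π)) * R.red y₁ +
        -(algebraMap k Fb (R.redA β) * R.red z₁) := by
      rw [hredE]
      ring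
    have hne : algebraMap k Fb (R.redA (c / π)) * R.red y₁ +
        -(algebraMap k Fb (R.redA β) * R.red z₁) ≠ 0 := by
      rw [← hf₁eq]
      exact hf₁
    have h4 := min_le_ord_add Q hne
    rw [← hf₁eq, ord_neg] at h4
    refine le_trans (le_min ?_ ?_) h4
    · exact local_le_ord_const_mul Q _ _ (by norm_num) (by omega)
    · exact local_le_ord_const_mul Q _ _ (by norm_num) (by omega)
  rcases R.div_mem_or_small a π hπ0 with hII | ⟨hδA, hδ0⟩
  · exact caseII hII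
  · by_cases ha : a = 0
    · apply caseII
      rw [ha, zero_div]
      exact R.A.zero_mem
    -- case I
    exfalso
    set δ : K := π / a with hδ
    have hα0 : α ≠ 0 := (map_ne_zero _).2 ha
    have hπδ : ϖ = α * algebraMap K F δ := by
      rw [hα, hϖ, ← map_mul, hδ, mul_div_cancel₀ _ ha]
    have hδO : algebraMap K F δ ∈ R.O := R.algebraMap_mem δ hδA
    have hδred : R.red (algebraMap K F δ) = 0 := by rw [R.red_algebraMap hδA, hδ0, map_zero]
    have hE : algebraMap K F (c / a) * y₁ = z₁ + algebraMap K F δ * f₁ + ϖ * (f₁ * z₁) := by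
      have h2 : α * (algebraMap K F (c / a) * y₁) =
          α * (z₁ + algebraMap K F δ * f₁ + ϖ * (f₁ * z₁)) := by
        have h3 : α * (algebraMap K F (c / a) * y₁) = algebraMap K F c * y₁ := by
          rw [← mul_assoc, hα, ← map_mul, mul_div_cancel₀ _ ha]
        rw [h3, ← hcy, hy1]
        have h5 : ϖ * f₁ = α * (algebraMap K F δ * f₁) := by rw [hπδ]; ring
        rw [h5]
        ring
      exact mul_left_cancel₀ hα0 h2
    have hδf₁O : algebraMap K F δ * f₁ ∈ R.O := R.O.mul_mem _ _ hδO hf₁O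
    have hϖfzO : ϖ * (f₁ * z₁) ∈ R.O := R.O.mul_mem _ _ hϖO hf₁z₁O
    have hLO : z₁ + algebraMap K F δ * f₁ + ϖ * (f₁ * z₁) ∈ R.O :=
      R.O.add_mem _ _ (R.O.add_mem _ _ hz₁O hδf₁O) hϖfzO
    have hγA : c / a ∈ R.A := local_mem_A_of_mul_mem R hy₁red (by rw [hE]; exact hLO)
    have hredE := congrArg R.red hE
    rw [R.red_mul (R.algebraMap_mem _ hγA) hy₁O, R.red_algebraMap hγA,
      R.red_add_of_red_eq_zero (R.O.add_mem _ _ hz₁O hδf₁O) hϖfzO
        (by rw [R.red_mul hϖO hf₁z₁O, hϖred, zero_mul]),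
      R.red_add_of_red_eq_zero hz₁O hδf₁O
        (by rw [R.red_mul hδO hf₁O, hδred, zero_mul])] at hredE
    have h6 : (0 : ℤ) ≤ Q.ord (R.red z₁) := by
      rw [← hredE]
      exact local_le_ord_const_mul Q _ _ le_rfl hy₁Q
    rw [hz₁ord] at h6
    omega

end Fermat.Agent.GAL.RED
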